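import Fermat.Agent.CFT.Global.FirstIneqSplit

/-!
# The idele norm subgroup `N_{L/K} J_L ≤ J_K`: powers and ideles close to `1`

`FirstIneq.ideleNormSubgroup K L : Subgroup (ideleGroup K)` (file `FirstIneqSplit.lean`) is the
group of ideles `x` of `K` whose image in `J_L` is `∏ σ, σ • y` for some idele `y` of `L`.

* `pow_finrank_mem_ideleNormSubgroup`: for a Galois extension, `x ^ [L : K]` is a norm;
* `singleIdele q`: the idele with a given component at `q` and trivial components elsewhere;
* `mem_ideleNormSubgroup_of_near_one`: an idele which is `1` outside a finite set `T` of primes and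
  close to `1` at the primes of `T` is a norm (it is an `[L : K]`-th power).
-/

set_option autoImplicit false
set_option linter.unusedSectionVars false

namespace Fermat.Agent.CFT.Second

open Fermat.Agent.CFT Fermat.Agent.CFT.FirstIneq

section NormSubgroup

variable {K : Type} (L : Type) [Field K] [Field L] [Algebra K L] [FiniteDimensional K L]

/-- `x ^ |Gal(L/K)|` is a norm. -/
theorem pow_card_mem_ideleNormSubgroup (x : ideleGroup K) :
    x ^ Fintype.card (L ≃ₐ[K] L) ∈ ideleNormSubgroup K L := by
  refine mem_ideleNormSubgroup.2 ⟨ideleMap (algebraMap K L) x, ?_⟩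
  rw [Finset.prod_congr rfl fun σ _ => smul_ideleMap_algebraMap σ x, Finset.prod_const,
    Finset.card_univ, map_pow]

/-- For a Galois extension, `x ^ [L : K]` is a norm. -/
theorem pow_finrank_mem_ideleNormSubgroup [IsGalois K L] (x : ideleGroup K) :
    x ^ Module.finrank K L ∈ ideleNormSubgroup K L := by
  rw [← IsGalois.card_aut_eq_finrank K L, Nat.card_eq_fintype_card]
  exact pow_card_mem_ideleNormSubgroup L x

end NormSubgroup

section Single

variable (K : Type) [Field K]

/-- The idele with component `f` at `q` and trivial components at the other primes. -/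
noncomputable def singleIdele (q : Nat.Primes) : semiLocalUnits (q : ℕ) K →* ideleGroup K :=
  (MonoidHom.mulSingle (fun q : Nat.Primes => semiLocalUnits (q : ℕ) K) q).codRestrict
    (ideleGroup K) (fun f => by
      rw [mem_ideleGroup_iff_finite]
      refine (Set.finite_singleton q).subset fun q' hq' => ?_
      by_contra hne
      apply hq'
      rw [MonoidHom.mulSingle_apply, Pi.mulSingle_eq_of_ne hne]
      exact one_mem _)

variable {K}

@[simp]
theorem singleIdele_apply_self (q : Nat.Primes) (f : semiLocalUnits (q : ℕ) K) :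
    ((singleIdele K q f : ideleGroup K) : IdeleProd K) q = f := by
  show Pi.mulSingle (M := fun q : Nat.Primes => semiLocalUnits (q : ℕ) K) q f q = f
  exact Pi.mulSingle_eq_same (M := fun q : Nat.Primes => semiLocalUnits (q : ℕ) K) q f

theorem singleIdele_apply_of_ne {q q' : Nat.Primes} (h : q' ≠ q) (f : semiLocalUnits (q : ℕ) K) :
    ((singleIdele K q f : ideleGroup K) : IdeleProd K) q' = 1 := by
  show Pi.mulSingle (M := fun q : Nat.Primes => semiLocalUnits (q : ℕ) K) q f q' = 1
  exact Pi.mulSingle_eq_of_ne (M := fun q : Nat.Primes => semiLocalUnits (q : ℕ) K) h f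

end Single

section NearOne

variable {K : Type} [Field K] (L : Type) [Field L] [Algebra K L] [FiniteDimensional K L]

open Classical in
/-- **Ideles close to `1` are norms**: an idele which is trivial outside a finite set `T` of
primes and satisfies `‖u_q(τ) - 1‖ < ‖n‖_q ^ n` at the primes `q ∈ T`, `n = [L : K]`, is an `n`-th
power, hence a norm from `L`. -/
theorem mem_ideleNormSubgroup_of_near_one [IsGalois K L] (T : Finset Nat.Primes)
    (u : ideleGroup K) (h1 : ∀ q : Nat.Primes, q ∉ T → (u : IdeleProd K) q = 1)
    (h2 : ∀ q : Nat.Primes, q ∈ T → ∀ τ : LocalEmb (q : ℕ) K,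
      ‖((((u : IdeleProd K) q : semiLocalUnits (q : ℕ) K) :
          LocalEmb (q : ℕ) K → (PadicAlgCl (q : ℕ))ˣ) τ : PadicAlgCl (q : ℕ)) - 1‖ <
        ‖((Module.finrank K L : ℕ) : PadicAlgCl (q : ℕ))‖ ^ Module.finrank K L) :
    u ∈ ideleNormSubgroup K L := by
  have hn : Module.finrank K L ≠ 0 := Module.finrank_pos.ne'
  have hroot : ∀ q : Nat.Primes, ∃ g : semiLocalUnits (q : ℕ) K,
      g ^ Module.finrank K L = (u : IdeleProd K) q ∧ g ∈ semiLocalIntegral (q : ℕ) K := by
    intro q
    by_cases hq : q ∈ T
    · exact PadicRoot.exists_pow_eq_of_near_one hn ((u : IdeleProd K) q) (h2 q hq)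
    · exact ⟨1, by rw [one_pow, h1 q hq], one_mem _⟩
  choose g hg hgint using hroot
  have hgmem : (fun q => g q : IdeleProd K) ∈ ideleGroup K := by
    rw [mem_ideleGroup]
    exact Filter.Eventually.of_forall fun q => hgint q
  have hu : u = (⟨fun q => g q, hgmem⟩ : ideleGroup K) ^ Module.finrank K L := by
    apply Subtype.ext
    funext q
    exact (hg q).symm
  rw [hu]
  exact pow_finrank_mem_ideleNormSubgroup L _

end NearOne

end Fermat.Agent.CFT.Second
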