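import Fermat.Agent.CFT.Global.Second.SecondIdealFinal

/-!
# The second inequality: abstract translation from ideals to ideles

`J` is an abstract abelian group (the idele group of `K`), `PN` a subgroup (principal ideles times
norms from `L`) and `R : J → Ideal (𝓞 K) → Prop` a relation "`x` is an idele which is trivial at
the primes dividing `m` and has content `I`".  From the list of properties of `R` below (all of
them statements of the idele/ideal dictionary, weak approximation and local norm facts) and the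
ideal-theoretic second inequality `card_le_finrank_of_ideal_map` we get

* `index_le_finrank_of_rel`: every subgroup `B ≥ PN` of finite index has index `≤ [L : K]`;
* `index_ne_zero_and_le_finrank_of_rel`: if moreover `J / PN` has prime exponent `p`, then `PN` has
  finite index `≤ [L : K]`.

The group-theoretic input `finite_and_card_le_of_forall_index_le` says that an abelian group of
prime exponent whose finite quotients have bounded order is finite.
-/

set_option autoImplicit false

open NumberField IsDedekindDomain nonZeroDivisors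

namespace Fermat.Agent.CFT.Second

/-! ### Groups of prime exponent with bounded finite quotients -/

theorem exists_addMonoidHom_apply_ne_zero {V : Type*} [AddCommGroup V] (p : ℕ) [Fact p.Prime]
    [Module (ZMod p) V] {x : V} (hx : x ≠ 0) : ∃ f : V →+ ZMod p, f x ≠ 0 := by
  obtain ⟨φ, hφ⟩ := Module.Projective.exists_dual_ne_zero (ZMod p) hx
  exact ⟨φ.toAddMonoidHom, hφ⟩

/-- In an abelian group of exponent `p`, a nontrivial subgroup of finite index contains a subgroup
of strictly larger finite index. -/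
theorem exists_index_lt_of_ne_bot {Q : Type*} [CommGroup Q] {p : ℕ} [Fact p.Prime]
    (hexp : ∀ x : Q, x ^ p = 1) (B : Subgroup Q) (hB : B.index ≠ 0) (hne : B ≠ ⊥) :
    ∃ B' : Subgroup Q, B'.index ≠ 0 ∧ B.index < B'.index := by
  obtain ⟨x, hxB, hx1⟩ : ∃ x : Q, x ∈ B ∧ x ≠ 1 := by
    obtain ⟨x, hx⟩ := (Subgroup.ne_bot_iff_exists_ne_one (H := B)).mp hne
    exact ⟨(x : Q), x.2, fun h => hx (Subtype.ext h)⟩
  have hx0 : Additive.ofMul x ≠ 0 := fun h => hx1 (by simpa using congrArg Additive.toMul h)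
  obtain ⟨φ, hφ⟩ : ∃ φ : Additive Q →+ ZMod p, φ (Additive.ofMul x) ≠ 0 :=
    @exists_addMonoidHom_apply_ne_zero (Additive Q) _ p _
      (AddCommGroup.zmodModule (n := p) (G := Additive Q) (fun y => by
        have := hexp (Additive.toMul y)
        exact congrArg Additive.ofMul this)) _ hx0
  let f : Q →* Multiplicative (ZMod p) := AddMonoidHom.toMultiplicativeRight φ
  have hfx : f x ≠ 1 := fun h => hφ (by simpa [f] using congrArg Multiplicative.toAdd h)
  have hK : f.ker.index ≠ 0 := by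
    rw [Subgroup.index_ker]
    exact Nat.card_pos.ne'
  refine ⟨B ⊓ f.ker, Subgroup.index_inf_ne_zero hB hK, ?_⟩
  have hle : B ⊓ f.ker ≤ B := inf_le_left
  have hmul := Subgroup.relIndex_mul_index hle
  have h0 : (B ⊓ f.ker).relIndex B ≠ 0 := by
    intro h
    rw [h, zero_mul] at hmul
    exact Subgroup.index_inf_ne_zero hB hK hmul.symm
  have h1 : (B ⊓ f.ker).relIndex B ≠ 1 := by
    intro h
    have := Subgroup.relIndex_eq_one.mp h
    exact hfx (MonoidHom.mem_ker.mp (this hxB).2)
  have h2 : 2 ≤ (B ⊓ f.ker).relIndex B := by omega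
  have hBpos : 0 < B.index := Nat.pos_of_ne_zero hB
  nlinarith

/-- An abelian group of exponent `p` all of whose finite-index subgroups have index `≤ n` is finite
of cardinality `≤ n`. -/
theorem finite_and_card_le_of_forall_index_le {Q : Type*} [CommGroup Q] {p : ℕ} [Fact p.Prime]
    (hexp : ∀ x : Q, x ^ p = 1) {n : ℕ}
    (h : ∀ B : Subgroup Q, B.index ≠ 0 → B.index ≤ n) : Finite Q ∧ Nat.card Q ≤ n := by
  by_contra hcon
  have key : ∀ k : ℕ, ∃ B : Subgroup Q, B.index ≠ 0 ∧ k ≤ B.index := by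
    intro k
    induction k with
    | zero => exact ⟨⊤, by simp, Nat.zero_le _⟩
    | succ k ih =>
      obtain ⟨B, hB, hk⟩ := ih
      by_cases hbot : B = ⊥
      · exfalso
        apply hcon
        rw [hbot, Subgroup.index_bot] at hB
        have hfin : Finite Q := Nat.finite_of_card_ne_zero hB
        refine ⟨hfin, ?_⟩
        have := h ⊥ (by rw [Subgroup.index_bot]; exact hB)
        rwa [Subgroup.index_bot] at this
      · obtain ⟨B', hB', hlt⟩ := exists_index_lt_of_ne_bot hexp B hB hbot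
        exact ⟨B', hB', by omega⟩
  obtain ⟨B, hB, hk⟩ := key (n + 1)
  have := h B hB
  omega

/-! ### The translation -/

variable {K : Type*} [Field K] [NumberField K]
variable {L : Type*} [Field L] [NumberField L] [Algebra K L]

/-- **Second inequality, abstract idelic form, finite quotients.**  Let `B` be a subgroup of
finite index of an abelian group `J`, `m ≠ ⊥` an ideal of `𝓞 K` and `R : J → Ideal (𝓞 K) → Prop` a
relation such that
* every nonzero ideal prime to `m` is related to some `x`;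
* two elements related to the same ideal differ by an element of `B`;
* `R` is multiplicative;
* for `α ≡ 1 mod m` the ideal `(α)` is related to an element of `B`;
* the norm of a prime of `L` not above `m` is related to an element of `B`;
* every `x : J` is, modulo `B`, a quotient of two elements related to ideals.
Then `[J : B] ≤ [L : K]`. -/
theorem index_le_finrank_of_rel {J : Type*} [CommGroup J] (B : Subgroup J) (hB : B.index ≠ 0)
    {m : Ideal (𝓞 K)} (hm : m ≠ ⊥) (R : J → Ideal (𝓞 K) → Prop)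
    (hex : ∀ I : Ideal (𝓞 K), I ≠ ⊥ → IsCoprime I m → ∃ x, R x I)
    (hdiv : ∀ x y I, R x I → R y I → x / y ∈ B)
    (hmul : ∀ x y I I', R x I → R y I' → R (x * y) (I * I'))
    (hP : ∀ α : 𝓞 K, α ≠ 0 → α - 1 ∈ m → ∃ x, R x (Ideal.span {α}) ∧ x ∈ B)
    (hN : ∀ w : HeightOneSpectrum (𝓞 L), IsCoprime (w.under (𝓞 K)).asIdeal m →
      ∃ x, R x (Ideal.relNorm (𝓞 K) w.asIdeal) ∧ x ∈ B)
    (hsurj : ∀ x : J, ∃ y y' I I', I ≠ ⊥ ∧ I' ≠ ⊥ ∧ IsCoprime I m ∧ IsCoprime I' m ∧
      R y I ∧ R y' I' ∧ x * y' / y ∈ B) :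
    B.index ≤ Module.finrank K L := by
  classical
  have : B.FiniteIndex := ⟨hB⟩
  have : Finite (J ⧸ B) := Subgroup.finite_quotient_of_finiteIndex
  let c : Ideal (𝓞 K) → J ⧸ B := fun I =>
    if h : I ≠ ⊥ ∧ IsCoprime I m then (QuotientGroup.mk (Classical.choose (hex I h.1 h.2)) : J ⧸ B)
    else 1
  -- the value of `c` can be computed with any related element
  have hc : ∀ (I : Ideal (𝓞 K)) (x : J), I ≠ ⊥ → IsCoprime I m → R x I →
      c I = (QuotientGroup.mk x : J ⧸ B) := by
    intro I x hI hIm hx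
    have h : I ≠ ⊥ ∧ IsCoprime I m := ⟨hI, hIm⟩
    simp only [c, dif_pos h]
    rw [QuotientGroup.eq, inv_mul_eq_div]
    exact hdiv _ _ I hx (Classical.choose_spec (hex I h.1 h.2))
  have htop : (⊤ : Ideal (𝓞 K)) ≠ ⊥ := top_ne_bot
  have htopm : IsCoprime (⊤ : Ideal (𝓞 K)) m := by
    rw [Ideal.isCoprime_iff_exists]
    exact ⟨1, Submodule.mem_top, 0, m.zero_mem, add_zero 1⟩
  have hc1 : c ⊤ = 1 := by
    obtain ⟨x, hx⟩ := hex ⊤ htop htopm
    have h2 := hmul x x ⊤ ⊤ hx hx
    rw [Ideal.top_mul] at h2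
    have e1 := hc ⊤ x htop htopm hx
    have e2 := hc ⊤ (x * x) htop htopm h2
    rw [e1] at e2 ⊢
    rw [QuotientGroup.mk_mul] at e2
    exact (mul_eq_left.mp e2.symm)
  have hcmul : ∀ I I' : Ideal (𝓞 K), I ≠ ⊥ → I' ≠ ⊥ → IsCoprime I m → IsCoprime I' m →
      c (I * I') = c I * c I' := by
    intro I I' hI hI' hIm hI'm
    obtain ⟨x, hx⟩ := hex I hI hIm
    obtain ⟨y, hy⟩ := hex I' hI' hI'm
    have hne : I * I' ≠ ⊥ := mul_ne_zero hI hI'
    rw [hc I x hI hIm hx, hc I' y hI' hI'm hy,
      hc (I * I') (x * y) hne (IsCoprime.mul_left hIm hI'm) (hmul x y I I' hx hy),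
      QuotientGroup.mk_mul]
  have hcpow : ∀ (I : Ideal (𝓞 K)), I ≠ ⊥ → IsCoprime I m → ∀ k : ℕ,
      I ^ k ≠ ⊥ ∧ IsCoprime (I ^ k) m ∧ c (I ^ k) = c I ^ k := by
    intro I hI hIm k
    induction k with
    | zero =>
      rw [pow_zero, pow_zero, Ideal.one_eq_top]
      exact ⟨htop, htopm, hc1⟩
    | succ k ih =>
      obtain ⟨h1, h2, h3⟩ := ih
      refine ⟨pow_ne_zero _ hI, IsCoprime.pow_left hIm, ?_⟩
      rw [pow_succ, hcmul _ _ h1 hI h2 hIm, h3, pow_succ]
  have hcard : Nat.card (J ⧸ B) ≤ Module.finrank K L := by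
    refine card_le_finrank_of_ideal_map (L := L) hm c hc1 hcmul ?_ ?_ ?_
    · intro α hα0 hα
      have hne : Ideal.span {α} ≠ (⊥ : Ideal (𝓞 K)) := by
        rw [Ne, Ideal.span_singleton_eq_bot]; exact hα0
      have hcop : IsCoprime (Ideal.span {α}) m := by
        rw [Ideal.isCoprime_iff_exists]
        exact ⟨α, Ideal.mem_span_singleton_self α, -(α - 1), m.neg_mem hα, by ring⟩
      obtain ⟨x, hx, hxB⟩ := hP α hα0 hα
      rw [hc _ x hne hcop hx]
      exact (QuotientGroup.eq_one_iff x).mpr hxB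
    · intro w hw
      have hPmax : w.asIdeal.IsMaximal := w.isMaximal
      have hpmax : (w.under (𝓞 K)).asIdeal.IsMaximal := (w.under (𝓞 K)).isMaximal
      have hlies : w.asIdeal.LiesOver (w.under (𝓞 K)).asIdeal := ⟨rfl⟩
      have hrel := Ideal.relNorm_eq_pow_of_isMaximal w.asIdeal (w.under (𝓞 K)).asIdeal
      have hne : Ideal.relNorm (𝓞 K) w.asIdeal ≠ ⊥ := by
        rw [hrel]
        exact pow_ne_zero _ (w.under (𝓞 K)).ne_bot
      have hcop : IsCoprime (Ideal.relNorm (𝓞 K) w.asIdeal) m := by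
        rw [hrel]
        exact IsCoprime.pow_left hw
      obtain ⟨x, hx, hxB⟩ := hN w hw
      rw [hc _ x hne hcop hx]
      exact (QuotientGroup.eq_one_iff x).mpr hxB
    · intro a
      obtain ⟨x, rfl⟩ := QuotientGroup.mk_surjective a
      obtain ⟨y, y', I, I', hI, hI', hIm, hI'm, hy, hy', hxy⟩ := hsurj x
      set k := Nat.card (J ⧸ B) - 1 with hk
      obtain ⟨h1, h2, h3⟩ := hcpow I' hI' hI'm k
      refine ⟨I * I' ^ k, mul_ne_zero hI h1, IsCoprime.mul_left hIm h2, ?_⟩
      rw [hcmul _ _ hI h1 hIm h2, h3, hc I y hI hIm hy, hc I' y' hI' hI'm hy']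
      have hinv : ((QuotientGroup.mk y' : J ⧸ B)) ^ k = (QuotientGroup.mk y' : J ⧸ B)⁻¹ := by
        have hpos : 0 < Nat.card (J ⧸ B) := Nat.card_pos
        have : (QuotientGroup.mk y' : J ⧸ B) ^ k * (QuotientGroup.mk y' : J ⧸ B) = 1 := by
          rw [← pow_succ, hk, Nat.sub_add_cancel hpos, pow_card_eq_one']
        exact eq_inv_of_mul_eq_one_left this
      rw [hinv]
      have : (QuotientGroup.mk (x * y' / y) : J ⧸ B) = 1 := (QuotientGroup.eq_one_iff _).mpr hxy
      rw [QuotientGroup.mk_div, QuotientGroup.mk_mul, div_eq_one] at this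
      rw [← this, mul_inv_cancel_right]
  rwa [Subgroup.index_eq_card]

/-- **Second inequality, abstract idelic form.**  If moreover `J / PN` has prime exponent `p`, the
subgroup `PN` itself has finite index `≤ [L : K]`. -/
theorem index_ne_zero_and_le_finrank_of_rel {J : Type*} [CommGroup J] (PN : Subgroup J)
    {p : ℕ} [Fact p.Prime] (hexp : ∀ x : J, x ^ p ∈ PN)
    {m : Ideal (𝓞 K)} (hm : m ≠ ⊥) (R : J → Ideal (𝓞 K) → Prop)
    (hex : ∀ I : Ideal (𝓞 K), I ≠ ⊥ → IsCoprime I m → ∃ x, R x I)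
    (hdiv : ∀ x y I, R x I → R y I → x / y ∈ PN)
    (hmul : ∀ x y I I', R x I → R y I' → R (x * y) (I * I'))
    (hP : ∀ α : 𝓞 K, α ≠ 0 → α - 1 ∈ m → ∃ x, R x (Ideal.span {α}) ∧ x ∈ PN)
    (hN : ∀ w : HeightOneSpectrum (𝓞 L), IsCoprime (w.under (𝓞 K)).asIdeal m →
      ∃ x, R x (Ideal.relNorm (𝓞 K) w.asIdeal) ∧ x ∈ PN)
    (hsurj : ∀ x : J, ∃ y y' I I', I ≠ ⊥ ∧ I' ≠ ⊥ ∧ IsCoprime I m ∧ IsCoprime I' m ∧
      R y I ∧ R y' I' ∧ x * y' / y ∈ PN) :
    PN.index ≠ 0 ∧ PN.index ≤ Module.finrank K L := by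
  have hexp' : ∀ a : J ⧸ PN, a ^ p = 1 := by
    intro a
    obtain ⟨x, rfl⟩ := QuotientGroup.mk_surjective a
    rw [← QuotientGroup.mk_pow]
    exact (QuotientGroup.eq_one_iff _).mpr (hexp x)
  have key : ∀ B' : Subgroup (J ⧸ PN), B'.index ≠ 0 → B'.index ≤ Module.finrank K L := by
    intro B' hB'
    set B := B'.comap (QuotientGroup.mk' PN) with hBdef
    have hidx : B.index = B'.index :=
      Subgroup.index_comap_of_surjective B' (QuotientGroup.mk'_surjective PN)
    have hle : PN ≤ B := by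
      intro x hx
      rw [hBdef, Subgroup.mem_comap, QuotientGroup.mk'_apply, (QuotientGroup.eq_one_iff x).mpr hx]
      exact one_mem _
    rw [← hidx]
    refine index_le_finrank_of_rel (L := L) B (by rw [hidx]; exact hB') hm R hex
      (fun x y I hx hy => hle (hdiv x y I hx hy)) hmul ?_ ?_ ?_
    · intro α h0 h1
      obtain ⟨x, hx, hxB⟩ := hP α h0 h1
      exact ⟨x, hx, hle hxB⟩
    · intro w hw
      obtain ⟨x, hx, hxB⟩ := hN w hw
      exact ⟨x, hx, hle hxB⟩
    · intro x
      obtain ⟨y, y', I, I', h1, h2, h3, h4, h5, h6, h7⟩ := hsurj x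
      exact ⟨y, y', I, I', h1, h2, h3, h4, h5, h6, hle h7⟩
  obtain ⟨hfin, hcard⟩ := finite_and_card_le_of_forall_index_le hexp' key
  rw [Subgroup.index_eq_card]
  exact ⟨Nat.card_pos.ne', hcard⟩

end Fermat.Agent.CFT.Second
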