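import Fermat.Agent.CFT.Global.Second.IdeleNorm
import Fermat.Agent.CFT.Global.IdeleDict.DictGen

/-!
# Norm ideles with prescribed content `relNorm w`

For a finite Galois extension `L/K` of number fields and a prime `w` of `L` above the rational
prime `q`, we construct an idele `x ∈ N_{L/K} J_L` which is trivial outside `q` and whose content
is the ideal `Ideal.relNorm (𝓞 K) w` (`exists_mem_ideleNormSubgroup_relNorm`).  The idele `x` is
the norm of the idele of `L` equal to the diagonal image of `a` at `q` and trivial elsewhere, where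
`a ∈ 𝓞 L` is a global element with `(a) = w * 𝔟`, `𝔟` prime to `q`.
-/

set_option autoImplicit false
set_option linter.unusedSectionVars false

namespace Fermat.Agent.CFT.Second

open NumberField IsDedekindDomain Fermat.Agent.CFT Fermat.Agent.CFT.IdeleDict
  Fermat.Agent.CFT.FirstIneq

section Single

variable {K L : Type} [Field K] [Field L]

theorem ideleMap_singleIdele (φ : K →+* L) (q : Nat.Primes) (f : semiLocalUnits (q : ℕ) K) :
    ideleMap φ (singleIdele K q f) = singleIdele L q (semiLocalMap φ f) := by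
  apply Subtype.ext
  funext q'
  by_cases h : q' = q
  · subst h
    rw [ideleMap_coe, ideleProdMap_apply, singleIdele_apply_self, singleIdele_apply_self]
  · rw [ideleMap_coe, ideleProdMap_apply, singleIdele_apply_of_ne h, singleIdele_apply_of_ne h,
      map_one]

theorem smul_singleIdele {G : Type} [Group G] [MulSemiringAction G L] (σ : G) (q : Nat.Primes)
    (f : semiLocalUnits (q : ℕ) L) :
    σ • singleIdele L q f = singleIdele L q (σ • f) := by
  apply Subtype.ext
  funext q'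
  by_cases h : q' = q
  · subst h
    rw [idele_smul_coe, singleIdele_apply_self, singleIdele_apply_self]
  · rw [idele_smul_coe, singleIdele_apply_of_ne h, singleIdele_apply_of_ne h, smul_one]

end Single

section Count

variable {K : Type} [Field K] [NumberField K]

open scoped Classical in
/-- The order at `P` of a nonzero integer is the multiplicity of `P` in the principal ideal. -/
theorem ordAt_eq_count (P : HeightOneSpectrum (𝓞 K)) {a : 𝓞 K} (ha : (a : K) ≠ 0) :
    ordAt P (Units.mk0 (a : K) ha) =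
      ((Associates.mk P.asIdeal).count (Associates.mk (Ideal.span {a})).factors : ℤ) := by
  have ha0 : a ≠ 0 := fun h => ha (by rw [h]; rfl)
  have h1 := valuation_eq_exp_neg_ordAt P (Units.mk0 (a : K) ha)
  rw [Units.val_mk0] at h1
  have h2 : P.valuation K (algebraMap (𝓞 K) K a) = P.intValuation a :=
    HeightOneSpectrum.valuation_of_algebraMap P a
  rw [HeightOneSpectrum.intValuation_if_neg P ha0] at h2
  have h3 : WithZero.exp (-ordAt P (Units.mk0 (a : K) ha)) =
      WithZero.exp (-((Associates.mk P.asIdeal).count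
        (Associates.mk (Ideal.span {a})).factors : ℤ)) := h1.symm.trans h2
  have h4 := WithZero.exp_injective h3
  omega

open scoped Classical in
theorem ideleOrd_singleIdele_diag (q : Nat.Primes) (a : Kˣ) (P : HeightOneSpectrum (𝓞 K)) :
    ideleOrd ((singleIdele K q (semiLocalDiag a) : ideleGroup K) : IdeleProd K) P =
      if (((q : ℕ) : ℕ) : 𝓞 K) ∈ P.asIdeal then ordAt P a else 0 := by
  obtain ⟨q', τ, rfl⟩ := exists_emb P
  rw [ideleOrd_primeOfH]
  by_cases h : q' = q
  · subst h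
    have hmem : (((q' : ℕ) : ℕ) : 𝓞 K) ∈ (primeOfH τ).asIdeal := natCast_mem_primeOf τ
    rw [singleIdele_apply_self, semiLocalOrd_diag, if_pos hmem]
  · rw [singleIdele_apply_of_ne h, semiLocalOrd_one, if_neg]
    intro hmem
    exact h (prime_unique (primeOfH τ) (natCast_mem_primeOf τ) hmem)

end Count

section RelNorm

variable {K L : Type} [Field K] [NumberField K] [Field L] [NumberField L] [Algebra K L]

/-- The relative norm of an ideal prime to `q` is not divisible by the primes above `q`. -/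
theorem not_dvd_relNorm_of_isCoprime (q : ℕ) (P : HeightOneSpectrum (𝓞 K))
    (hq : ((q : ℕ) : 𝓞 K) ∈ P.asIdeal) (𝔟 : Ideal (𝓞 L)) :
    𝔟 ≠ 0 → IsCoprime 𝔟 (Ideal.span {((q : ℕ) : 𝓞 L)}) →
      ¬ P.asIdeal ∣ Ideal.relNorm (𝓞 K) 𝔟 := by
  have hPprime : Prime P.asIdeal := Ideal.prime_of_isPrime P.ne_bot P.isPrime
  induction 𝔟 using UniqueFactorizationMonoid.induction_on_prime with
  | h₁ => exact fun h => absurd rfl h
  | h₂ x hx =>
    intro _ _ hdvd
    have hunit : IsUnit (Ideal.relNorm (𝓞 K) x) := hx.map (Ideal.relNorm (𝓞 K))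
    exact hPprime.not_isUnit (isUnit_of_dvd_unit hdvd hunit)
  | h₃ a p ha hp ih =>
    intro _ hcop hdvd
    rw [map_mul] at hdvd
    rcases hPprime.dvd_or_dvd hdvd with h | h
    · have hpprime : p.IsPrime := Ideal.isPrime_of_prime hp
      have hpmax : p.IsMaximal := hpprime.isMaximal hp.ne_zero
      have hrel := Ideal.relNorm_eq_pow_of_isMaximal p (p.under (𝓞 K))
      rw [hrel] at h
      have h1 : P.asIdeal ∣ p.under (𝓞 K) := hPprime.dvd_of_dvd_pow h
      have h2 : p.under (𝓞 K) ≤ P.asIdeal := Ideal.le_of_dvd h1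
      have hmax : (p.under (𝓞 K)).IsMaximal := inferInstance
      have h3 : p.under (𝓞 K) = P.asIdeal := hmax.eq_of_le P.isPrime.ne_top h2
      have h4 : ((q : ℕ) : 𝓞 L) ∈ p := by
        have : ((q : ℕ) : 𝓞 K) ∈ p.under (𝓞 K) := by rw [h3]; exact hq
        rw [Ideal.under_def, Ideal.mem_comap, map_natCast] at this
        exact this
      have hcop' : IsCoprime p (Ideal.span {((q : ℕ) : 𝓞 L)}) := hcop.of_mul_left_left
      rw [Ideal.isCoprime_iff_sup_eq] at hcop'
      have h5 : p ⊔ Ideal.span {((q : ℕ) : 𝓞 L)} ≤ p :=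
        sup_le le_rfl ((Ideal.span_singleton_le_iff_mem p).2 h4)
      rw [hcop'] at h5
      exact hpprime.ne_top (top_le_iff.1 h5)
    · exact ih ha hcop.of_mul_left_right h

end RelNorm

section Main

variable {K L : Type} [Field K] [NumberField K] [Field L] [NumberField L] [Algebra K L]
  [IsGalois K L]

/-- A global element `a ∈ 𝓞 L` with `(a) = w * 𝔟`, `𝔟` prime to the rational prime below `w`. -/
theorem exists_span_eq_mul_coprime (w : HeightOneSpectrum (𝓞 L)) (q : ℕ)
    (hq : ((q : ℕ) : 𝓞 L) ∈ w.asIdeal) (hq0 : q ≠ 0) :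
    ∃ (a : 𝓞 L) (𝔟 : Ideal (𝓞 L)), a ≠ 0 ∧ Ideal.span {a} = w.asIdeal * 𝔟 ∧
      IsCoprime 𝔟 (Ideal.span {((q : ℕ) : 𝓞 L)}) := by
  have hqL : ((q : ℕ) : 𝓞 L) ≠ 0 := Nat.cast_ne_zero.mpr hq0
  have hspan0 : Ideal.span {((q : ℕ) : 𝓞 L)} ≠ 0 := by
    rw [Ne, Ideal.zero_eq_bot, Ideal.span_singleton_eq_bot]
    exact hqL
  have hw0 : w.asIdeal ≠ 0 := w.ne_bot
  obtain ⟨a, ha⟩ := IsDedekindDomain.exists_sup_span_eq
    (I := Ideal.span {((q : ℕ) : 𝓞 L)} * w.asIdeal) (J := w.asIdeal) Ideal.mul_le_right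
    (mul_ne_zero hspan0 hw0)
  have haw : Ideal.span {a} ≤ w.asIdeal := by
    rw [← ha]
    exact le_sup_right
  obtain ⟨𝔟, h𝔟⟩ := Ideal.dvd_iff_le.2 haw
  have hcop : Ideal.span {((q : ℕ) : 𝓞 L)} ⊔ 𝔟 = ⊤ := by
    have h1 : w.asIdeal * (Ideal.span {((q : ℕ) : 𝓞 L)} ⊔ 𝔟) = w.asIdeal * ⊤ := by
      rw [Ideal.mul_sup, ← h𝔟, mul_comm, ha, Ideal.mul_top]
    exact mul_left_cancel₀ hw0 h1
  refine ⟨a, 𝔟, ?_, h𝔟, ?_⟩
  · rintro rfl
    have h0 : w.asIdeal * 𝔟 = ⊥ := by
      rw [← h𝔟]
      simp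
    rcases mul_eq_zero.1 h0 with h | h
    · exact hw0 h
    · rw [h, Ideal.zero_eq_bot, sup_bot_eq] at hcop
      have : w.asIdeal = ⊤ := top_le_iff.1 (hcop ▸ (Ideal.span_singleton_le_iff_mem _).2 hq)
      exact w.isPrime.ne_top this
  · rw [Ideal.isCoprime_iff_sup_eq, sup_comm]
    exact hcop

open scoped Classical in
/-- **Norm ideles with content `relNorm w`**: for every prime `w` of `L` there is an idele of `K`
in the norm subgroup, trivial outside the rational prime `q` below `w`, whose order at every prime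
`P` of `K` is the multiplicity of `P` in `Ideal.relNorm (𝓞 K) w`. -/
theorem exists_mem_ideleNormSubgroup_relNorm (w : HeightOneSpectrum (𝓞 L)) :
    ∃ (q : Nat.Primes) (x : ideleGroup K), (((q : ℕ) : ℕ) : 𝓞 L) ∈ w.asIdeal ∧
      x ∈ ideleNormSubgroup K L ∧
      (∀ q' : Nat.Primes, q' ≠ q → (x : IdeleProd K) q' = 1) ∧
      ∀ P : HeightOneSpectrum (𝓞 K), ideleOrd (x : IdeleProd K) P =
        ((Associates.mk P.asIdeal).count
          (Associates.mk (Ideal.relNorm (𝓞 K) w.asIdeal)).factors : ℤ) := by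
  obtain ⟨q, hq⟩ := exists_prime_mem w
  obtain ⟨a, 𝔟, ha0, hab, hcop⟩ := exists_span_eq_mul_coprime w (q : ℕ) hq q.2.ne_zero
  -- the norm of `a`
  set ν : 𝓞 K := Algebra.intNorm (𝓞 K) (𝓞 L) a with hν
  have hνspan : Ideal.span {ν} =
      Ideal.relNorm (𝓞 K) w.asIdeal * Ideal.relNorm (𝓞 K) 𝔟 := by
    rw [hν, ← Ideal.relNorm_singleton, hab, map_mul]
  have h𝔟0 : 𝔟 ≠ 0 := by
    rintro rfl
    rw [mul_zero, Ideal.zero_eq_bot, Ideal.span_singleton_eq_bot] at hab
    exact ha0 hab
  have hrelw0 : Ideal.relNorm (𝓞 K) w.asIdeal ≠ 0 := by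
    rw [Ne, Ideal.zero_eq_bot, Ideal.relNorm_eq_bot_iff]
    exact w.ne_bot
  have hrel𝔟0 : Ideal.relNorm (𝓞 K) 𝔟 ≠ 0 := by
    rw [Ne, Ideal.zero_eq_bot, Ideal.relNorm_eq_bot_iff]
    exact h𝔟0
  have hν0 : ν ≠ 0 := by
    intro h
    rw [h, Ideal.span_singleton_eq_bot.2 rfl] at hνspan
    exact mul_ne_zero hrelw0 hrel𝔟0 hνspan.symm
  have hνK : ((ν : 𝓞 K) : K) ≠ 0 := fun h => hν0 (RingOfIntegers.coe_injective (h.trans (map_zero _).symm))
  have haL : ((a : 𝓞 L) : L) ≠ 0 := fun h => ha0 (RingOfIntegers.coe_injective (h.trans (map_zero _).symm))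
  set aK : Kˣ := Units.mk0 ((ν : 𝓞 K) : K) hνK with haK
  set aL : Lˣ := Units.mk0 ((a : 𝓞 L) : L) haL with haL'
  refine ⟨q, singleIdele K q (semiLocalDiag aK), hq, ?_, fun q' h => singleIdele_apply_of_ne h _, ?_⟩
  · -- it is a norm
    refine mem_ideleNormSubgroup.2 ⟨singleIdele L q (semiLocalDiag aL), ?_⟩
    rw [Finset.prod_congr rfl fun σ _ => smul_singleIdele σ q (semiLocalDiag aL), ← map_prod,
      ideleMap_singleIdele, semiLocalMap_diag]
    congr 1
    rw [Finset.prod_congr rfl fun σ _ => smul_semiLocalDiag σ aL, ← map_prod]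
    congr 1
    apply Units.ext
    rw [Units.coe_prod, Units.coe_map]
    have h1 : ((aK : Kˣ) : K) = Algebra.norm K ((a : 𝓞 L) : L) := by
      rw [haK, Units.val_mk0]
      exact Algebra.algebraMap_intNorm (A := 𝓞 K) (K := K) (L := L) (B := 𝓞 L) a
    show ∏ σ : L ≃ₐ[K] L, ((unitsSmul σ aL : Lˣ) : L) = algebraMap K L ((aK : Kˣ) : K)
    rw [h1, Algebra.norm_eq_prod_automorphisms]
    rfl
  · intro P
    rw [ideleOrd_singleIdele_diag]
    have hPprime : Prime P.asIdeal := Ideal.prime_of_isPrime P.ne_bot P.isPrime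
    have hPirr : Irreducible (Associates.mk P.asIdeal) :=
      (Associates.irreducible_mk).2 hPprime.irreducible
    by_cases hP : (((q : ℕ) : ℕ) : 𝓞 K) ∈ P.asIdeal
    · rw [if_pos hP, haK, ordAt_eq_count P hνK, hνspan, ← Associates.mk_mul_mk,
        Associates.count_mul (Associates.mk_ne_zero.2 hrelw0) (Associates.mk_ne_zero.2 hrel𝔟0)
          hPirr]
      have h0 : (Associates.mk P.asIdeal).count
          (Associates.mk (Ideal.relNorm (𝓞 K) 𝔟)).factors = 0 := by
        by_contra h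
        exact not_dvd_relNorm_of_isCoprime (q : ℕ) P hP 𝔟 h𝔟0 hcop
          ((Associates.count_ne_zero_iff_dvd hrel𝔟0 hPprime.irreducible).1 h)
      rw [h0, add_zero]
    · rw [if_neg hP]
      symm
      rw [Nat.cast_eq_zero]
      have hwmax : w.asIdeal.IsMaximal := w.isMaximal
      have hrel := Ideal.relNorm_eq_pow_of_isMaximal w.asIdeal (w.asIdeal.under (𝓞 K))
      by_contra hne
      have hdvd := (Associates.count_ne_zero_iff_dvd hrelw0 hPprime.irreducible).1 hne
      rw [hrel] at hdvd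
      have h1 : P.asIdeal ∣ w.asIdeal.under (𝓞 K) := hPprime.dvd_of_dvd_pow hdvd
      have h2 : w.asIdeal.under (𝓞 K) ≤ P.asIdeal := Ideal.le_of_dvd h1
      apply hP
      apply h2
      rw [Ideal.under_def, Ideal.mem_comap, map_natCast]
      exact hq

end Main

end Fermat.Agent.CFT.Second
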