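import Mathlib
import Fermat.Agent.S14.ClassLSeries
import Fermat.Agent.S14.EulerProduct
import Fermat.Agent.S14.SecondLocal

/-!
# CFT / C3 (second inequality, analytic): `L`-series of bounded multiplicative functions on ideals

For a number field `F` and a bounded function `g` on the nonzero ideals of `𝓞 F` we study
`gLSeries g s = ∑' I, g I * N(I)^(-s)` (real `s > 1`): absolute convergence, identification with a
Dirichlet series, and boundedness on `(1, 2]` when the partial sums of `g` are `O(n ^ r)`, `r < 1`.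

For a completely multiplicative `ψ : Ideal (𝓞 F) →*₀ ℂ` with `‖ψ I‖ ≤ 1` we get the Euler product
of `‖gLSeries ψ s‖` in the shape used by the abstract second inequality.
-/

set_option autoImplicit false

open NumberField Ideal Filter Topology nonZeroDivisors Finset IsDedekindDomain
open Fermat.Agent.S14

namespace Fermat.Agent.CFT.Second

variable {F : Type*} [Field F] [NumberField F]

/-! ### General bounded coefficients -/

section General

variable (g : (Ideal (𝓞 F))⁰ → ℂ)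

/-- The general term `g I * N(I)^(-s)`. -/
noncomputable def gTerm (s : ℝ) (I : (Ideal (𝓞 F))⁰) : ℂ :=
  g I * ((absNorm (I : Ideal (𝓞 F)) : ℂ)) ^ (-(s : ℂ))

/-- The series `∑' I, g I * N(I)^(-s)` (junk value unless `1 < s`). -/
noncomputable def gLSeries (s : ℝ) : ℂ := ∑' I : (Ideal (𝓞 F))⁰, gTerm g s I

variable {g}

theorem norm_gTerm_le (hg : ∀ I, ‖g I‖ ≤ 1) (s : ℝ) (I : (Ideal (𝓞 F))⁰) :
    ‖gTerm g s I‖ ≤ ((absNorm (I : Ideal (𝓞 F)) : ℝ)) ^ (-s) := by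
  rw [gTerm, norm_mul, Complex.norm_natCast_cpow_of_pos (one_le_absNorm_nzd I), Complex.neg_re,
    Complex.ofReal_re]
  calc ‖g I‖ * ((absNorm (I : Ideal (𝓞 F)) : ℝ)) ^ (-s)
      ≤ 1 * ((absNorm (I : Ideal (𝓞 F)) : ℝ)) ^ (-s) := by
        gcongr
        exact hg I
    _ = _ := one_mul _

theorem summable_norm_gTerm (hg : ∀ I, ‖g I‖ ≤ 1) {s : ℝ} (hs : 1 < s) :
    Summable fun I : (Ideal (𝓞 F))⁰ => ‖gTerm g s I‖ :=
  Summable.of_nonneg_of_le (fun _ => norm_nonneg _) (norm_gTerm_le hg s)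
    (summable_absNorm_rpow hs)

theorem summable_gTerm (hg : ∀ I, ‖g I‖ ≤ 1) {s : ℝ} (hs : 1 < s) : Summable (gTerm g s) :=
  (summable_norm_gTerm hg hs).of_norm

variable (g) in
/-- The Dirichlet coefficients. -/
noncomputable def gCoeff (k : ℕ) : ℂ := ∑ I ∈ idealsEQ F k, g I

theorem norm_gCoeff_le (hg : ∀ I, ‖g I‖ ≤ 1) (k : ℕ) :
    ‖gCoeff g k‖ ≤ ‖(idealCount F k : ℂ)‖ := by
  rw [Complex.norm_natCast, gCoeff, idealCount]
  refine (norm_sum_le _ _).trans ?_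
  calc ∑ I ∈ idealsEQ F k, ‖g I‖ ≤ ∑ _I ∈ idealsEQ F k, (1 : ℝ) :=
        Finset.sum_le_sum fun I _ => hg I
    _ = ((idealsEQ F k).card : ℝ) := by simp

theorem lseriesSummable_gCoeff (hg : ∀ I, ‖g I‖ ≤ 1) {s : ℂ} (hs : 1 < s.re) :
    LSeriesSummable (gCoeff g) s :=
  Summable.of_norm_bounded (lseriesSummable_idealCount F hs).norm
    fun _ => LSeries.norm_term_le s (norm_gCoeff_le hg _)

theorem sum_gTerm_idealsLE (s : ℝ) (n : ℕ) :
    ∑ I ∈ idealsLE F n, gTerm g s I =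
      ∑ k ∈ range (n + 1), LSeries.term (gCoeff g) s k := by
  rw [lfun_sum_range_succ_eq_sum_Icc _ (LSeries.term_zero _ _), ← sum_idealsLE_fiberwise]
  refine Finset.sum_congr rfl fun k hk => ?_
  have hk0 : k ≠ 0 := by
    have := (Finset.mem_Icc.mp hk).1
    omega
  rw [LSeries.term_of_ne_zero hk0, gCoeff, div_eq_mul_inv, Finset.sum_mul,
    ← Complex.cpow_neg]
  refine Finset.sum_congr rfl fun I hI => ?_
  rw [gTerm, mem_idealsEQ.mp hI]

/-- `gLSeries` is the `L`-series of its Dirichlet coefficients. -/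
theorem gLSeries_eq_LSeries (hg : ∀ I, ‖g I‖ ≤ 1) {s : ℝ} (hs : 1 < s) :
    gLSeries g s = LSeries (gCoeff g) s := by
  have h1 : Tendsto (fun n => ∑ I ∈ idealsLE F n, gTerm g s I) atTop (𝓝 (gLSeries g s)) :=
    (summable_gTerm hg hs).hasSum.comp tendsto_idealsLE
  have h2 : Tendsto (fun n => ∑ k ∈ range (n + 1), LSeries.term (gCoeff g) s k) atTop
      (𝓝 (LSeries (gCoeff g) s)) :=
    (tendsto_add_atTop_iff_nat 1).mpr
      (lseriesSummable_gCoeff hg (s := (s : ℂ)) (by simpa using hs)).hasSum.tendsto_sum_nat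
  simp_rw [sum_gTerm_idealsLE] at h1
  exact tendsto_nhds_unique h1 h2

theorem sum_gCoeff (n : ℕ) :
    ∑ k ∈ Icc 1 n, gCoeff g k = ∑ I ∈ idealsLE F n, g I :=
  sum_idealsLE_fiberwise n _

/-- If the partial sums of `g` over the ideals of norm `≤ n` are `O(n ^ r)` with `r < 1` then
`gLSeries g` is bounded on `(1, 2]`. -/
theorem norm_gLSeries_le (hg : ∀ I, ‖g I‖ ≤ 1) {r C : ℝ} (hr0 : 0 ≤ r) (hr1 : r < 1)
    (hC : ∀ n : ℕ, 1 ≤ n → ‖∑ I ∈ idealsLE F n, g I‖ ≤ C * (n : ℝ) ^ r)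
    {s : ℝ} (hs : 1 < s) (hs2 : s ≤ 2) : ‖gLSeries g s‖ ≤ 2 * C / (1 - r) := by
  rw [gLSeries_eq_LSeries hg hs]
  refine norm_LSeries_le_of_sum_le _ hr0 hr1 (fun n hn => ?_) hs hs2
    (lseriesSummable_gCoeff hg (by simpa using hs))
  rw [sum_gCoeff]
  exact hC n hn

end General

/-! ### Completely multiplicative coefficients: the Euler product -/

section Mult

open Fermat.Agent.S14.Second

variable (ψ : Ideal (𝓞 F) →*₀ ℂ)

/-- The restriction of `ψ` to the nonzero ideals. -/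
def res : (Ideal (𝓞 F))⁰ → ℂ := fun I => ψ (I : Ideal (𝓞 F))

/-- The twisted function `I ↦ ψ I * N(I)^(-s)`, again completely multiplicative. -/
noncomputable def itwist (s : ℝ) : Ideal (𝓞 F) →*₀ ℂ where
  toFun I := ψ I * ((absNorm I : ℂ)) ^ (-(s : ℂ))
  map_zero' := by rw [map_zero, zero_mul]
  map_one' := by
    rw [map_one, one_mul, Ideal.one_eq_top, Ideal.absNorm_top, Nat.cast_one, Complex.one_cpow]
  map_mul' I J := by
    rw [map_mul, map_mul, Nat.cast_mul, Complex.natCast_mul_natCast_cpow]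
    ring

theorem itwist_apply (s : ℝ) (I : Ideal (𝓞 F)) :
    itwist ψ s I = ψ I * ((absNorm I : ℂ)) ^ (-(s : ℂ)) := rfl

theorem itwist_apply_of_mem (s : ℝ) (I : (Ideal (𝓞 F))⁰) :
    itwist ψ s (I : Ideal (𝓞 F)) = gTerm (res ψ) s I := rfl

theorem itwist_apply_of_not_mem (s : ℝ) {I : Ideal (𝓞 F)} (h : I ∉ (Ideal (𝓞 F))⁰) :
    itwist ψ s I = 0 := by
  have hI : I = 0 := by
    by_contra h0
    exact h (mem_nonZeroDivisors_of_ne_zero h0)
  rw [hI, map_zero]

variable {ψ}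

theorem summable_norm_itwist (hψ : ∀ I, ‖ψ I‖ ≤ 1) {s : ℝ} (hs : 1 < s) :
    Summable fun I : Ideal (𝓞 F) => ‖itwist ψ s I‖ := by
  have h := summable_norm_gTerm (g := res ψ) (fun I => hψ I) hs
  have hinj : Function.Injective (Subtype.val : (Ideal (𝓞 F))⁰ → Ideal (𝓞 F)) :=
    Subtype.val_injective
  refine (hinj.summable_iff ?_).mp ?_
  · intro I hI
    have : I ∉ (Ideal (𝓞 F))⁰ := fun h => hI ⟨⟨I, h⟩, rfl⟩
    rw [itwist_apply_of_not_mem ψ s this, norm_zero]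
  · exact h

variable (ψ) in
theorem tsum_itwist (s : ℝ) :
    ∑' I : Ideal (𝓞 F), itwist ψ s I = gLSeries (res ψ) s := by
  have hinj : Function.Injective (Subtype.val : (Ideal (𝓞 F))⁰ → Ideal (𝓞 F)) :=
    Subtype.val_injective
  rw [gLSeries, ← hinj.tsum_eq (f := fun I => itwist ψ s I)]
  · rfl
  · intro I hI
    by_contra hmem
    apply hI
    exact itwist_apply_of_not_mem ψ s fun h => hmem ⟨⟨I, h⟩, rfl⟩

variable (ψ) in
theorem itwist_apply_prime (s : ℝ) (v : HeightOneSpectrum (𝓞 F)) :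
    itwist ψ s v.asIdeal = ψ v.asIdeal * ((nrm F v ^ (-s) : ℝ) : ℂ) := by
  rw [itwist_apply]
  congr 1
  unfold nrm
  rw [Complex.ofReal_cpow (Nat.cast_nonneg _), Complex.ofReal_natCast, Complex.ofReal_neg]

/-- **Euler product** of `gLSeries ψ`. -/
theorem hasProd_gLSeries (hψ : ∀ I, ‖ψ I‖ ≤ 1) {s : ℝ} (hs : 1 < s) :
    HasProd (fun v : HeightOneSpectrum (𝓞 F) =>
      (1 - ψ v.asIdeal * ((nrm F v ^ (-s) : ℝ) : ℂ))⁻¹) (gLSeries (res ψ) s) := by
  have h := ideal_eulerProduct_hasProd (itwist ψ s) (summable_norm_itwist hψ hs)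
  rw [tsum_itwist] at h
  convert h using 2 with v
  rw [itwist_apply_prime]

/-- **Euler product** of `‖gLSeries ψ‖`. -/
theorem hasProd_norm_gLSeries (hψ : ∀ I, ‖ψ I‖ ≤ 1) {s : ℝ} (hs : 1 < s) :
    HasProd (fun v : HeightOneSpectrum (𝓞 F) =>
      ‖(1 - ψ v.asIdeal * ((nrm F v ^ (-s) : ℝ) : ℂ))⁻¹‖) ‖gLSeries (res ψ) s‖ :=
  (hasProd_gLSeries hψ hs).norm

end Mult

end Fermat.Agent.CFT.Second
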