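import Fermat.Agent.CFT.Global.Second.SecondIdele

/-!
# The second inequality: abstract translation, prime-by-prime form

A variant of `index_ne_zero_and_le_finrank_of_rel` whose hypotheses are easier to check in a concrete
idele model: related elements are only required to exist for *prime* ideals (and `R 1 ⊤`), and the
surjectivity hypothesis is replaced by "`J` is generated by `PN` and the related elements".
-/

set_option autoImplicit false

open NumberField IsDedekindDomain nonZeroDivisors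

namespace Fermat.Agent.CFT.Second

variable {K : Type*} [Field K] [NumberField K]
variable {L : Type*} [Field L] [NumberField L] [Algebra K L]

/-- Existence of related elements for all ideals prime to `m` from the case of prime ideals. -/
theorem exists_rel_of_prime {J : Type*} [CommGroup J] {m : Ideal (𝓞 K)}
    (R : J → Ideal (𝓞 K) → Prop) (hone : R 1 ⊤)
    (hprime : ∀ P : HeightOneSpectrum (𝓞 K), IsCoprime P.asIdeal m → ∃ x, R x P.asIdeal)
    (hmul : ∀ x y I I', R x I → R y I' → R (x * y) (I * I'))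
    (I : Ideal (𝓞 K)) (hI : I ≠ ⊥) (hIm : IsCoprime I m) : ∃ x, R x I := by
  revert hI hIm
  refine UniqueFactorizationMonoid.induction_on_prime
    (P := fun I : Ideal (𝓞 K) => I ≠ ⊥ → IsCoprime I m → ∃ x, R x I) I ?_ ?_ ?_
  · intro h
    exact absurd rfl h
  · intro I hu _ _
    rw [Ideal.isUnit_iff] at hu
    rw [hu]
    exact ⟨1, hone⟩
  · intro a P ha hP ih _ hcop
    have hPa : IsCoprime P m := IsCoprime.of_mul_left_left hcop
    have haa : IsCoprime a m := IsCoprime.of_mul_left_right hcop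
    obtain ⟨y, hy⟩ := ih ha haa
    have hPprime : P.IsPrime := Ideal.isPrime_of_prime hP
    obtain ⟨x, hx⟩ := hprime ⟨P, hPprime, hP.ne_zero⟩ hPa
    exact ⟨x * y, hmul x y P a hx hy⟩

/-- **Second inequality, abstract idelic form, prime-by-prime hypotheses.** -/
theorem index_ne_zero_and_le_finrank_of_rel_prime {J : Type*} [CommGroup J] (PN : Subgroup J)
    {p : ℕ} [Fact p.Prime] (hexp : ∀ x : J, x ^ p ∈ PN)
    {m : Ideal (𝓞 K)} (hm : m ≠ ⊥) (R : J → Ideal (𝓞 K) → Prop)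
    (hR0 : ∀ x I, R x I → I ≠ ⊥ ∧ IsCoprime I m)
    (hone : R 1 ⊤)
    (hprime : ∀ P : HeightOneSpectrum (𝓞 K), IsCoprime P.asIdeal m → ∃ x, R x P.asIdeal)
    (hdiv : ∀ x y I, R x I → R y I → x / y ∈ PN)
    (hmul : ∀ x y I I', R x I → R y I' → R (x * y) (I * I'))
    (hP : ∀ α : 𝓞 K, α ≠ 0 → α - 1 ∈ m → ∃ x, R x (Ideal.span {α}) ∧ x ∈ PN)
    (hN : ∀ w : HeightOneSpectrum (𝓞 L), IsCoprime (w.under (𝓞 K)).asIdeal m →
      ∃ x, R x (Ideal.relNorm (𝓞 K) w.asIdeal) ∧ x ∈ PN)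
    (hgen : ∀ x : J, x ∈ Subgroup.closure ((PN : Set J) ∪ {y | ∃ I, R y I})) :
    PN.index ≠ 0 ∧ PN.index ≤ Module.finrank K L := by
  refine index_ne_zero_and_le_finrank_of_rel (L := L) PN hexp hm R
    (exists_rel_of_prime R hone hprime hmul) hdiv hmul hP hN ?_
  intro x
  have htop := hR0 1 ⊤ hone
  refine Subgroup.closure_induction (p := fun x _ => ∃ y y' I I', I ≠ ⊥ ∧ I' ≠ ⊥ ∧
      IsCoprime I m ∧ IsCoprime I' m ∧ R y I ∧ R y' I' ∧ x * y' / y ∈ PN) ?_ ?_ ?_ ?_ (hgen x)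
  · intro z hz
    rcases hz with hz | ⟨I, hzI⟩
    · refine ⟨1, 1, ⊤, ⊤, htop.1, htop.1, htop.2, htop.2, hone, hone, ?_⟩
      rw [mul_one, div_one]
      exact hz
    · have h := hR0 z I hzI
      refine ⟨z, 1, I, ⊤, h.1, htop.1, h.2, htop.2, hzI, hone, ?_⟩
      rw [mul_one, div_self']
      exact one_mem _
  · refine ⟨1, 1, ⊤, ⊤, htop.1, htop.1, htop.2, htop.2, hone, hone, ?_⟩
    rw [mul_one, div_one]
    exact one_mem _
  · rintro a b _ _ ⟨y₁, y₁', I₁, I₁', h1, h1', h2, h2', h3, h3', h4⟩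
      ⟨y₂, y₂', I₂, I₂', k1, k1', k2, k2', k3, k3', k4⟩
    refine ⟨y₁ * y₂, y₁' * y₂', I₁ * I₂, I₁' * I₂', mul_ne_zero h1 k1, mul_ne_zero h1' k1',
      IsCoprime.mul_left h2 k2, IsCoprime.mul_left h2' k2', hmul _ _ _ _ h3 k3,
      hmul _ _ _ _ h3' k3', ?_⟩
    have : a * b * (y₁' * y₂') / (y₁ * y₂) = (a * y₁' / y₁) * (b * y₂' / y₂) := by
      rw [div_mul_div_comm]
      congr 1
      rw [mul_mul_mul_comm]
    rw [this]
    exact mul_mem h4 k4
  · rintro a _ ⟨y, y', I, I', h1, h1', h2, h2', h3, h3', h4⟩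
    refine ⟨y', y, I', I, h1', h1, h2', h2, h3', h3, ?_⟩
    have : a⁻¹ * y / y' = (a * y' / y)⁻¹ := by
      rw [inv_div, div_eq_mul_inv, div_eq_mul_inv, mul_inv, mul_comm a⁻¹ y, mul_assoc]
    rw [this]
    exact inv_mem h4

end Fermat.Agent.CFT.Second
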