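import Fermat.Agent.CFT.Global.Second.NormIdeles
import Fermat.Agent.CFT.Global.Second.SecondIdeleRel

/-!
# Contents of ideles: multiplicities, the modulus `(p^(p+1) ∏ T)`, `P`-components of principal ideles

Auxiliary file for the idelic second inequality (`SecondIdeleModel.lean`).
-/

set_option autoImplicit false
set_option linter.unusedSectionVars false

open scoped NumberField nonZeroDivisors

noncomputable section

namespace Fermat.Agent.CFT.SecondModel

open Fermat.Agent.CFT Fermat.Agent.CFT.IdeleDict NumberField IsDedekindDomain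

variable {K : Type} [Field K] [NumberField K]


/-- The multiplicity of `P` in an integral ideal, as an integer. -/
abbrev cnt (P : HeightOneSpectrum (𝓞 K)) (I : Ideal (𝓞 K)) : ℤ :=
  FractionalIdeal.count K P (I : FractionalIdeal (𝓞 K)⁰ K)

theorem cnt_top (P : HeightOneSpectrum (𝓞 K)) : cnt P ⊤ = 0 := by
  rw [cnt, FractionalIdeal.coeIdeal_top, FractionalIdeal.count_one]

theorem cnt_mul (P : HeightOneSpectrum (𝓞 K)) {I I' : Ideal (𝓞 K)} (hI : I ≠ ⊥) (hI' : I' ≠ ⊥) :
    cnt P (I * I') = cnt P I + cnt P I' := by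
  rw [cnt, FractionalIdeal.coeIdeal_mul, FractionalIdeal.count_mul]
  · exact FractionalIdeal.coeIdeal_ne_zero.mpr hI
  · exact FractionalIdeal.coeIdeal_ne_zero.mpr hI'

theorem cnt_pow (P : HeightOneSpectrum (𝓞 K)) (I : Ideal (𝓞 K)) (n : ℕ) :
    cnt P (I ^ n) = n * cnt P I := by
  rw [cnt, FractionalIdeal.coeIdeal_pow, FractionalIdeal.count_pow]

theorem cnt_prime (P Q : HeightOneSpectrum (𝓞 K)) [Decidable (Q = P)] :
    cnt P Q.asIdeal = if Q = P then 1 else 0 :=
  FractionalIdeal.count_maximal K P Q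

theorem cnt_eq_zero_of_not_dvd (P : HeightOneSpectrum (𝓞 K)) {I : Ideal (𝓞 K)} (hI : I ≠ ⊥)
    (h : ¬ P.asIdeal ∣ I) : cnt P I = 0 := by
  rw [cnt, FractionalIdeal.count_coe K P hI, Nat.cast_eq_zero]
  by_contra hne
  exact h ((Associates.count_ne_zero_iff_dvd hI P.irreducible).mp hne)

/-- The multiplicity of `P` in a principal ideal is the order of the generator. -/
theorem cnt_span_singleton (P : HeightOneSpectrum (𝓞 K)) {α : 𝓞 K} (hα : α ≠ 0) (a : Kˣ)
    (ha : (a : K) = (α : K)) : cnt P (Ideal.span {α}) = ordAt P a := by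
  have hne : (Ideal.span {α} : Ideal (𝓞 K)) ≠ 0 := by
    rw [Ne, Ideal.zero_eq_bot, Ideal.span_singleton_eq_bot]; exact hα
  have h1 := valuation_eq_exp_neg_ordAt P a
  rw [ha] at h1
  have h2 : P.valuation K (α : K) = P.intValuation α := P.valuation_of_algebraMap α
  rw [h2, P.intValuation_if_neg hα, WithZero.exp_inj, neg_inj] at h1
  rw [cnt, FractionalIdeal.count_coe K P hne]
  exact h1



/-! ### The modulus -/

section Modulus

variable (pp : Nat.Primes) (T : Finset Nat.Primes)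

/-- The integer `M = p ^ (p + 1) * ∏ q ∈ T, q`. -/
def modInt : ℕ := (pp : ℕ) ^ ((pp : ℕ) + 1) * ∏ q ∈ T, (q : ℕ)

theorem modInt_ne_zero : modInt pp T ≠ 0 := by
  unfold modInt
  refine mul_ne_zero (pow_ne_zero _ pp.2.ne_zero) (Finset.prod_ne_zero_iff.mpr fun q _ => q.2.ne_zero)

theorem dvd_modInt_of_mem {q : Nat.Primes} (hq : q ∈ T) : (q : ℕ) ∣ modInt pp T :=
  Dvd.dvd.mul_left (Finset.dvd_prod_of_mem (fun q : Nat.Primes => (q : ℕ)) hq) _

theorem pow_dvd_modInt : (pp : ℕ) ^ ((pp : ℕ) + 1) ∣ modInt pp T := Dvd.intro _ rfl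

/-- A rational prime outside `T ∋ p` is prime to `M`. -/
theorem coprime_modInt_of_notMem (hpT : pp ∈ T) {q : Nat.Primes} (hq : q ∉ T) :
    Nat.Coprime (q : ℕ) (modInt pp T) := by
  unfold modInt
  refine Nat.Coprime.mul_right (Nat.Coprime.pow_right _ ?_) (Nat.Coprime.prod_right fun q' hq' => ?_)
  · rw [Nat.coprime_primes q.2 pp.2]
    intro h
    exact hq (by rwa [Subtype.ext h])
  · rw [Nat.coprime_primes q.2 q'.2]
    intro h
    exact hq (by rwa [Subtype.ext h])

variable (K)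

/-- The modulus `m = (M)`. -/
def modulus : Ideal (𝓞 K) := Ideal.span {((modInt pp T : ℕ) : 𝓞 K)}

variable {K}

theorem modulus_ne_bot : modulus K pp T ≠ ⊥ := by
  rw [modulus, Ne, Ideal.span_singleton_eq_bot, Nat.cast_eq_zero]
  exact modInt_ne_zero pp T

/-- A prime of `𝓞 K` above some `q ∈ T` contains the modulus. -/
theorem modulus_le_of_mem {P : HeightOneSpectrum (𝓞 K)} {q : Nat.Primes} (hq : q ∈ T)
    (hqP : ((q : ℕ) : 𝓞 K) ∈ P.asIdeal) : modulus K pp T ≤ P.asIdeal := by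
  rw [modulus, Ideal.span_singleton_le_iff_mem]
  obtain ⟨k, hk⟩ := dvd_modInt_of_mem pp T hq
  rw [hk, Nat.cast_mul]
  exact P.asIdeal.mul_mem_right _ hqP

theorem not_isCoprime_of_mem {P : HeightOneSpectrum (𝓞 K)} {q : Nat.Primes} (hq : q ∈ T)
    (hqP : ((q : ℕ) : 𝓞 K) ∈ P.asIdeal) : ¬ IsCoprime P.asIdeal (modulus K pp T) := by
  intro h
  rw [Ideal.isCoprime_iff_sup_eq] at h
  have : P.asIdeal ⊔ modulus K pp T = P.asIdeal := sup_eq_left.mpr (modulus_le_of_mem pp T hq hqP)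
  rw [this] at h
  exact P.isPrime.ne_top h

/-- An ideal prime to the modulus is not divisible by a prime above `q ∈ T`. -/
theorem not_dvd_of_isCoprime {I : Ideal (𝓞 K)} (hI : IsCoprime I (modulus K pp T))
    {P : HeightOneSpectrum (𝓞 K)} {q : Nat.Primes} (hq : q ∈ T)
    (hqP : ((q : ℕ) : 𝓞 K) ∈ P.asIdeal) : ¬ P.asIdeal ∣ I := by
  intro hdvd
  have hle : I ≤ P.asIdeal := Ideal.le_of_dvd hdvd
  rw [Ideal.isCoprime_iff_sup_eq] at hI
  have : I ⊔ modulus K pp T ≤ P.asIdeal := sup_le hle (modulus_le_of_mem pp T hq hqP)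
  rw [hI] at this
  exact P.isPrime.ne_top (top_le_iff.mp this)

/-- A prime of `𝓞 K` above `q ∉ T` is prime to the modulus. -/
theorem isCoprime_of_notMem (hpT : pp ∈ T) {P : HeightOneSpectrum (𝓞 K)} {q : Nat.Primes}
    (hq : q ∉ T) (hqP : ((q : ℕ) : 𝓞 K) ∈ P.asIdeal) : IsCoprime P.asIdeal (modulus K pp T) := by
  rw [Ideal.isCoprime_iff_exists]
  have hcop := coprime_modInt_of_notMem pp T hpT hq
  have hint : IsCoprime ((q : ℕ) : ℤ) ((modInt pp T : ℕ) : ℤ) := Nat.isCoprime_iff_coprime.mpr hcop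
  obtain ⟨a, b, hab⟩ := hint
  refine ⟨(a : 𝓞 K) * ((q : ℕ) : 𝓞 K), P.asIdeal.mul_mem_left _ hqP,
    (b : 𝓞 K) * ((modInt pp T : ℕ) : 𝓞 K), ?_, ?_⟩
  · exact Ideal.mul_mem_left _ _ (Ideal.mem_span_singleton_self _)
  · have := congrArg (fun z : ℤ => (z : 𝓞 K)) hab
    simpa using this

end Modulus




/-! ### The `P`-component of a principal idele -/

section CompAt

theorem semiLocalOrd_congr {q : ℕ} [Fact q.Prime] (f g : semiLocalUnits q K) (τ : LocalEmb q K)
    (h : ‖((f : LocalEmb q K → (PadicAlgCl q)ˣ) τ : PadicAlgCl q)‖ =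
      ‖((g : LocalEmb q K → (PadicAlgCl q)ˣ) τ : PadicAlgCl q)‖) :
    semiLocalOrd f τ = semiLocalOrd g τ := by
  rw [semiLocalOrd_eq_iff, h, norm_apply_zpow_ramIdx]

open Classical in
/-- The `P`-component of the principal idele of `a`: `τ ↦ τ a` at the embeddings with prime `P`
and `1` elsewhere. -/
def compAt (P : HeightOneSpectrum (𝓞 K)) (a : Kˣ) : IdeleProd K := fun q =>
  ⟨fun τ => if primeOfH τ = P then Units.map (τ : K →* PadicAlgCl (q : ℕ)) a else 1, by
    intro γ τ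
    beta_reduce
    rw [primeOfH_smul]
    split_ifs
    · ext; rfl
    · simp⟩

theorem compAt_apply_of_eq {P : HeightOneSpectrum (𝓞 K)} (a : Kˣ) {q : Nat.Primes}
    (τ : LocalEmb (q : ℕ) K) (h : primeOfH τ = P) :
    ((compAt P a q : semiLocalUnits (q : ℕ) K) : LocalEmb (q : ℕ) K → (PadicAlgCl (q : ℕ))ˣ) τ =
      Units.map (τ : K →* PadicAlgCl (q : ℕ)) a := by
  simp [compAt, h]

theorem compAt_apply_of_ne {P : HeightOneSpectrum (𝓞 K)} (a : Kˣ) {q : Nat.Primes}
    (τ : LocalEmb (q : ℕ) K) (h : primeOfH τ ≠ P) :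
    ((compAt P a q : semiLocalUnits (q : ℕ) K) : LocalEmb (q : ℕ) K → (PadicAlgCl (q : ℕ))ˣ) τ =
      1 := by
  simp [compAt, h]

/-- If no embedding at `q` has prime `P`, the `q`-component of `compAt P a` is trivial. -/
theorem compAt_apply_eq_one {P : HeightOneSpectrum (𝓞 K)} (a : Kˣ) {q : Nat.Primes}
    (h : ∀ τ : LocalEmb (q : ℕ) K, primeOfH τ ≠ P) : compAt P a q = 1 := by
  apply Subtype.ext
  funext τ
  exact compAt_apply_of_ne a τ (h τ)

open Classical in
theorem ideleOrd_compAt (P P' : HeightOneSpectrum (𝓞 K)) (a : Kˣ) :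
    ideleOrd (compAt P a) P' = if P' = P then ordAt P a else 0 := by
  obtain ⟨q, τ, rfl⟩ := exists_emb P'
  rw [ideleOrd_primeOfH]
  split_ifs with h
  · subst h
    rw [← semiLocalOrd_diag a τ]
    apply semiLocalOrd_congr
    rw [compAt_apply_of_eq a τ rfl]
    rfl
  · rw [← semiLocalOrd_one τ]
    apply semiLocalOrd_congr
    rw [compAt_apply_of_ne a τ h]
    rfl

theorem compAt_mem_ideleGroup (P : HeightOneSpectrum (𝓞 K)) (a : Kˣ) :
    compAt P a ∈ ideleGroup K := by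
  classical
  obtain ⟨q₀, τ₀, hτ₀⟩ := exists_emb P
  refine mem_ideleGroup_of_support (T := {q₀}) fun q hq => ?_
  rw [compAt_apply_eq_one a]
  · exact one_mem _
  · intro τ h
    apply hq
    rw [Finset.mem_singleton]
    exact prime_eq_of_primeOfH_eq τ τ₀ (h.trans hτ₀.symm)

end CompAt


end Fermat.Agent.CFT.SecondModel
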