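import Fermat.Agent.S14.LatticeCountZ

/-!
# Lattice point counting with error term, for cosets of a lattice

Translated versions of the counting theorems of `S14/LatticeCount.lean` and
`S14/LatticeCountZ.lean`: the number of points of a coset `a + L` of a `ℤ`-lattice in the dilate
`t • s` of a bounded set with Lipschitz-parametrisable frontier is `t ^ n vol(s) / covol(L) +
O(t ^ d)`, with a constant independent of the coset.

Main results (namespace `Fermat.Agent.CFT.LatticeCoset`):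
* `abs_latticeCount_vadd_smul_sub_le` (standard lattice),
* `exists_abs_card_vadd_smul_sub_le'` (general lattice in an inner product space),
* `exists_abs_card_coset_le_sub_le'` (cone `X`, homogeneous `F`).
-/

set_option autoImplicit false

namespace Fermat.Agent.CFT

open MeasureTheory Set Module
open scoped Pointwise
open Fermat.Agent.S14 Fermat.Agent.S14.LatticeCount

namespace LatticeCoset

section Standard

variable {ι : Type*} [Fintype ι] {d : ℕ}

/-- Translated version of `LatticeCount.abs_latticeCount_smul_sub_le`. -/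
theorem abs_latticeCount_vadd_smul_sub_le [DecidableEq ι] {s : Set (ι → ℝ)}
    (hs : Bornology.IsBounded s) (hsm : MeasurableSet s) {J : Type*} [Fintype J]
    (φ : J → (Fin d → ℝ) → (ι → ℝ)) (K : NNReal) (hφ : ∀ j, LipschitzWith K (φ j))
    (hfr : frontier s ⊆ ⋃ j, φ j '' Set.Icc (0 : Fin d → ℝ) 1) {t : ℝ} (ht : 1 ≤ t)
    (v : ι → ℝ) :
    |(latticeCount (v +ᵥ (t • s)) : ℝ) - t ^ Fintype.card ι * volume.real s| ≤
      (Fintype.card J : ℝ) * ((⌈t⌉₊ : ℝ) ^ d * (2 * ⌈(K : ℝ)⌉₊ + 1) ^ Fintype.card ι) := by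
  have ht0 : 0 < t := lt_of_lt_of_le one_pos ht
  set w : ι → ℝ := t⁻¹ • v with hw
  have htw : t • w = v := by rw [hw, smul_inv_smul₀ ht0.ne']
  have hset : v +ᵥ (t • s) = t • (w +ᵥ s) := by
    ext x
    simp only [Set.mem_vadd_set, Set.mem_smul_set, vadd_eq_add]
    constructor
    · rintro ⟨_, ⟨y, hy, rfl⟩, rfl⟩
      exact ⟨w + y, ⟨y, hy, rfl⟩, by rw [smul_add, htw]⟩
    · rintro ⟨_, ⟨y, hy, rfl⟩, rfl⟩
      exact ⟨t • y, ⟨y, hy, rfl⟩, by rw [smul_add, htw]⟩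
  have hs' : Bornology.IsBounded (w +ᵥ s) := hs.vadd w
  have hsm' : MeasurableSet (w +ᵥ s) := hsm.const_vadd w
  have hφ' : ∀ j, LipschitzWith K (fun u => w + φ j u) := fun j =>
    (LipschitzWith.const w).add (hφ j) |>.weaken (by simp)
  have hfr' : frontier (w +ᵥ s) ⊆ ⋃ j, (fun u => w + φ j u) '' Set.Icc (0 : Fin d → ℝ) 1 := by
    have h1 : frontier (w +ᵥ s) = w +ᵥ frontier s := by
      have := (Homeomorph.addLeft w).image_frontier s
      have h2 : ∀ A : Set (ι → ℝ), (Homeomorph.addLeft w) '' A = w +ᵥ A := fun A => by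
        ext x
        simp only [Set.mem_image, Homeomorph.coe_addLeft, Set.mem_vadd_set, vadd_eq_add]
      rw [h2, h2] at this
      exact this.symm
    rw [h1]
    intro x hx
    obtain ⟨y, hy, rfl⟩ := Set.mem_vadd_set.mp hx
    obtain ⟨j, hj⟩ := Set.mem_iUnion.mp (hfr hy)
    obtain ⟨u, hu, rfl⟩ := hj
    exact Set.mem_iUnion.mpr ⟨j, u, hu, rfl⟩
  have hvol : volume.real (w +ᵥ s) = volume.real s := by
    rw [measureReal_def, measure_vadd, ← measureReal_def]
  have main := abs_latticeCount_smul_sub_le hs' hsm' (fun j u => w + φ j u) K hφ' hfr' ht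
  rwa [← hset, hvol] at main

end Standard

section General

variable {E : Type*} [NormedAddCommGroup E] [NormedSpace ℝ E] [FiniteDimensional ℝ E]
variable {L : Submodule ℤ E} [DiscreteTopology L] [IsZLattice ℝ L]
variable {ι : Type*} [Fintype ι] (b : Basis ι ℤ L)
variable [MeasurableSpace E] [BorelSpace E]

/-- Translated version of `LatticeCount.exists_abs_card_smul_sub_le''`; the constant does not
depend on the translation. -/
theorem exists_abs_card_vadd_smul_sub_le'' {s : Set E} (hs : Bornology.IsBounded s)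
    (hsm : MeasurableSet s) {d : ℕ} {J : Type*} [Fintype J] (φ : J → (Fin d → ℝ) → E) (K : NNReal)
    (hφ : ∀ j, LipschitzWith K (φ j))
    (hfr : frontier s ⊆ ⋃ j, φ j '' Set.Icc (0 : Fin d → ℝ) 1) :
    ∃ C : ℝ, 0 ≤ C ∧ ∀ t : ℝ, 1 ≤ t → ∀ v : E,
      |(Nat.card ((v +ᵥ (t • s)) ∩ L : Set E) : ℝ) -
        t ^ Fintype.card ι * volume.real ((b.ofZLatticeBasis ℝ L).equivFun '' s)| ≤ C * t ^ d := by
  classical
  set e : E ≃L[ℝ] (ι → ℝ) := (b.ofZLatticeBasis ℝ L).equivFunL with he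
  have hee : ∀ A : Set E, (b.ofZLatticeBasis ℝ L).equivFun '' A = e '' A := fun A => rfl
  set K' : NNReal := ‖(e : E →L[ℝ] (ι → ℝ))‖₊ * K with hK'
  have hφ' : ∀ j, LipschitzWith K' (e ∘ φ j) := fun j => e.lipschitz.comp (hφ j)
  have hs' : Bornology.IsBounded (e '' s) := e.lipschitz.isBounded_image hs
  have hsm' : MeasurableSet (e '' s) :=
    e.toHomeomorph.toMeasurableEquiv.measurableSet_image.mpr hsm
  have hfr' : frontier (e '' s) ⊆ ⋃ j, (e ∘ φ j) '' Set.Icc (0 : Fin d → ℝ) 1 := by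
    have h1 : frontier (e '' s) = e '' frontier s := (e.toHomeomorph.image_frontier s).symm
    rw [h1]
    refine (Set.image_mono hfr).trans ?_
    rw [Set.image_iUnion]
    refine Set.iUnion_mono fun j => ?_
    rw [Set.image_comp]
  refine ⟨(Fintype.card J : ℝ) * (2 ^ d * (2 * ⌈(K' : ℝ)⌉₊ + 1) ^ Fintype.card ι), by positivity,
    fun t ht v => ?_⟩
  have ht0 : 0 < t := lt_of_lt_of_le one_pos ht
  have main := abs_latticeCount_vadd_smul_sub_le hs' hsm' (fun j => e ∘ φ j) K' hφ' hfr' ht (e v)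
  have himg : e '' (v +ᵥ (t • s)) = e v +ᵥ (t • (e '' s)) := by
    ext x
    simp only [Set.mem_image, Set.mem_vadd_set, Set.mem_smul_set, vadd_eq_add]
    constructor
    · rintro ⟨_, ⟨_, ⟨y, hy, rfl⟩, rfl⟩, rfl⟩
      exact ⟨t • e y, ⟨e y, ⟨y, hy, rfl⟩, rfl⟩, by rw [map_add, map_smul]⟩
    · rintro ⟨_, ⟨_, ⟨y, hy, rfl⟩, rfl⟩, rfl⟩
      exact ⟨v + t • y, ⟨t • y, ⟨y, hy, rfl⟩, rfl⟩, by rw [map_add, map_smul]⟩
  rw [card_inter_eq_latticeCount b, hee, hee, himg]
  refine main.trans ?_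
  have hceil : (⌈t⌉₊ : ℝ) ≤ 2 * t := by
    have := (Nat.ceil_lt_add_one ht0.le).le
    linarith
  have : (⌈t⌉₊ : ℝ) ^ d ≤ 2 ^ d * t ^ d := by
    rw [← mul_pow]
    exact pow_le_pow_left₀ (Nat.cast_nonneg _) hceil d
  calc (Fintype.card J : ℝ) * ((⌈t⌉₊ : ℝ) ^ d * (2 * ⌈(K' : ℝ)⌉₊ + 1) ^ Fintype.card ι)
      ≤ (Fintype.card J : ℝ) * ((2 ^ d * t ^ d) * (2 * ⌈(K' : ℝ)⌉₊ + 1) ^ Fintype.card ι) := by
        gcongr
    _ = _ := by ring

end General

section InnerProductSpace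

variable {E : Type*} [NormedAddCommGroup E] [InnerProductSpace ℝ E] [FiniteDimensional ℝ E]
  [MeasurableSpace E] [BorelSpace E]
variable (L : Submodule ℤ E) [DiscreteTopology L] [IsZLattice ℝ L]

/-- Translated version of `LatticeCount.exists_abs_card_smul_sub_le'`. -/
theorem exists_abs_card_vadd_smul_sub_le' {s : Set E} (hs : Bornology.IsBounded s)
    (hsm : MeasurableSet s) {d : ℕ} {J : Type*} [Fintype J] (φ : J → (Fin d → ℝ) → E) (K : NNReal)
    (hφ : ∀ j, LipschitzWith K (φ j))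
    (hfr : frontier s ⊆ ⋃ j, φ j '' Set.Icc (0 : Fin d → ℝ) 1) :
    ∃ C : ℝ, 0 ≤ C ∧ ∀ t : ℝ, 1 ≤ t → ∀ v : E,
      |(Nat.card ((v +ᵥ (t • s)) ∩ L : Set E) : ℝ) -
        t ^ finrank ℝ E * (volume.real s / ZLattice.covolume L)| ≤ C * t ^ d := by
  let b := Module.Free.chooseBasis ℤ L
  obtain ⟨C, hC, h⟩ := exists_abs_card_vadd_smul_sub_le'' b hs hsm φ K hφ hfr
  refine ⟨C, hC, fun t ht v => ?_⟩
  have := h t ht v
  rwa [← finrank_eq_card_chooseBasisIndex, ZLattice.rank ℝ L, measureReal_def,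
    ZLattice.volume_image_eq_volume_div_covolume' L b hsm.nullMeasurableSet, ENNReal.toReal_div,
    ENNReal.toReal_ofReal (ZLattice.covolume_pos L volume).le, ← measureReal_def] at this

/-- **Counting points of a coset of a lattice, of bounded "norm", in a cone, with error term**.
The constant is independent of the coset `a + L`. -/
theorem exists_abs_card_coset_le_sub_le' [Nontrivial E] {X : Set E} {F : E → ℝ}
    (hX : ∀ ⦃x⦄ ⦃r : ℝ⦄, x ∈ X → 0 < r → r • x ∈ X)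
    (h₁ : ∀ x ⦃r : ℝ⦄, 0 ≤ r → F (r • x) = r ^ finrank ℝ E * (F x))
    (h₂ : Bornology.IsBounded {x ∈ X | F x ≤ 1}) (h₃ : MeasurableSet {x ∈ X | F x ≤ 1})
    {d : ℕ} {J : Type*} [Fintype J] (φ : J → (Fin d → ℝ) → E) (K : NNReal)
    (hφ : ∀ j, LipschitzWith K (φ j))
    (hfr : frontier {x ∈ X | F x ≤ 1} ⊆ ⋃ j, φ j '' Set.Icc (0 : Fin d → ℝ) 1) :
    ∃ C : ℝ, 0 ≤ C ∧ ∀ c : ℝ, 1 ≤ c → ∀ a : E,
      |(Nat.card {x : E // (x ∈ X ∧ F x ≤ c) ∧ x - a ∈ L} : ℝ) -
        c * (volume.real {x ∈ X | F x ≤ 1} / ZLattice.covolume L)| ≤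
          C * c ^ ((d : ℝ) / (finrank ℝ E : ℝ)) := by
  obtain ⟨C, hC, h⟩ := exists_abs_card_vadd_smul_sub_le' L h₂ h₃ φ K hφ hfr
  refine ⟨C, hC, fun c hc a => ?_⟩
  have hc0 : 0 < c := lt_of_lt_of_le one_pos hc
  have hn : (finrank ℝ E : ℝ) ≠ 0 := Nat.cast_ne_zero.mpr finrank_pos.ne'
  set t : ℝ := c ^ ((finrank ℝ E : ℝ))⁻¹ with ht
  have ht1 : 1 ≤ t := Real.one_le_rpow hc (inv_nonneg.mpr (Nat.cast_nonneg _))
  have ht0 : 0 < t := lt_of_lt_of_le one_pos ht1
  have htn : t ^ finrank ℝ E = c := by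
    rw [ht, ← Real.rpow_natCast, Real.rpow_inv_rpow hc0.le hn]
  have htd : t ^ d = c ^ ((d : ℝ) / (finrank ℝ E : ℝ)) := by
    rw [ht, ← Real.rpow_natCast, ← Real.rpow_mul hc0.le, div_eq_inv_mul]
  have := h t ht1 (-a)
  rw [smul_setOf_le_one_eq hX h₁ ht0, htn, htd] at this
  have hcard : Nat.card {x : E // (x ∈ X ∧ F x ≤ c) ∧ x - a ∈ L} =
      Nat.card (((-a) +ᵥ {x ∈ X | F x ≤ c}) ∩ L : Set E) := by
    refine Nat.card_congr ?_
    refine ⟨fun x => ⟨x.1 - a, ?_, x.2.2⟩, fun y => ⟨y.1 + a, ?_, ?_⟩, ?_, ?_⟩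
    · refine Set.mem_vadd_set.mpr ⟨x.1, x.2.1, ?_⟩
      rw [vadd_eq_add, neg_add_eq_sub]
    · obtain ⟨z, hz, hzy⟩ := Set.mem_vadd_set.mp y.2.1
      rw [vadd_eq_add] at hzy
      have : y.1 + a = z := by rw [← hzy]; abel
      rw [this]
      exact hz
    · rw [add_sub_cancel_right]
      exact y.2.2
    · intro x
      apply Subtype.ext
      simp
    · intro y
      apply Subtype.ext
      simp
  rw [hcard]
  exact this

end InnerProductSpace

end LatticeCoset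

end Fermat.Agent.CFT
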