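import Fermat.Agent.CFT.Global.IdeleDict.DictAdapters
import Fermat.Agent.CFT.Global.PadicRoot
import Fermat.Agent.CFT.Global.IdeleCoh

/-!
# The norm subgroup of the idele group and three sources of norms

`K ⊆ L` fields, `L / K` finite; `G = L ≃ₐ[K] L` acts on the ideles of `L`.

* `normIdeles K L : Subgroup (ideleGroup K)`: the ideles `x` of `K` whose image in `J_L` is of the
  form `∏ σ, σ • y`;
* `pow_card_mem_normIdeles`: `x ^ |G|` is a norm;
* `restrictTo T x`: the family `x` restricted to a finite set `T` of rational primes;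
* `mem_normIdeles_of_near_one`: an idele supported on `T` and close to `1` there is a norm
  (`|G| = p`; `p`-th powers are open);
* `mem_normIdeles_of_integral`: an idele which is trivial on `T` and integral everywhere is a norm
  if integral semi-local units are norms outside `T`;
* `restrictTo_principal_norm_mem_normIdeles`: the `q`-component of the principal idele of a global
  norm is a norm.
-/

set_option autoImplicit false
set_option linter.unusedSectionVars false

open scoped NumberField

noncomputable section

namespace Fermat.Agent.CFT.SecondModel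

open Fermat.Agent.CFT

section Restrict

variable {K : Type} [Field K]

/-- Restriction of a family of semi-local units to a finite set `T` of rational primes. -/
def restrictTo (T : Finset Nat.Primes) : IdeleProd K →* IdeleProd K where
  toFun x q := if q ∈ T then x q else 1
  map_one' := by
    funext q
    by_cases h : q ∈ T <;> simp [h]
  map_mul' x y := by
    funext q
    by_cases h : q ∈ T <;> simp [h]

theorem restrictTo_apply_of_mem {T : Finset Nat.Primes} (x : IdeleProd K) {q : Nat.Primes}
    (h : q ∈ T) : restrictTo T x q = x q := by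
  simp [restrictTo, h]

theorem restrictTo_apply_of_notMem {T : Finset Nat.Primes} (x : IdeleProd K) {q : Nat.Primes}
    (h : q ∉ T) : restrictTo T x q = 1 := by
  simp [restrictTo, h]

/-- A family supported on a finite set of primes is an idele. -/
theorem mem_ideleGroup_of_support {T : Finset Nat.Primes} {x : IdeleProd K}
    (h : ∀ q : Nat.Primes, q ∉ T → x q ∈ semiLocalIntegral (q : ℕ) K) : x ∈ ideleGroup K := by
  rw [mem_ideleGroup_iff_finite]
  refine T.finite_toSet.subset fun q hq => ?_
  by_contra hqT
  exact hq (h q hqT)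

theorem restrictTo_mem_ideleGroup (T : Finset Nat.Primes) (x : IdeleProd K) :
    restrictTo T x ∈ ideleGroup K :=
  mem_ideleGroup_of_support (T := T) fun q hq => by
    rw [restrictTo_apply_of_notMem x hq]
    exact one_mem _

end Restrict

section Norm

variable (K L : Type) [Field K] [Field L] [Algebra K L] [FiniteDimensional K L]

/-- The subgroup of `J_K` of norms from `J_L`. -/
def normIdeles : Subgroup (ideleGroup K) where
  carrier := {x | ∃ y : ideleGroup L,
    ideleMap (algebraMap K L) x = ∏ σ : L ≃ₐ[K] L, σ • y}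
  one_mem' := ⟨1, by simp⟩
  mul_mem' := by
    rintro a b ⟨y, hy⟩ ⟨z, hz⟩
    refine ⟨y * z, ?_⟩
    rw [map_mul, hy, hz, ← Finset.prod_mul_distrib]
    exact Finset.prod_congr rfl fun σ _ => (smul_mul' σ y z).symm
  inv_mem' := by
    rintro a ⟨y, hy⟩
    refine ⟨y⁻¹, ?_⟩
    rw [map_inv, hy, ← Finset.prod_inv_distrib]
    exact Finset.prod_congr rfl fun σ _ => (smul_inv' σ y).symm

variable {K L}

theorem mem_normIdeles {x : ideleGroup K} :
    x ∈ normIdeles K L ↔ ∃ y : ideleGroup L,
      ideleMap (algebraMap K L) x = ∏ σ : L ≃ₐ[K] L, σ • y := Iff.rfl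

/-- Components of a Galois norm. -/
theorem coe_prod_smul_apply (y : ideleGroup L) (q : Nat.Primes) :
    ((∏ σ : L ≃ₐ[K] L, σ • y : ideleGroup L) : IdeleProd L) q =
      ∏ σ : L ≃ₐ[K] L, σ • (y : IdeleProd L) q := by
  rw [Subgroup.val_finsetProd, Finset.prod_apply]
  rfl

/-- Membership in `normIdeles`, componentwise. -/
theorem mem_normIdeles_of_forall {x : ideleGroup K} (y : IdeleProd L) (hy : y ∈ ideleGroup L)
    (h : ∀ q : Nat.Primes, semiLocalMap (algebraMap K L) ((x : IdeleProd K) q) =
      ∏ σ : L ≃ₐ[K] L, σ • y q) : x ∈ normIdeles K L := by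
  refine ⟨⟨y, hy⟩, Subtype.ext (funext fun q => ?_)⟩
  rw [coe_prod_smul_apply]
  exact h q

/-- `x ^ |G|` is a norm. -/
theorem pow_card_mem_normIdeles (x : ideleGroup K) :
    x ^ Nat.card (L ≃ₐ[K] L) ∈ normIdeles K L := by
  refine ⟨ideleMap (algebraMap K L) x, ?_⟩
  rw [map_pow]
  have h : ∀ σ : L ≃ₐ[K] L, σ • ideleMap (algebraMap K L) x = ideleMap (algebraMap K L) x :=
    fun σ => smul_ideleMap (algebraMap K L) (fun σ a => by
      show σ (algebraMap K L a) = algebraMap K L a
      exact σ.commutes a) σ x
  rw [Finset.prod_congr rfl fun σ _ => h σ, Finset.prod_const, Finset.card_univ,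
    Nat.card_eq_fintype_card]

/-- An idele supported on `T` whose components are close to `1` is a norm, when `|G| = p`. -/
theorem mem_normIdeles_of_near_one {p : ℕ} (hp : p ≠ 0) (hcard : Nat.card (L ≃ₐ[K] L) = p)
    (T : Finset Nat.Primes) {t : ideleGroup K}
    (h1 : ∀ q : Nat.Primes, q ∉ T → (t : IdeleProd K) q = 1)
    (h2 : ∀ q : Nat.Primes, q ∈ T → ∀ τ : LocalEmb (q : ℕ) K,
      ‖((((t : IdeleProd K) q : semiLocalUnits (q : ℕ) K) :
        LocalEmb (q : ℕ) K → (PadicAlgCl (q : ℕ))ˣ) τ : PadicAlgCl (q : ℕ)) - 1‖ <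
        ‖((p : ℕ) : PadicAlgCl (q : ℕ))‖ ^ p) :
    t ∈ normIdeles K L := by
  classical
  have hex : ∀ q : Nat.Primes, ∃ g : semiLocalUnits (q : ℕ) K,
      g ^ p = (t : IdeleProd K) q ∧ g ∈ semiLocalIntegral (q : ℕ) K := by
    intro q
    by_cases hq : q ∈ T
    · exact PadicRoot.exists_pow_eq_of_near_one hp _ (h2 q hq)
    · exact ⟨1, by rw [one_pow, h1 q hq], one_mem _⟩
  choose g hg hgint using hex
  refine mem_normIdeles_of_forall (fun q => semiLocalMap (algebraMap K L) (g q)) ?_ ?_
  · rw [mem_ideleGroup]
    exact Filter.Eventually.of_forall fun q => semiLocalMap_mem_integral _ (hgint q)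
  · intro q
    rw [Finset.prod_congr rfl fun σ _ => smul_semiLocalMap_algebraMap K σ (g q), Finset.prod_const,
      Finset.card_univ, ← Nat.card_eq_fintype_card, hcard, ← map_pow, hg q]

/-- An everywhere integral idele which is trivial on `T` is a norm, if the integral semi-local
units are norms of integral semi-local units outside `T`. -/
theorem mem_normIdeles_of_integral (T : Finset Nat.Primes)
    (hUnr : ∀ q : Nat.Primes, q ∉ T → ∀ f : semiLocalUnits (q : ℕ) K,
      f ∈ semiLocalIntegral (q : ℕ) K → ∃ g : semiLocalUnits (q : ℕ) L,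
        g ∈ semiLocalIntegral (q : ℕ) L ∧
          semiLocalMap (algebraMap K L) f = ∏ σ : L ≃ₐ[K] L, σ • g)
    {u : ideleGroup K} (h1 : ∀ q : Nat.Primes, q ∈ T → (u : IdeleProd K) q = 1)
    (h2 : ∀ q : Nat.Primes, (u : IdeleProd K) q ∈ semiLocalIntegral (q : ℕ) K) :
    u ∈ normIdeles K L := by
  classical
  have hex : ∀ q : Nat.Primes, ∃ g : semiLocalUnits (q : ℕ) L,
      g ∈ semiLocalIntegral (q : ℕ) L ∧
        semiLocalMap (algebraMap K L) ((u : IdeleProd K) q) = ∏ σ : L ≃ₐ[K] L, σ • g := by
    intro q
    by_cases hq : q ∈ T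
    · refine ⟨1, one_mem _, ?_⟩
      rw [h1 q hq, map_one]
      simp
    · exact hUnr q hq _ (h2 q)
  choose g hgint hg using hex
  refine mem_normIdeles_of_forall g ?_ hg
  rw [mem_ideleGroup]
  exact Filter.Eventually.of_forall hgint

/-- The `q`-component of the principal idele of a global norm is a norm. -/
theorem restrictTo_principal_norm_mem_normIdeles [IsGalois K L] (b : Lˣ) (q : Nat.Primes) :
    (⟨restrictTo {q} (principalIdele K (Units.map (Algebra.norm K : L →* K) b)),
      restrictTo_mem_ideleGroup _ _⟩ : ideleGroup K) ∈ normIdeles K L := by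
  classical
  refine mem_normIdeles_of_forall (restrictTo {q} (principalIdele L b))
    (restrictTo_mem_ideleGroup _ _) fun q' => ?_
  by_cases hq : q' ∈ ({q} : Finset Nat.Primes)
  · show semiLocalMap (algebraMap K L) (restrictTo {q} (principalIdele K _) q') = _
    rw [restrictTo_apply_of_mem _ hq, principalIdele_apply, semiLocalMap_diag]
    rw [Finset.prod_congr rfl fun σ _ => by
      rw [restrictTo_apply_of_mem _ hq, principalIdele_apply, smul_semiLocalDiag], ← map_prod]
    congr 1
    apply Units.ext
    rw [Units.coe_map, Units.coe_map, Units.coe_prod]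
    simp only [MonoidHom.coe_coe, unitsSmul_coe]
    exact Algebra.norm_eq_prod_automorphisms K (b : L)
  · show semiLocalMap (algebraMap K L) (restrictTo {q} (principalIdele K _) q') = _
    rw [restrictTo_apply_of_notMem _ hq, map_one]
    rw [Finset.prod_congr rfl fun σ _ => by
      rw [restrictTo_apply_of_notMem _ hq, smul_one], Finset.prod_const_one]

end Norm

end Fermat.Agent.CFT.SecondModel
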