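import Mathlib

/-!
# Algebra of ideal characters modulo `m`

Let `ψ : Ideal (𝓞 K) →*₀ ℂ` vanish on the ideals not coprime to `m` and take the value `1` on the
principal ideals `(α)` with `α ≡ 1 mod m`.  We prove:

* `exists_mk0_eq_and_isCoprime`: every ideal class contains an integral ideal coprime to `m`;
* `psi_span_eq_of_sub_mem`: `ψ (α)` only depends on `α mod m` (for `α ≠ 0`), which gives the
  function `resChar` on `𝓞 K ⧸ m`;
* `psi_ne_zero_of_isCoprime`: `ψ` does not vanish on the nonzero ideals coprime to `m`;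
* `psi_span_mul_sum_resChar`: `ψ (x) * ∑ t, resChar t = ∑ t, resChar t` for `x` coprime to `m`;
* `sum_inv_psi_eq_zero`: if `ψ` is trivial on the principal ideals coprime to `m` but not
  on all ideals coprime to `m`, then `∑ c, (ψ (J c))⁻¹ = 0` for every system `J` of
  representatives coprime to `m` of the inverse ideal classes.
-/

set_option autoImplicit false
set_option linter.unusedSectionVars false

namespace Fermat.Agent.CFT.RayCount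

open Ideal NumberField
open scoped nonZeroDivisors

variable {K : Type*} [Field K] [NumberField K]

section Coprime

variable {m : Ideal (𝓞 K)}

/-- An element coprime to `m` has a nonzero inverse modulo `m`. -/
theorem exists_ne_zero_mul_sub_one_mem {x : 𝓞 K} (hc : IsCoprime (span {x}) m) :
    ∃ z : 𝓞 K, z ≠ 0 ∧ z * x - 1 ∈ m := by
  obtain ⟨i, hi, j, hj, hij⟩ := Ideal.isCoprime_iff_exists.1 hc
  obtain ⟨z, rfl⟩ := Ideal.mem_span_singleton'.1 hi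
  by_cases hz : z = 0
  · subst hz
    rw [zero_mul, zero_add] at hij
    subst hij
    have hmt : m = ⊤ := (Ideal.eq_top_iff_one m).2 hj
    exact ⟨1, one_ne_zero, by rw [hmt]; trivial⟩
  · refine ⟨z, hz, ?_⟩
    have h : z * x - 1 = -j := by rw [← hij]; ring
    rw [h]
    exact neg_mem hj

theorem isCoprime_span_singleton_congr {y y' : 𝓞 K} (h : y - y' ∈ m) :
    IsCoprime (span {y}) m ↔ IsCoprime (span {y'}) m := by
  have key : ∀ {a b : 𝓞 K}, a - b ∈ m → IsCoprime (span {a}) m → IsCoprime (span {b}) m := by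
    intro a b hab hc
    rw [Ideal.isCoprime_iff_sup_eq] at hc ⊢
    rw [eq_top_iff, ← hc, sup_le_iff]
    refine ⟨?_, le_sup_right⟩
    rw [Ideal.span_singleton_le_iff_mem]
    have h1 : a = b + (a - b) := by ring
    rw [h1]
    exact add_mem (Ideal.mem_sup_left (Ideal.mem_span_singleton_self b))
      (Ideal.mem_sup_right hab)
  exact ⟨key h, key (by rw [← neg_sub]; exact neg_mem h)⟩

/-- If the product of the classes of `A` and `I` is trivial, `A * I` is generated by a nonzero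
element. -/
theorem exists_span_singleton_eq_mul {A I : (Ideal (𝓞 K))⁰}
    (h : ClassGroup.mk0 A * ClassGroup.mk0 I = 1) :
    ∃ α : 𝓞 K, α ≠ 0 ∧ span {α} = (A : Ideal (𝓞 K)) * (I : Ideal (𝓞 K)) := by
  rw [← map_mul] at h
  have hmem : (A : Ideal (𝓞 K)) * (I : Ideal (𝓞 K)) ∈ (Ideal (𝓞 K))⁰ := (A * I).2
  have heq : (A * I : (Ideal (𝓞 K))⁰) = ⟨(A : Ideal (𝓞 K)) * (I : Ideal (𝓞 K)), hmem⟩ := rfl
  rw [heq, ClassGroup.mk0_eq_one_iff] at h
  obtain ⟨α, hα⟩ := h.principal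
  refine ⟨α, ?_, hα.symm⟩
  rintro rfl
  have h0 : (A : Ideal (𝓞 K)) * (I : Ideal (𝓞 K)) = ⊥ := by
    rw [hα]
    simp
  exact mem_nonZeroDivisors_iff_ne_zero.1 hmem h0

/-- Every ideal class contains an integral ideal coprime to `m`. -/
theorem exists_mk0_eq_and_isCoprime (hm : m ≠ ⊥) (c : ClassGroup (𝓞 K)) :
    ∃ J : (Ideal (𝓞 K))⁰, ClassGroup.mk0 J = c ∧ IsCoprime (J : Ideal (𝓞 K)) m := by
  by_cases hmt : m = ⊤
  · obtain ⟨J, hJ⟩ := ClassGroup.mk0_surjective c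
    exact ⟨J, hJ, by rw [hmt, ← Ideal.one_eq_top]; exact isCoprime_one_right⟩
  obtain ⟨J0, hJ0⟩ := ClassGroup.mk0_surjective c⁻¹
  have hJ0ne : (J0 : Ideal (𝓞 K)) ≠ 0 := nonZeroDivisors.coe_ne_zero J0
  obtain ⟨a, ha⟩ := IsDedekindDomain.exists_sup_span_eq (I := m * (J0 : Ideal (𝓞 K)))
    (J := (J0 : Ideal (𝓞 K))) Ideal.mul_le_right (mul_ne_zero hm hJ0ne)
  have haJ : span {a} ≤ (J0 : Ideal (𝓞 K)) := by
    rw [← ha]
    exact le_sup_right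
  obtain ⟨A, hA⟩ := Ideal.dvd_iff_le.2 haJ
  have hcop : m ⊔ A = ⊤ := by
    have h1 : (J0 : Ideal (𝓞 K)) * (m ⊔ A) = (J0 : Ideal (𝓞 K)) * ⊤ := by
      rw [Ideal.mul_sup, ← hA, mul_comm, ha, Ideal.mul_top]
    exact mul_left_cancel₀ hJ0ne h1
  have hA0 : A ≠ ⊥ := by
    rintro rfl
    rw [sup_bot_eq] at hcop
    exact hmt hcop
  set A' : (Ideal (𝓞 K))⁰ := ⟨A, mem_nonZeroDivisors_iff_ne_zero.2 hA0⟩ with hA'
  refine ⟨A', ?_, ?_⟩
  · have h1 : ClassGroup.mk0 (J0 * A') = 1 := by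
      have hmem : (J0 : Ideal (𝓞 K)) * A ∈ (Ideal (𝓞 K))⁰ := (J0 * A').2
      have heq : (J0 * A' : (Ideal (𝓞 K))⁰) = ⟨(J0 : Ideal (𝓞 K)) * A, hmem⟩ := rfl
      rw [heq, ClassGroup.mk0_eq_one_iff, ← hA]
      exact ⟨a, rfl⟩
    rw [map_mul, hJ0] at h1
    exact (inv_mul_eq_one.1 h1).symm
  · rw [Ideal.isCoprime_iff_sup_eq, sup_comm]
    exact hcop

theorem exists_ne_zero_mk_eq (hm : m ≠ ⊥) (t : 𝓞 K ⧸ m) :
    ∃ y : 𝓞 K, y ≠ 0 ∧ Ideal.Quotient.mk m y = t := by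
  obtain ⟨y, rfl⟩ := Ideal.Quotient.mk_surjective t
  by_cases hy : y = 0
  · obtain ⟨a, ha, ha0⟩ := Submodule.exists_mem_ne_zero_of_ne_bot hm
    refine ⟨a, ha0, ?_⟩
    rw [hy, map_zero, Ideal.Quotient.eq_zero_iff_mem]
    exact ha
  · exact ⟨y, hy, rfl⟩

end Coprime

section Char

variable {m : Ideal (𝓞 K)} (ψ : Ideal (𝓞 K) →*₀ ℂ)
  (hψ0 : ∀ I : Ideal (𝓞 K), ¬ IsCoprime I m → ψ I = 0)
  (hψ1 : ∀ α : 𝓞 K, α ≠ 0 → α - 1 ∈ m → ψ (Ideal.span {α}) = 1)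

include hψ1 in
theorem psi_span_mul_eq_one {z x : 𝓞 K} (hz : z ≠ 0) (hx : x ≠ 0) (h : z * x - 1 ∈ m) :
    ψ (span {z}) * ψ (span {x}) = 1 := by
  rw [← map_mul, Ideal.span_singleton_mul_span_singleton]
  exact hψ1 _ (mul_ne_zero hz hx) h

include hψ1 in
theorem psi_span_ne_zero {x : 𝓞 K} (hx : x ≠ 0) (hc : IsCoprime (span {x}) m) :
    ψ (span {x}) ≠ 0 := by
  obtain ⟨z, hz, h⟩ := exists_ne_zero_mul_sub_one_mem hc
  exact right_ne_zero_of_mul_eq_one (psi_span_mul_eq_one ψ hψ1 hz hx h)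

include hψ0 hψ1 in
/-- `ψ (y)` only depends on the class of `y ≠ 0` modulo `m`. -/
theorem psi_span_eq_of_sub_mem {y y' : 𝓞 K} (hy : y ≠ 0) (hy' : y' ≠ 0) (h : y - y' ∈ m) :
    ψ (span {y}) = ψ (span {y'}) := by
  by_cases hc : IsCoprime (span {y}) m
  · obtain ⟨z, hz, hzy⟩ := exists_ne_zero_mul_sub_one_mem hc
    have hzy' : z * y' - 1 ∈ m := by
      have h1 : z * y' - 1 = (z * y - 1) - z * (y - y') := by ring
      rw [h1]
      exact sub_mem hzy (Ideal.mul_mem_left _ _ h)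
    have h1 := psi_span_mul_eq_one ψ hψ1 hz hy hzy
    have h2 := psi_span_mul_eq_one ψ hψ1 hz hy' hzy'
    have hz0 : ψ (span {z}) ≠ 0 := left_ne_zero_of_mul_eq_one h1
    exact mul_left_cancel₀ hz0 (h1.trans h2.symm)
  · rw [hψ0 _ hc, hψ0 _ (fun h' => hc ((isCoprime_span_singleton_congr h).2 h'))]

include hψ1 in
/-- `ψ` does not vanish on the nonzero ideals coprime to `m`. -/
theorem psi_ne_zero_of_isCoprime (hm : m ≠ ⊥) (I : (Ideal (𝓞 K))⁰)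
    (hc : IsCoprime (I : Ideal (𝓞 K)) m) : ψ (I : Ideal (𝓞 K)) ≠ 0 := by
  obtain ⟨A, hA, hAm⟩ := exists_mk0_eq_and_isCoprime hm (ClassGroup.mk0 I)⁻¹
  obtain ⟨α, hα0, hα⟩ := exists_span_singleton_eq_mul (A := A) (I := I)
    (by rw [hA, inv_mul_cancel])
  have h1 : ψ (span {α}) ≠ 0 := by
    refine psi_span_ne_zero ψ hψ1 hα0 ?_
    rw [hα]
    exact IsCoprime.mul_left hAm hc
  rw [hα, map_mul] at h1
  exact right_ne_zero_of_mul h1

/-- The function on `𝓞 K ⧸ m` induced by `y ↦ ψ (y)`. -/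
noncomputable def resChar (hm : m ≠ ⊥) (t : 𝓞 K ⧸ m) : ℂ :=
  ψ (span {(exists_ne_zero_mk_eq hm t).choose})

include hψ0 hψ1 in
theorem resChar_mk (hm : m ≠ ⊥) {y : 𝓞 K} (hy : y ≠ 0) :
    resChar ψ hm (Ideal.Quotient.mk m y) = ψ (span {y}) := by
  have h := (exists_ne_zero_mk_eq hm (Ideal.Quotient.mk m y)).choose_spec
  exact psi_span_eq_of_sub_mem ψ hψ0 hψ1 h.1 hy (Ideal.Quotient.eq.1 h.2)

include hψ0 hψ1 in
/-- The sum of `resChar` over all residues is invariant under multiplication by `ψ (x)` for `x`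
coprime to `m`. -/
theorem psi_span_mul_sum_resChar (hm : m ≠ ⊥) [Fintype (𝓞 K ⧸ m)] {x : 𝓞 K} (hx : x ≠ 0)
    (hc : IsCoprime (span {x}) m) :
    ψ (span {x}) * ∑ t : 𝓞 K ⧸ m, resChar ψ hm t = ∑ t : 𝓞 K ⧸ m, resChar ψ hm t := by
  obtain ⟨z, _, hzx⟩ := exists_ne_zero_mul_sub_one_mem hc
  have hu : Ideal.Quotient.mk m x * Ideal.Quotient.mk m z = 1 := by
    rw [← map_mul, ← map_one (Ideal.Quotient.mk m), Ideal.Quotient.eq, mul_comm]
    exact hzx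
  set u : (𝓞 K ⧸ m)ˣ := Units.mkOfMulEqOne _ _ hu with hu'
  have hmul : ∀ t : 𝓞 K ⧸ m, resChar ψ hm (Units.mulLeft u t) =
      ψ (span {x}) * resChar ψ hm t := by
    intro t
    obtain ⟨y, hy, rfl⟩ := exists_ne_zero_mk_eq hm t
    have h1 : Units.mulLeft u (Ideal.Quotient.mk m y) = Ideal.Quotient.mk m (x * y) := by
      rw [Units.mulLeft_apply, map_mul]
      rfl
    rw [h1, resChar_mk ψ hψ0 hψ1 hm (mul_ne_zero hx hy), resChar_mk ψ hψ0 hψ1 hm hy,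
      ← Ideal.span_singleton_mul_span_singleton, map_mul]
  rw [Finset.mul_sum, ← Equiv.sum_comp (Units.mulLeft u) (resChar ψ hm)]
  exact (Finset.sum_congr rfl fun t _ => hmul t).symm

include hψ0 hψ1 in
/-- If the sum of `resChar` does not vanish, `ψ` is trivial on the principal ideals coprime to
`m`. -/
theorem psi_span_eq_one_of_sum_ne_zero (hm : m ≠ ⊥) [Fintype (𝓞 K ⧸ m)]
    (hM : ∑ t : 𝓞 K ⧸ m, resChar ψ hm t ≠ 0) {x : 𝓞 K} (hx : x ≠ 0)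
    (hc : IsCoprime (span {x}) m) : ψ (span {x}) = 1 := by
  have h := psi_span_mul_sum_resChar ψ hψ0 hψ1 hm hx hc
  exact mul_right_cancel₀ hM (h.trans (one_mul _).symm)

/-- If `ψ` is trivial on the principal ideals coprime to `m`, it only depends on the ideal class,
on the ideals coprime to `m`. -/
theorem psi_eq_of_mk0_eq (hm : m ≠ ⊥)
    (H1 : ∀ x : 𝓞 K, x ≠ 0 → IsCoprime (span {x}) m → ψ (span {x}) = 1)
    {I I' : (Ideal (𝓞 K))⁰} (hI : IsCoprime (I : Ideal (𝓞 K)) m)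
    (hI' : IsCoprime (I' : Ideal (𝓞 K)) m) (h : ClassGroup.mk0 I = ClassGroup.mk0 I') :
    ψ (I : Ideal (𝓞 K)) = ψ (I' : Ideal (𝓞 K)) := by
  obtain ⟨A, hA, hAm⟩ := exists_mk0_eq_and_isCoprime hm (ClassGroup.mk0 I)⁻¹
  obtain ⟨α, hα0, hα⟩ := exists_span_singleton_eq_mul (A := A) (I := I)
    (by rw [hA, inv_mul_cancel])
  obtain ⟨α', hα'0, hα'⟩ := exists_span_singleton_eq_mul (A := A) (I := I')
    (by rw [hA, h, inv_mul_cancel])
  have h1 : ψ (A : Ideal (𝓞 K)) * ψ (I : Ideal (𝓞 K)) = 1 := by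
    rw [← map_mul, ← hα]
    refine H1 α hα0 ?_
    rw [hα]
    exact IsCoprime.mul_left hAm hI
  have h2 : ψ (A : Ideal (𝓞 K)) * ψ (I' : Ideal (𝓞 K)) = 1 := by
    rw [← map_mul, ← hα']
    refine H1 α' hα'0 ?_
    rw [hα']
    exact IsCoprime.mul_left hAm hI'
  exact mul_left_cancel₀ (left_ne_zero_of_mul_eq_one h1) (h1.trans h2.symm)

/-- If `ψ` is trivial on the principal ideals coprime to `m` but nontrivial on the ideals coprime
to `m`, the sum of `(ψ (J c))⁻¹` over representatives coprime to `m` of the inverse classes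
vanishes. -/
theorem sum_inv_psi_eq_zero (hm : m ≠ ⊥)
    (H1 : ∀ x : 𝓞 K, x ≠ 0 → IsCoprime (span {x}) m → ψ (span {x}) = 1)
    (hψnt : ∃ I : Ideal (𝓞 K), I ≠ ⊥ ∧ IsCoprime I m ∧ ψ I ≠ 1)
    (J : ClassGroup (𝓞 K) → (Ideal (𝓞 K))⁰) (hJc : ∀ c, ClassGroup.mk0 (J c) = c⁻¹)
    (hJm : ∀ c, IsCoprime (J c : Ideal (𝓞 K)) m) :
    ∑ c : ClassGroup (𝓞 K), (ψ (J c : Ideal (𝓞 K)))⁻¹ = 0 := by
  obtain ⟨I, hI0, hIm, hI1⟩ := hψnt
  set I' : (Ideal (𝓞 K))⁰ := ⟨I, mem_nonZeroDivisors_iff_ne_zero.2 hI0⟩ with hI'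
  set c0 : ClassGroup (𝓞 K) := (ClassGroup.mk0 I')⁻¹ with hc0
  have hmul : ∀ c : ClassGroup (𝓞 K), (ψ (J (c0 * c) : Ideal (𝓞 K)))⁻¹ =
      (ψ (J c0 : Ideal (𝓞 K)))⁻¹ * (ψ (J c : Ideal (𝓞 K)))⁻¹ := by
    intro c
    have h1 : ψ (J (c0 * c) : Ideal (𝓞 K)) = ψ ((J c0 * J c : (Ideal (𝓞 K))⁰) : Ideal (𝓞 K)) := by
      refine psi_eq_of_mk0_eq ψ hm H1 (hJm _) ?_ ?_
      · exact IsCoprime.mul_left (hJm c0) (hJm c)
      · rw [map_mul, hJc, hJc, hJc, mul_inv]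
    rw [h1, Submonoid.coe_mul, map_mul, mul_inv]
  have hne : (ψ (J c0 : Ideal (𝓞 K)))⁻¹ ≠ 1 := by
    have h1 : ψ (J c0 : Ideal (𝓞 K)) = ψ (I' : Ideal (𝓞 K)) := by
      refine psi_eq_of_mk0_eq ψ hm H1 (hJm _) hIm ?_
      rw [hJc, hc0, inv_inv]
    rw [h1]
    intro h
    exact hI1 (inv_eq_one.1 h)
  have hsum : ∑ c : ClassGroup (𝓞 K), (ψ (J c : Ideal (𝓞 K)))⁻¹ =
      (ψ (J c0 : Ideal (𝓞 K)))⁻¹ * ∑ c : ClassGroup (𝓞 K), (ψ (J c : Ideal (𝓞 K)))⁻¹ := by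
    rw [Finset.mul_sum, ← Equiv.sum_comp (Equiv.mulLeft c0)
      (fun c => (ψ (J c : Ideal (𝓞 K)))⁻¹)]
    exact Finset.sum_congr rfl fun c _ => hmul c
  by_contra h0
  exact hne (mul_right_cancel₀ h0 (hsum.symm.trans (one_mul _).symm))

end Char

end Fermat.Agent.CFT.RayCount
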