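import Fermat.Agent.CFT.Global.Second.RayCountSum
import Fermat.Agent.CFT.Global.Second.RayCountChar

/-!
# Partial sums of a nontrivial ray class character

Let `m ≠ ⊥` be an ideal of the ring of integers of a number field `K` of degree `d` and let
`ψ : Ideal (𝓞 K) →*₀ ℂ` be a multiplicative function which vanishes on the ideals not coprime to
`m`, takes the value `1` on the principal ideals `(α)` with `α ≡ 1 mod m` and is not identically `1`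
on the nonzero ideals coprime to `m` (a nontrivial character of the wide ray class group modulo
`m`).  Then (`exists_norm_sum_le`)
`‖∑_{N I ≤ n} ψ I‖ ≤ C * n ^ (1 - 1 / d)`.
-/

set_option autoImplicit false
set_option linter.unusedSectionVars false

namespace Fermat.Agent.CFT.RayCount

open Ideal NumberField NumberField.InfinitePlace NumberField.mixedEmbedding
  NumberField.mixedEmbedding.fundamentalCone Submodule NumberField.Units MeasureTheory Module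
open Fermat.Agent.S14
open scoped nonZeroDivisors

variable {K : Type*} [Field K] [NumberField K]

variable (K) in
open scoped Classical in
/-- The density of the cone integers in a residue class modulo `J * m`, normalised by `N J`. -/
noncomputable def rayDensity (m : Ideal (𝓞 K)) : ℝ :=
  volume.real (normLeOne K) /
    ((absNorm m : ℝ) * ((2⁻¹ : ℝ) ^ nrComplexPlaces K * √|(discr K : ℝ)|))

open scoped Classical in
theorem mul_density_eq (J m' : (Ideal (𝓞 K))⁰) (n : ℝ) :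
    n * (absNorm (J : Ideal (𝓞 K)) : ℝ) * (volume.real (normLeOne K) /
      ZLattice.covolume (idealLattice K (FractionalIdeal.mk0 K (J * m')))) =
      n * rayDensity K (m' : Ideal (𝓞 K)) := by
  have hNJ : (absNorm (J : Ideal (𝓞 K)) : ℝ) ≠ 0 :=
    Nat.cast_ne_zero.mpr (absNorm_pos_of_nonZeroDivisors J).ne'
  have hNm : (absNorm (m' : Ideal (𝓞 K)) : ℝ) ≠ 0 :=
    Nat.cast_ne_zero.mpr (absNorm_pos_of_nonZeroDivisors m').ne'
  have hc : ((2⁻¹ : ℝ) ^ nrComplexPlaces K * √|(discr K : ℝ)|) ≠ 0 := by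
    refine mul_ne_zero (pow_ne_zero _ (by norm_num)) ?_
    rw [Ne, Real.sqrt_eq_zero (abs_nonneg _), abs_eq_zero]
    exact_mod_cast discr_ne_zero K
  have habs : ((FractionalIdeal.absNorm
      ((FractionalIdeal.mk0 K (J * m') : (FractionalIdeal (𝓞 K)⁰ K)ˣ) :
        FractionalIdeal (𝓞 K)⁰ K) : ℚ) : ℝ) =
      (absNorm (J : Ideal (𝓞 K)) : ℝ) * (absNorm (m' : Ideal (𝓞 K)) : ℝ) := by
    rw [FractionalIdeal.coe_mk0, FractionalIdeal.coeIdeal_absNorm, Submonoid.coe_mul, map_mul]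
    push_cast
    rfl
  rw [covolume_idealLattice, habs, rayDensity]
  field_simp

/-- Representatives in `J` of the residue classes modulo an ideal coprime to `J`. -/
theorem exists_mem_mk_eq {J m : Ideal (𝓞 K)} (hJm : IsCoprime J m) (t : 𝓞 K ⧸ m) :
    ∃ x : 𝓞 K, x ∈ J ∧ Ideal.Quotient.mk m x = t := by
  obtain ⟨y, rfl⟩ := Ideal.Quotient.mk_surjective t
  obtain ⟨i, hi, j, hj, hij⟩ := Ideal.isCoprime_iff_exists.1 hJm
  refine ⟨y * i, Ideal.mul_mem_left _ _ hi, ?_⟩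
  rw [Ideal.Quotient.eq]
  have h : y * i - y = -(y * j) := by
    have h1 : y * i - y = y * i - y * (i + j) := by rw [hij, mul_one]
    rw [h1]
    ring
  rw [h]
  exact neg_mem (Ideal.mul_mem_left _ _ hj)

section Main

variable {m : Ideal (𝓞 K)} (ψ : Ideal (𝓞 K) →*₀ ℂ)
  (hψ0 : ∀ I : Ideal (𝓞 K), ¬ IsCoprime I m → ψ I = 0)
  (hψ1 : ∀ α : 𝓞 K, α ≠ 0 → α - 1 ∈ m → ψ (Ideal.span {α}) = 1)

include hψ0 hψ1 in
/-- The contribution of one ideal class. -/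
theorem exists_norm_class_sum_sub_le (hm : m ≠ ⊥) [Fintype (𝓞 K ⧸ m)] (J : (Ideal (𝓞 K))⁰)
    {c : ClassGroup (𝓞 K)} (hJ : ClassGroup.mk0 J = c⁻¹)
    (hJm : IsCoprime (J : Ideal (𝓞 K)) m) :
    ∃ D : ℝ, 0 ≤ D ∧ ∀ n : ℕ, 1 ≤ n →
      ‖(torsionOrder K : ℂ) *
          ∑ I ∈ idealsLEClass K n c, ψ ((J : Ideal (𝓞 K)) * (I : Ideal (𝓞 K))) -
        ((n : ℝ) * rayDensity K m : ℝ) * ∑ t : 𝓞 K ⧸ m, resChar ψ hm t‖ ≤
      D * (n : ℝ) ^ (1 - 1 / (Module.finrank ℚ K : ℝ)) := by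
  classical
  set m' : (Ideal (𝓞 K))⁰ := ⟨m, mem_nonZeroDivisors_iff_ne_zero.2 hm⟩ with hm'
  obtain ⟨C, hC, hmain⟩ := exists_abs_card_coneSet_sub_le (K := K) (J * m')
  choose x hxJ hxt using fun t : 𝓞 K ⧸ m => exists_mem_mk_eq hJm t
  have hNJ : (1 : ℝ) ≤ absNorm (J : Ideal (𝓞 K)) := by
    exact_mod_cast (absNorm_pos_of_nonZeroDivisors J)
  set e : ℝ := 1 - 1 / (Module.finrank ℚ K : ℝ) with he
  refine ⟨(∑ t : 𝓞 K ⧸ m, ‖resChar ψ hm t‖) * (C * (absNorm (J : Ideal (𝓞 K)) : ℝ) ^ e),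
    mul_nonneg (Finset.sum_nonneg fun _ _ => norm_nonneg _)
      (mul_nonneg hC (Real.rpow_nonneg (by positivity) _)), fun n hn => ?_⟩
  have hn1 : (1 : ℝ) ≤ n := by exact_mod_cast hn
  have hB : (1 : ℝ) ≤ (n : ℝ) * absNorm (J : Ideal (𝓞 K)) := by nlinarith
  rw [← sum_coneFin_eq J hJ n (fun P => ψ P),
    sum_coneFin_residue m (J : Ideal (𝓞 K)) hJm _ x hxJ hxt (fun y => ψ (span {y}))
      (resChar ψ hm)
      (fun y hy => (resChar_mk ψ hψ0 hψ1 hm (ne_zero_of_mem_coneInts hy)).symm),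
    Finset.mul_sum, ← Finset.sum_sub_distrib]
  have hterm : ∀ t : 𝓞 K ⧸ m,
      ‖resChar ψ hm t * (Nat.card (coneSet K ((J : Ideal (𝓞 K)) * m) (x t)
          ((n : ℝ) * absNorm (J : Ideal (𝓞 K)))) : ℂ) -
        ((n : ℝ) * rayDensity K m : ℝ) * resChar ψ hm t‖ ≤
      ‖resChar ψ hm t‖ * (C * (absNorm (J : Ideal (𝓞 K)) : ℝ) ^ e * (n : ℝ) ^ e) := by
    intro t
    have h1 := hmain _ hB (x t)
    rw [mul_density_eq J m' (n : ℝ)] at h1
    have h2 : resChar ψ hm t * (Nat.card (coneSet K ((J : Ideal (𝓞 K)) * m) (x t)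
          ((n : ℝ) * absNorm (J : Ideal (𝓞 K)))) : ℂ) -
        ((n : ℝ) * rayDensity K m : ℝ) * resChar ψ hm t =
        resChar ψ hm t * (((Nat.card (coneSet K ((J : Ideal (𝓞 K)) * m) (x t)
          ((n : ℝ) * absNorm (J : Ideal (𝓞 K)))) : ℝ) - (n : ℝ) * rayDensity K m : ℝ) : ℂ) := by
      push_cast
      ring
    rw [h2, norm_mul, Complex.norm_real, Real.norm_eq_abs]
    refine mul_le_mul_of_nonneg_left (h1.trans (le_of_eq ?_)) (norm_nonneg _)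
    rw [Real.mul_rpow (by positivity) (by positivity)]
    ring
  refine (norm_sum_le _ _).trans ((Finset.sum_le_sum fun t _ => hterm t).trans (le_of_eq ?_))
  rw [← Finset.sum_mul]
  ring

theorem sum_idealsLE_eq_sum_class (F : (Ideal (𝓞 K))⁰ → ℂ) (n : ℕ) :
    ∑ I ∈ idealsLE K n, F I = ∑ c : ClassGroup (𝓞 K), ∑ I ∈ idealsLEClass K n c, F I := by
  classical
  rw [← Finset.sum_fiberwise (idealsLE K n) (fun I : (Ideal (𝓞 K))⁰ => ClassGroup.mk0 I)]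
  refine Finset.sum_congr rfl fun c _ => Finset.sum_congr ?_ fun _ _ => rfl
  ext I
  rw [Finset.mem_filter, mem_idealsLE, mem_idealsLEClass]

include hψ0 hψ1 in
theorem exists_norm_sum_le_aux (hm : m ≠ ⊥)
    (hψnt : ∃ I : Ideal (𝓞 K), I ≠ ⊥ ∧ IsCoprime I m ∧ ψ I ≠ 1) :
    ∃ C : ℝ, ∀ n : ℕ, 1 ≤ n → ‖∑ I ∈ idealsLE K n, ψ (I : Ideal (𝓞 K))‖
      ≤ C * (n : ℝ) ^ (1 - 1 / (Module.finrank ℚ K : ℝ)) := by
  classical
  have : Finite (𝓞 K ⧸ m) := Ideal.finiteQuotientOfFreeOfNeBot m hm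
  have : Fintype (𝓞 K ⧸ m) := Fintype.ofFinite _
  choose J hJc hJm using fun c : ClassGroup (𝓞 K) => exists_mk0_eq_and_isCoprime hm c⁻¹
  choose D hD0 hD using fun c : ClassGroup (𝓞 K) =>
    exists_norm_class_sum_sub_le ψ hψ0 hψ1 hm (J c) (hJc c) (hJm c)
  have hJ0 : ∀ c, ψ (J c : Ideal (𝓞 K)) ≠ 0 := fun c =>
    psi_ne_zero_of_isCoprime ψ hψ1 hm (J c) (hJm c)
  have hw : (torsionOrder K : ℂ) ≠ 0 := Nat.cast_ne_zero.mpr (torsionOrder_ne_zero K)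
  have hw' : (0 : ℝ) < torsionOrder K := Nat.cast_pos.mpr (torsionOrder_pos K)
  -- the main terms cancel
  have hcancel : (∑ t : 𝓞 K ⧸ m, resChar ψ hm t) *
      ∑ c : ClassGroup (𝓞 K), (ψ (J c : Ideal (𝓞 K)))⁻¹ = 0 := by
    by_cases hM : ∑ t : 𝓞 K ⧸ m, resChar ψ hm t = 0
    · rw [hM, zero_mul]
    · rw [sum_inv_psi_eq_zero ψ hm
        (fun x hx hc => psi_span_eq_one_of_sum_ne_zero ψ hψ0 hψ1 hm hM hx hc) hψnt J hJc hJm,
        mul_zero]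
  refine ⟨(∑ c : ClassGroup (𝓞 K), ‖(ψ (J c : Ideal (𝓞 K)))⁻¹‖ * D c) / torsionOrder K,
    fun n hn => ?_⟩
  set e : ℝ := 1 - 1 / (Module.finrank ℚ K : ℝ) with he
  -- rewrite the sum
  have hsum : (torsionOrder K : ℂ) * ∑ I ∈ idealsLE K n, ψ (I : Ideal (𝓞 K)) =
      ∑ c : ClassGroup (𝓞 K), (ψ (J c : Ideal (𝓞 K)))⁻¹ *
        ((torsionOrder K : ℂ) *
          ∑ I ∈ idealsLEClass K n c, ψ ((J c : Ideal (𝓞 K)) * (I : Ideal (𝓞 K))) -
        ((n : ℝ) * rayDensity K m : ℝ) * ∑ t : 𝓞 K ⧸ m, resChar ψ hm t) := by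
    have h1 : ∀ c : ClassGroup (𝓞 K), (ψ (J c : Ideal (𝓞 K)))⁻¹ *
        ((torsionOrder K : ℂ) *
          ∑ I ∈ idealsLEClass K n c, ψ ((J c : Ideal (𝓞 K)) * (I : Ideal (𝓞 K))) -
        ((n : ℝ) * rayDensity K m : ℝ) * ∑ t : 𝓞 K ⧸ m, resChar ψ hm t) =
        (torsionOrder K : ℂ) * ∑ I ∈ idealsLEClass K n c, ψ (I : Ideal (𝓞 K)) -
        ((n : ℝ) * rayDensity K m : ℝ) * ((∑ t : 𝓞 K ⧸ m, resChar ψ hm t) *
          (ψ (J c : Ideal (𝓞 K)))⁻¹) := by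
      intro c
      have h2 : ∑ I ∈ idealsLEClass K n c, ψ ((J c : Ideal (𝓞 K)) * (I : Ideal (𝓞 K))) =
          ψ (J c : Ideal (𝓞 K)) * ∑ I ∈ idealsLEClass K n c, ψ (I : Ideal (𝓞 K)) := by
        rw [Finset.mul_sum]
        exact Finset.sum_congr rfl fun I _ => map_mul ψ _ _
      have hc0 := hJ0 c
      rw [h2]
      field_simp
    rw [Finset.sum_congr rfl fun c _ => h1 c, Finset.sum_sub_distrib, ← Finset.mul_sum,
      ← Finset.mul_sum, ← Finset.mul_sum, hcancel, mul_zero, sub_zero,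
      sum_idealsLE_eq_sum_class (K := K) (fun I : (Ideal (𝓞 K))⁰ => ψ (I : Ideal (𝓞 K))) n]
  have hnorm : ‖(torsionOrder K : ℂ) * ∑ I ∈ idealsLE K n, ψ (I : Ideal (𝓞 K))‖ ≤
      (∑ c : ClassGroup (𝓞 K), ‖(ψ (J c : Ideal (𝓞 K)))⁻¹‖ * D c) * (n : ℝ) ^ e := by
    rw [hsum, Finset.sum_mul]
    refine (norm_sum_le _ _).trans (Finset.sum_le_sum fun c _ => ?_)
    rw [norm_mul, mul_assoc]
    exact mul_le_mul_of_nonneg_left (hD c n hn) (norm_nonneg _)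
  rw [norm_mul, Complex.norm_natCast] at hnorm
  rw [div_mul_eq_mul_div, le_div_iff₀ hw', mul_comm]
  exact hnorm

end Main

/-- **Partial sums of a nontrivial ray class character** are `O(n ^ (1 - 1/d))`: if
`ψ : Ideal (𝓞 K) →*₀ ℂ` vanishes on the ideals not coprime to `m ≠ ⊥`, is `1` on the principal
ideals `(α)` with `α ≡ 1 mod m`, and is not identically `1` on the nonzero ideals coprime to `m`,
then `‖∑_{N I ≤ n} ψ I‖ ≤ C * n ^ (1 - 1 / [K : ℚ])`. -/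
theorem exists_norm_sum_le {m : Ideal (𝓞 K)} (hm : m ≠ ⊥) (ψ : Ideal (𝓞 K) →*₀ ℂ)
    (hψ0 : ∀ I : Ideal (𝓞 K), ¬ IsCoprime I m → ψ I = 0)
    (hψ1 : ∀ α : 𝓞 K, α ≠ 0 → α - 1 ∈ m → ψ (Ideal.span {α}) = 1)
    (hψnt : ∃ I : Ideal (𝓞 K), I ≠ ⊥ ∧ IsCoprime I m ∧ ψ I ≠ 1) :
    ∃ C : ℝ, ∀ n : ℕ, 1 ≤ n → ‖∑ I ∈ idealsLE K n, ψ (I : Ideal (𝓞 K))‖
      ≤ C * (n : ℝ) ^ (1 - 1 / (Module.finrank ℚ K : ℝ)) :=
  exists_norm_sum_le_aux ψ hψ0 hψ1 hm hψnt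

end Fermat.Agent.CFT.RayCount
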