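import Fermat.Agent.S14.LatticeCountBound
import Fermat.Agent.CFT.Global.Second.LatticeCoset

/-!
# Counting integers of the fundamental cone in a residue class

For a nonzero integral ideal `𝔞` of a number field `K` and `x₀ : 𝓞 K`, the number of `y : 𝓞 K`
in the fundamental cone with `y ≡ x₀ mod 𝔞` and `|N y| ≤ c` is
`c * vol(normLeOne) / covol(𝔞) + O(c ^ (1 - 1/n))`, uniformly in `x₀`
(`exists_abs_card_coneSet_sub_le`).
-/

set_option autoImplicit false

namespace Fermat.Agent.CFT.RayCount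

open Ideal NumberField NumberField.InfinitePlace NumberField.mixedEmbedding
  NumberField.mixedEmbedding.euclidean NumberField.mixedEmbedding.fundamentalCone Submodule
  NumberField.Units MeasureTheory Module
open Fermat.Agent.S14
open scoped nonZeroDivisors Real

variable (K : Type*) [Field K] [NumberField K]

/-- The integers `y ≡ x₀ mod 𝔞` of the fundamental cone with `|N y| ≤ c`. -/
def coneSet (𝔞 : Ideal (𝓞 K)) (x₀ : 𝓞 K) (c : ℝ) : Set (𝓞 K) :=
  {y | y - x₀ ∈ 𝔞 ∧ mixedEmbedding K (y : K) ∈ fundamentalCone K ∧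
    mixedEmbedding.norm (mixedEmbedding K (y : K)) ≤ c}

variable {K}

theorem mem_coneSet {𝔞 : Ideal (𝓞 K)} {x₀ y : 𝓞 K} {c : ℝ} :
    y ∈ coneSet K 𝔞 x₀ c ↔ y - x₀ ∈ 𝔞 ∧ mixedEmbedding K (y : K) ∈ fundamentalCone K ∧
      mixedEmbedding.norm (mixedEmbedding K (y : K)) ≤ c := Iff.rfl

open scoped Classical in
theorem mem_comap_idealLattice_iff (𝔞 : (Ideal (𝓞 K))⁰) (x : euclidean.mixedSpace K) :
    x ∈ ZLattice.comap ℝ (idealLattice K (FractionalIdeal.mk0 K 𝔞)) (toMixed K).toLinearMap ↔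
      ∃ z : 𝓞 K, z ∈ (𝔞 : Ideal (𝓞 K)) ∧ mixedEmbedding K (z : K) = toMixed K x := by
  show toMixed K x ∈ idealLattice K (FractionalIdeal.mk0 K 𝔞) ↔ _
  rw [mem_idealLattice]
  simp only [FractionalIdeal.coe_mk0, SetLike.mem_coe, FractionalIdeal.mem_coeIdeal]
  constructor
  · rintro ⟨_, ⟨z, hz, rfl⟩, h⟩
    exact ⟨z, hz, h⟩
  · rintro ⟨z, hz, h⟩
    exact ⟨_, ⟨z, hz, rfl⟩, h⟩

open scoped Classical in
/-- The bijection between `coneSet` and the points of the coset counted by `LatticeCoset`. -/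
noncomputable def coneSetEquiv (𝔞 : (Ideal (𝓞 K))⁰) (x₀ : 𝓞 K) (c : ℝ) :
    coneSet K (𝔞 : Ideal (𝓞 K)) x₀ c ≃
    {x : euclidean.mixedSpace K // (x ∈ toMixed K ⁻¹' fundamentalCone K ∧
        mixedEmbedding.norm (toMixed K x) ≤ c) ∧
      x - (toMixed K).symm (mixedEmbedding K (x₀ : K)) ∈
        ZLattice.comap ℝ (idealLattice K (FractionalIdeal.mk0 K 𝔞)) (toMixed K).toLinearMap} := by
  refine Equiv.ofBijective
    (fun y => ⟨(toMixed K).symm (mixedEmbedding K ((y : 𝓞 K) : K)), ?_⟩) ⟨?_, ?_⟩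
  · obtain ⟨h1, h2, h3⟩ := y.2
    refine ⟨⟨?_, ?_⟩, ?_⟩
    · simpa using h2
    · simpa using h3
    · rw [mem_comap_idealLattice_iff]
      refine ⟨(y : 𝓞 K) - x₀, h1, ?_⟩
      rw [map_sub, ContinuousLinearEquiv.apply_symm_apply, ContinuousLinearEquiv.apply_symm_apply,
        ← map_sub]
      rfl
  · intro y y' h
    have h1 := congrArg (fun z => toMixed K z.1) h
    simp only [ContinuousLinearEquiv.apply_symm_apply] at h1
    exact Subtype.ext (RingOfIntegers.coe_injective (mixedEmbedding_injective K h1))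
  · rintro ⟨x, ⟨hx1, hx2⟩, hx3⟩
    rw [mem_comap_idealLattice_iff] at hx3
    obtain ⟨z, hz, hzx⟩ := hx3
    rw [map_sub, ContinuousLinearEquiv.apply_symm_apply] at hzx
    have hx : toMixed K x = mixedEmbedding K ((z + x₀ : 𝓞 K) : K) := by
      have h1 : ((z + x₀ : 𝓞 K) : K) = (z : K) + (x₀ : K) := by push_cast; rfl
      rw [h1, map_add, hzx]
      abel
    refine ⟨⟨z + x₀, ?_, ?_, ?_⟩, ?_⟩
    · rw [add_sub_cancel_right]
      exact hz
    · rw [← hx]
      exact hx1
    · rw [← hx]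
      exact hx2
    · apply Subtype.ext
      show (toMixed K).symm (mixedEmbedding K ((z + x₀ : 𝓞 K) : K)) = x
      rw [← hx, ContinuousLinearEquiv.symm_apply_apply]

open scoped Classical in
/-- **Counting cone integers in a residue class**, with error term, uniformly in the class. -/
theorem exists_abs_card_coneSet_sub_le (𝔞 : (Ideal (𝓞 K))⁰) :
    ∃ C : ℝ, 0 ≤ C ∧ ∀ c : ℝ, 1 ≤ c → ∀ x₀ : 𝓞 K,
      |(Nat.card (coneSet K (𝔞 : Ideal (𝓞 K)) x₀ c) : ℝ) -
        c * (volume.real (normLeOne K) /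
          ZLattice.covolume (idealLattice K (FractionalIdeal.mk0 K 𝔞)))| ≤
        C * c ^ (1 - 1 / (Module.finrank ℚ K : ℝ)) := by
  have hn : 0 < Module.finrank ℚ K := Module.finrank_pos
  obtain ⟨d, hd⟩ : ∃ d, d + 1 = Module.finrank ℚ K := ⟨Module.finrank ℚ K - 1, by omega⟩
  obtain ⟨m, ψ, Kc, hψ, hfr⟩ := exists_lipschitzWith_cover_frontier_coneRegion K hd
  have hX : ∀ ⦃x : euclidean.mixedSpace K⦄ ⦃r : ℝ⦄, x ∈ toMixed K ⁻¹' fundamentalCone K → 0 < r →
      r • x ∈ toMixed K ⁻¹' fundamentalCone K := by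
    intro x r hx hr
    rwa [Set.mem_preimage, map_smul, smul_mem_iff_mem hr.ne']
  have hF : ∀ (x : euclidean.mixedSpace K) ⦃r : ℝ⦄, 0 ≤ r →
      mixedEmbedding.norm (toMixed K (r • x)) =
        r ^ finrank ℝ (euclidean.mixedSpace K) * mixedEmbedding.norm (toMixed K x) := by
    intro x r hr
    rw [map_smul, mixedEmbedding.norm_smul, euclidean.finrank, abs_of_nonneg hr]
  have hset : {x | x ∈ toMixed K ⁻¹' fundamentalCone K ∧
      mixedEmbedding.norm (toMixed K x) ≤ 1} = coneRegion K := by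
    ext x
    simp [coneRegion, normLeOne]
  have hb : Bornology.IsBounded {x | x ∈ toMixed K ⁻¹' fundamentalCone K ∧
      mixedEmbedding.norm (toMixed K x) ≤ 1} := by
    rw [hset]
    exact isBounded_coneRegion K
  have hm : MeasurableSet {x | x ∈ toMixed K ⁻¹' fundamentalCone K ∧
      mixedEmbedding.norm (toMixed K x) ≤ 1} := by
    rw [hset]
    exact measurableSet_coneRegion K
  have hfr' : frontier {x | x ∈ toMixed K ⁻¹' fundamentalCone K ∧
      mixedEmbedding.norm (toMixed K x) ≤ 1} ⊆ ⋃ j, ψ j '' Set.Icc (0 : Fin d → ℝ) 1 := by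
    rw [hset]
    exact hfr
  obtain ⟨C, hC, hmain⟩ := LatticeCoset.exists_abs_card_coset_le_sub_le'
    (ZLattice.comap ℝ (idealLattice K (FractionalIdeal.mk0 K 𝔞)) (toMixed K).toLinearMap)
    (X := toMixed K ⁻¹' fundamentalCone K) (F := fun x => mixedEmbedding.norm (toMixed K x))
    hX hF hb hm ψ Kc hψ hfr'
  refine ⟨C, hC, fun c hc x₀ => ?_⟩
  have := hmain c hc ((toMixed K).symm (mixedEmbedding K (x₀ : K)))
  rw [← Nat.card_congr (coneSetEquiv 𝔞 x₀ c), hset] at this
  have hvol : volume.real (coneRegion K) = volume.real (normLeOne K) := by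
    rw [coneRegion, measureReal_def,
      (volumePreserving_toMixed K).measure_preimage (measurableSet_normLeOne K).nullMeasurableSet,
      ← measureReal_def]
  rw [hvol, ZLattice.covolume_comap _ _ _ (volumePreserving_toMixed K), euclidean.finrank] at this
  have hn' : (finrank ℚ K : ℝ) ≠ 0 := Nat.cast_ne_zero.mpr hn.ne'
  have hexp : (d : ℝ) / (finrank ℚ K : ℝ) = 1 - 1 / (finrank ℚ K : ℝ) := by
    rw [← hd]
    push_cast
    field_simp
    ring
  rwa [hexp] at this

end Fermat.Agent.CFT.RayCount
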