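import Fermat.Agent.CFT.Global.Second.RayCountCone

/-!
# Generators of principal ideals in the fundamental cone

Every nonzero principal ideal of `𝓞 K` has exactly `torsionOrder K` generators in the fundamental
cone (`card_coneGenerators`), a reformulation of Mathlib's `integerSetEquiv`.
-/

set_option autoImplicit false

namespace Fermat.Agent.CFT.RayCount

open Ideal NumberField NumberField.InfinitePlace NumberField.mixedEmbedding
  NumberField.mixedEmbedding.fundamentalCone Submodule NumberField.Units Module
open scoped nonZeroDivisors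

variable (K : Type*) [Field K] [NumberField K]

/-- The integers of `K` lying in the fundamental cone. -/
def coneInts : Set (𝓞 K) := {y | mixedEmbedding K (y : K) ∈ fundamentalCone K}

variable {K}

theorem mem_coneInts {y : 𝓞 K} : y ∈ coneInts K ↔ mixedEmbedding K (y : K) ∈ fundamentalCone K :=
  Iff.rfl

theorem ne_zero_of_mem_coneInts {y : 𝓞 K} (hy : y ∈ coneInts K) : y ≠ 0 := by
  rintro rfl
  have h := norm_pos_of_mem hy
  simp at h

theorem absNorm_span_singleton_eq_norm (y : 𝓞 K) :
    (absNorm (span {y}) : ℝ) = mixedEmbedding.norm (mixedEmbedding K (y : K)) := by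
  rw [absNorm_span_singleton, Nat.cast_natAbs, ← Rat.cast_intCast, Int.cast_abs,
    Algebra.coe_norm_int, ← norm_eq_norm]

/-- The equivalence between the cone integers and Mathlib's `integerSet`. -/
noncomputable def coneIntsEquiv : coneInts K ≃ integerSet K where
  toFun y := ⟨mixedEmbedding K ((y : 𝓞 K) : K), mem_integerSet.mpr ⟨y.2, y, rfl⟩⟩
  invFun a := ⟨(preimageOfMemIntegerSet a : 𝓞 K), by
    rw [mem_coneInts, mixedEmbedding_preimageOfMemIntegerSet]
    exact a.2.1⟩
  left_inv y := by
    apply Subtype.ext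
    exact preimageOfMemIntegerSet_mixedEmbedding (K := K) (x := (y : 𝓞 K))
      (mem_integerSet.mpr ⟨y.2, y, rfl⟩)
  right_inv a := by
    apply Subtype.ext
    exact mixedEmbedding_preimageOfMemIntegerSet a

theorem preimage_coneIntsEquiv (y : coneInts K) :
    (preimageOfMemIntegerSet (coneIntsEquiv y) : 𝓞 K) = y :=
  congrArg Subtype.val (coneIntsEquiv.left_inv y)

/-- Every nonzero principal ideal has exactly `torsionOrder K` generators in the fundamental
cone. -/
theorem card_coneGenerators (P : (Ideal (𝓞 K))⁰) (hP : IsPrincipal (P : Ideal (𝓞 K))) :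
    Nat.card {y : 𝓞 K // y ∈ coneInts K ∧ span {y} = (P : Ideal (𝓞 K))} = torsionOrder K := by
  let P' : {I : (Ideal (𝓞 K))⁰ // IsPrincipal I.val} := ⟨P, hP⟩
  have e1 : {y : 𝓞 K // y ∈ coneInts K ∧ span {y} = (P : Ideal (𝓞 K))} ≃
      {a : integerSet K // (integerSetEquiv K a).1 = P'} := by
    refine (Equiv.subtypeSubtypeEquivSubtypeInter (fun y : 𝓞 K => y ∈ coneInts K)
      (fun y => span {y} = (P : Ideal (𝓞 K)))).symm.trans ?_
    refine Equiv.subtypeEquiv coneIntsEquiv (fun y => ?_)
    rw [Subtype.ext_iff, Subtype.ext_iff, integerSetEquiv_apply_fst, preimage_coneIntsEquiv]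
  have e2 : {a : integerSet K // (integerSetEquiv K a).1 = P'} ≃
      {x : {I : (Ideal (𝓞 K))⁰ // IsPrincipal I.val} × torsion K // x.1 = P'} :=
    Equiv.subtypeEquiv (integerSetEquiv K) (fun a => Iff.rfl)
  have e3 : {x : {I : (Ideal (𝓞 K))⁰ // IsPrincipal I.val} × torsion K // x.1 = P'} ≃
      torsion K :=
    { toFun := fun x => x.1.2
      invFun := fun ζ => ⟨(P', ζ), rfl⟩
      left_inv := by
        rintro ⟨⟨I, ζ⟩, h⟩
        simp only at h
        subst h
        rfl
      right_inv := fun ζ => rfl }
  rw [Nat.card_congr (e1.trans (e2.trans e3)), torsionOrder]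

end Fermat.Agent.CFT.RayCount
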