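import Fermat.Agent.CFT.Global.Second.RayCountGen
import Fermat.Agent.S14.ClassLSeries

/-!
# Sums over ideals in a class as sums over cone integers

* `finite_coneSet`: the sets `coneSet K 𝔞 x₀ c` are finite; `coneFin` is the `Finset` version.
* `sum_coneFin_eq`: for `J` in the class `c⁻¹`, a sum over the ideals `I` of the class `c` of norm
  `≤ n` of `F (J * I)` is, up to the factor `torsionOrder K`, the sum of `F (span {y})` over the
  cone integers `y ∈ J` of norm `≤ n * N J`.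
* `sum_coneFin_residue`: decomposition of a sum over `coneFin J 0 B` according to the residue
  class modulo an ideal `m` coprime to `J`.
-/

set_option autoImplicit false

namespace Fermat.Agent.CFT.RayCount

open Ideal NumberField NumberField.InfinitePlace NumberField.mixedEmbedding
  NumberField.mixedEmbedding.fundamentalCone Submodule NumberField.Units Module
open Fermat.Agent.S14
open scoped nonZeroDivisors

variable {K : Type*} [Field K] [NumberField K]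

theorem finite_coneGenerators (P : Ideal (𝓞 K)) :
    {y : 𝓞 K | y ∈ coneInts K ∧ span {y} = P}.Finite := by
  by_cases hP : P ≠ ⊥ ∧ IsPrincipal P
  · have h := card_coneGenerators (K := K) ⟨P, mem_nonZeroDivisors_iff_ne_zero.2 hP.1⟩ hP.2
    have hfin : Finite {y : 𝓞 K // y ∈ coneInts K ∧ span {y} = P} :=
      Nat.finite_of_card_ne_zero (by rw [h]; exact torsionOrder_ne_zero K)
    exact Set.finite_coe_iff.1 hfin
  · convert Set.finite_empty
    ext y
    simp only [Set.mem_ofPred_eq, Set.mem_empty_iff_false, iff_false, not_and]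
    rintro hy rfl
    refine hP ⟨?_, ⟨y, rfl⟩⟩
    rw [Ne, Ideal.span_singleton_eq_bot]
    exact ne_zero_of_mem_coneInts hy

theorem finite_coneSet (𝔞 : Ideal (𝓞 K)) (x₀ : 𝓞 K) (c : ℝ) : (coneSet K 𝔞 x₀ c).Finite := by
  have hfin : {P : Ideal (𝓞 K) | absNorm P ≤ ⌊c⌋₊}.Finite := Ideal.finite_setOfPred_absNorm_le _
  refine (hfin.biUnion (fun P _ => finite_coneGenerators P)).subset ?_
  rintro y ⟨_, h2, h3⟩
  simp only [Set.mem_iUnion, Set.mem_ofPred_eq, exists_prop]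
  refine ⟨span {y}, ?_, h2, rfl⟩
  apply Nat.le_floor
  rw [absNorm_span_singleton_eq_norm]
  exact h3

/-- `coneSet` as a `Finset`. -/
noncomputable def coneFin (𝔞 : Ideal (𝓞 K)) (x₀ : 𝓞 K) (c : ℝ) : Finset (𝓞 K) :=
  (finite_coneSet 𝔞 x₀ c).toFinset

theorem mem_coneFin {𝔞 : Ideal (𝓞 K)} {x₀ y : 𝓞 K} {c : ℝ} :
    y ∈ coneFin 𝔞 x₀ c ↔ y - x₀ ∈ 𝔞 ∧ y ∈ coneInts K ∧
      mixedEmbedding.norm (mixedEmbedding K (y : K)) ≤ c := by
  rw [coneFin, Set.Finite.mem_toFinset]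
  exact Iff.rfl

theorem card_coneFin (𝔞 : Ideal (𝓞 K)) (x₀ : 𝓞 K) (c : ℝ) :
    (coneFin 𝔞 x₀ c).card = Nat.card (coneSet K 𝔞 x₀ c) :=
  (Nat.card_eq_card_finite_toFinset _).symm

open scoped Classical in
/-- **Sum transfer**: sums over the ideals of a class as sums over cone integers. -/
theorem sum_coneFin_eq (J : (Ideal (𝓞 K))⁰) {c : ClassGroup (𝓞 K)}
    (hJ : ClassGroup.mk0 J = c⁻¹) (n : ℕ) (F : Ideal (𝓞 K) → ℂ) :
    ∑ y ∈ coneFin (J : Ideal (𝓞 K)) 0 ((n : ℝ) * absNorm (J : Ideal (𝓞 K))), F (span {y}) =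
      (torsionOrder K : ℂ) *
        ∑ I ∈ idealsLEClass K n c, F ((J : Ideal (𝓞 K)) * (I : Ideal (𝓞 K))) := by
  have hNJ : (0 : ℝ) < absNorm (J : Ideal (𝓞 K)) :=
    Nat.cast_pos.mpr (absNorm_pos_of_nonZeroDivisors J)
  set T : Finset (Ideal (𝓞 K)) :=
    (idealsLEClass K n c).image
      (fun I : (Ideal (𝓞 K))⁰ => (J : Ideal (𝓞 K)) * (I : Ideal (𝓞 K))) with hT
  have hmaps : ∀ y ∈ coneFin (J : Ideal (𝓞 K)) 0 ((n : ℝ) * absNorm (J : Ideal (𝓞 K))),
      span {y} ∈ T := by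
    intro y hy
    rw [mem_coneFin, sub_zero] at hy
    obtain ⟨hyJ, hyc, hyn⟩ := hy
    have hy0 : y ≠ 0 := ne_zero_of_mem_coneInts hyc
    obtain ⟨I', hI'⟩ : (J : Ideal (𝓞 K)) ∣ span {y} := by
      rw [Ideal.dvd_iff_le, Ideal.span_singleton_le_iff_mem]
      exact hyJ
    have hI'0 : I' ≠ ⊥ := by
      rintro rfl
      rw [Ideal.mul_bot, Ideal.span_singleton_eq_bot] at hI'
      exact hy0 hI'
    rw [hT, Finset.mem_image]
    set I : (Ideal (𝓞 K))⁰ := ⟨I', mem_nonZeroDivisors_iff_ne_zero.2 hI'0⟩ with hI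
    refine ⟨I, ?_, hI'.symm⟩
    rw [mem_idealsLEClass]
    constructor
    · have h1 : (absNorm (span {y}) : ℝ) ≤ (n : ℝ) * absNorm (J : Ideal (𝓞 K)) := by
        rw [absNorm_span_singleton_eq_norm]
        exact hyn
      rw [hI', map_mul, Nat.cast_mul, mul_comm] at h1
      have h2 := le_of_mul_le_mul_right h1 hNJ
      exact_mod_cast h2
    · have h1 : ClassGroup.mk0 (J * I) = 1 := by
        have hmem : (J : Ideal (𝓞 K)) * I' ∈ (Ideal (𝓞 K))⁰ := (J * I : (Ideal (𝓞 K))⁰).2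
        have : (J * I : (Ideal (𝓞 K))⁰) = ⟨(J : Ideal (𝓞 K)) * I', hmem⟩ := rfl
        rw [this, ClassGroup.mk0_eq_one_iff, ← hI']
        exact ⟨y, rfl⟩
      rw [map_mul, hJ, inv_mul_eq_one] at h1
      exact h1.symm
  rw [← Finset.sum_fiberwise_of_maps_to hmaps]
  have hfib : ∀ P ∈ T,
      ∑ y ∈ coneFin (J : Ideal (𝓞 K)) 0 ((n : ℝ) * absNorm (J : Ideal (𝓞 K))) with span {y} = P,
        F (span {y}) = (torsionOrder K : ℂ) * F P := by
    intro P hP
    rw [Finset.sum_congr rfl (g := fun _ => F P)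
      (fun y hy => by rw [(Finset.mem_filter.1 hy).2]), Finset.sum_const, nsmul_eq_mul]
    congr 2
    rw [hT, Finset.mem_image] at hP
    obtain ⟨I, hI, rfl⟩ := hP
    rw [mem_idealsLEClass] at hI
    have hprinc : IsPrincipal ((J : Ideal (𝓞 K)) * (I : Ideal (𝓞 K))) := by
      have h1 : ClassGroup.mk0 (J * I) = 1 := by rw [map_mul, hJ, hI.2, inv_mul_cancel]
      have hmem : (J : Ideal (𝓞 K)) * (I : Ideal (𝓞 K)) ∈ (Ideal (𝓞 K))⁰ := (J * I).2
      have : (J * I : (Ideal (𝓞 K))⁰) = ⟨(J : Ideal (𝓞 K)) * (I : Ideal (𝓞 K)), hmem⟩ := rfl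
      rwa [this, ClassGroup.mk0_eq_one_iff] at h1
    rw [← card_coneGenerators (J * I) hprinc, ← Nat.card_eq_finsetCard]
    refine Nat.card_congr (Equiv.subtypeEquivRight fun y => ?_)
    rw [Finset.mem_filter, mem_coneFin, sub_zero]
    constructor
    · rintro ⟨⟨_, h2, _⟩, h4⟩
      exact ⟨h2, h4⟩
    · rintro ⟨h2, h4⟩
      refine ⟨⟨?_, h2, ?_⟩, h4⟩
      · have : span {y} ≤ (J : Ideal (𝓞 K)) := by
          rw [h4]
          show (J : Ideal (𝓞 K)) * (I : Ideal (𝓞 K)) ≤ (J : Ideal (𝓞 K))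
          exact Ideal.mul_le_left
        exact (Ideal.span_singleton_le_iff_mem (J : Ideal (𝓞 K))).1 this
      · rw [← absNorm_span_singleton_eq_norm, h4]
        show ((absNorm ((J : Ideal (𝓞 K)) * (I : Ideal (𝓞 K))) : ℕ) : ℝ) ≤ _
        rw [map_mul, Nat.cast_mul, mul_comm]
        exact mul_le_mul_of_nonneg_right (by exact_mod_cast hI.1) hNJ.le
  rw [Finset.sum_congr rfl hfib, ← Finset.mul_sum, hT, Finset.sum_image]
  intro I _ I' _ h
  have hJ0 : (J : Ideal (𝓞 K)) ≠ 0 := nonZeroDivisors.coe_ne_zero J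
  exact Subtype.ext (mul_left_cancel₀ hJ0 h)

open scoped Classical in
/-- **Decomposition into residue classes** modulo an ideal `m` coprime to `J`. -/
theorem sum_coneFin_residue (m : Ideal (𝓞 K)) [Fintype (𝓞 K ⧸ m)] (J : Ideal (𝓞 K))
    (hJm : IsCoprime J m) (B : ℝ) (x : 𝓞 K ⧸ m → 𝓞 K) (hxJ : ∀ t, x t ∈ J)
    (hxt : ∀ t, Ideal.Quotient.mk m (x t) = t) (G : 𝓞 K → ℂ) (μ : 𝓞 K ⧸ m → ℂ)
    (hG : ∀ y ∈ coneInts K, G y = μ (Ideal.Quotient.mk m y)) :
    ∑ y ∈ coneFin J 0 B, G y =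
      ∑ t : 𝓞 K ⧸ m, μ t * (Nat.card (coneSet K (J * m) (x t) B) : ℂ) := by
  rw [← Finset.sum_fiberwise (coneFin J 0 B) (fun y => Ideal.Quotient.mk m y)]
  refine Finset.sum_congr rfl fun t _ => ?_
  have hfilter : (coneFin J 0 B).filter (fun y => Ideal.Quotient.mk m y = t) =
      coneFin (J * m) (x t) B := by
    ext y
    have hmk : Ideal.Quotient.mk m y = t ↔ y - x t ∈ m := by
      conv_lhs => rw [← hxt t]
      exact Ideal.Quotient.mk_eq_mk_iff_sub_mem _ _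
    rw [Finset.mem_filter, mem_coneFin, mem_coneFin, sub_zero, Ideal.mul_eq_inf_of_isCoprime hJm,
      Ideal.mem_inf, hmk]
    constructor
    · rintro ⟨⟨h1, h2, h3⟩, h4⟩
      exact ⟨⟨sub_mem h1 (hxJ t), h4⟩, h2, h3⟩
    · rintro ⟨⟨h1, h4⟩, h2, h3⟩
      refine ⟨⟨?_, h2, h3⟩, h4⟩
      have := add_mem h1 (hxJ t)
      rwa [sub_add_cancel] at this
  rw [Finset.sum_congr rfl (g := fun _ => μ t) (fun y hy => by
    rw [Finset.mem_filter, mem_coneFin] at hy
    rw [hG y hy.1.2.1, hy.2]), Finset.sum_const, nsmul_eq_mul, hfilter, card_coneFin, mul_comm]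

end Fermat.Agent.CFT.RayCount
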