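import Mathlib
import Fermat.Agent.S14.SecondCore
import Fermat.Agent.S14.CharProd

/-!
# CFT / C3 (second inequality, analytic): the abstract inequality

Generalisation of `Fermat.Agent.S14.Second` (`SecondCore.lean`) from the ideal class group to an
arbitrary finite abelian group `A` receiving the primes of `F` outside a finite set `S`
(e.g. a quotient of a ray class group).

Setting: `M / F` number fields of degree `n`, `c : HeightOneSpectrum (𝓞 F) → A`, such that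
`c v = 1` whenever `v ∉ S` lies under a prime of `M` of inertia degree `1`. If the Euler products
`nL χ s = ∏_{v ∉ S} ‖(1 - χ(c v) N v^(-s))⁻¹‖` are bounded on `(1, 2]` for all characters
`χ ≠ 1` of `A`, then `|A| ≤ n`.
-/

set_option autoImplicit false
set_option linter.unusedSectionVars false

open NumberField IsDedekindDomain Filter Topology

open Fermat.Agent.S14.Second

namespace Fermat.Agent.CFT.Second

variable (F M : Type*) [Field F] [NumberField F] [Field M] [NumberField M] [Algebra F M]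

/-! ### Norms of primes -/

theorem inertiaDeg_pos' (w : HeightOneSpectrum (𝓞 M)) : 1 ≤ w.asIdeal.inertiaDeg (𝓞 F) := by
  have hpr : w.asIdeal.IsPrime := w.isPrime
  exact Ideal.inertiaDeg_pos (R := 𝓞 F) (q := w.asIdeal)

theorem absNorm_eq_pow_inertiaDeg (w : HeightOneSpectrum (𝓞 M)) :
    Ideal.absNorm w.asIdeal =
      Ideal.absNorm (w.under (𝓞 F)).asIdeal ^ (w.asIdeal.inertiaDeg (𝓞 F)) := by
  have hPmax : w.asIdeal.IsMaximal := w.isMaximal
  have hpmax : (w.under (𝓞 F)).asIdeal.IsMaximal := (w.under (𝓞 F)).isMaximal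
  have hlies : w.asIdeal.LiesOver (w.under (𝓞 F)).asIdeal := ⟨rfl⟩
  have hrel := Ideal.relNorm_eq_pow_of_isMaximal w.asIdeal (w.under (𝓞 F)).asIdeal
  rw [← Ideal.absNorm_relNorm (𝓞 F) (𝓞 M) w.asIdeal, hrel, map_pow]

theorem xs_eq_pow_inertiaDeg (w : HeightOneSpectrum (𝓞 M)) (s : ℝ) :
    xs M w s = xs F (w.under (𝓞 F)) s ^ (w.asIdeal.inertiaDeg (𝓞 F)) := by
  unfold xs nrm
  rw [absNorm_eq_pow_inertiaDeg F M w, Nat.cast_pow, ← Real.rpow_natCast, ← Real.rpow_natCast,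
    ← Real.rpow_mul (by positivity), ← Real.rpow_mul (by positivity), mul_comm]

end Fermat.Agent.CFT.Second

namespace Fermat.Agent.CFT.Second

variable (F M : Type*) [Field F] [NumberField F] [Field M] [NumberField M] [Algebra F M]
variable {A : Type*} [CommGroup A] [Finite A]
variable (S : Finset (HeightOneSpectrum (𝓞 F))) (c : HeightOneSpectrum (𝓞 F) → A)

/-! ### Local factors -/

open Classical in
/-- The factor `(1 - x_v)⁻¹` if `v ∉ S` has trivial class, `1` otherwise. -/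
noncomputable def ufA (v : HeightOneSpectrum (𝓞 F)) (s : ℝ) : ℝ :=
  if v ∉ S ∧ c v = 1 then (1 - xs F v s)⁻¹ else 1

open Classical in
/-- The factor `2` at the bad primes. -/
noncomputable def bfA (v : HeightOneSpectrum (𝓞 F)) : ℝ := if v ∈ S then 2 else 1

theorem one_le_ufA (v : HeightOneSpectrum (𝓞 F)) {s : ℝ} (hs : 1 ≤ s) : 1 ≤ ufA F S c v s := by
  unfold ufA
  split_ifs
  · exact inv_one_sub_ge_one (xs_pos F v s).le (xs_lt_one F v hs)
  · exact le_rfl

theorem one_le_bfA (v : HeightOneSpectrum (𝓞 F)) : 1 ≤ bfA F S v := by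
  unfold bfA
  split_ifs <;> norm_num

theorem inv_one_sub_xs_le_two (v : HeightOneSpectrum (𝓞 F)) {s : ℝ} (hs : 1 ≤ s) :
    (1 - xs F v s)⁻¹ ≤ 2 := by
  have h := xs_le_half F v hs
  have h0 := xs_pos F v s
  rw [inv_le_comm₀ (by linarith) (by norm_num)]
  linarith

variable {S c}

theorem local_leA
    (hN : ∀ w : HeightOneSpectrum (𝓞 M), w.under (𝓞 F) ∉ S →
      w.asIdeal.inertiaDeg (𝓞 F) = 1 → c (w.under (𝓞 F)) = 1)
    (w : HeightOneSpectrum (𝓞 M)) {s : ℝ} (hs : 1 ≤ s) :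
    (1 - xs M w s)⁻¹ ≤
      ufA F S c (w.under (𝓞 F)) s * cf F (w.under (𝓞 F)) s * bfA F S (w.under (𝓞 F)) := by
  have hf1 := inertiaDeg_pos' F M w
  have hx := xs_eq_pow_inertiaDeg F M w s
  set v := w.under (𝓞 F) with hv
  set f := w.asIdeal.inertiaDeg (𝓞 F) with hf
  have h0 := xs_pos F v s
  have h1 := xs_lt_one F v hs
  have hu := one_le_ufA F S c v hs
  have hc := one_le_cf F v hs
  have hb := one_le_bfA F S v
  rw [hx]
  rcases Nat.eq_or_lt_of_le hf1 with hf' | hf'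
  · -- f = 1
    rw [← hf', pow_one]
    by_cases hvS : v ∈ S
    · have hb2 : bfA F S v = 2 := by unfold bfA; rw [if_pos hvS]
      calc (1 - xs F v s)⁻¹ ≤ 2 := inv_one_sub_xs_le_two F v hs
        _ = 1 * 1 * 2 := by norm_num
        _ ≤ ufA F S c v s * cf F v s * bfA F S v := by
            rw [hb2]
            gcongr
    · have hcv : c v = 1 := hN w hvS hf'.symm
      have : ufA F S c v s = (1 - xs F v s)⁻¹ := by
        unfold ufA
        rw [if_pos ⟨hvS, hcv⟩]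
      rw [this]
      have hpos : 0 ≤ (1 - xs F v s)⁻¹ := inv_nonneg.mpr (by linarith)
      calc (1 - xs F v s)⁻¹ = (1 - xs F v s)⁻¹ * 1 * 1 := by ring
        _ ≤ (1 - xs F v s)⁻¹ * cf F v s * bfA F S v := by gcongr
  · -- f ≥ 2
    have hle : xs F v s ^ f ≤ xs F v s ^ 2 := pow_le_pow_of_le_one h0.le h1.le hf'
    calc (1 - xs F v s ^ f)⁻¹ ≤ (1 - xs F v s ^ 2)⁻¹ :=
          inv_one_sub_mono hle (xs_sq_lt_one F v hs)
      _ = cf F v s := rfl
      _ = 1 * cf F v s * 1 := by ring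
      _ ≤ ufA F S c v s * cf F v s * bfA F S v := by gcongr

open Classical in
theorem prod_le_prod_underA
    (hN : ∀ w : HeightOneSpectrum (𝓞 M), w.under (𝓞 F) ∉ S →
      w.asIdeal.inertiaDeg (𝓞 F) = 1 → c (w.under (𝓞 F)) = 1)
    (T : Finset (HeightOneSpectrum (𝓞 M))) {s : ℝ} (hs : 1 ≤ s) :
    ∏ w ∈ T, (1 - xs M w s)⁻¹ ≤
      ∏ v ∈ T.image (fun w => w.under (𝓞 F)),
        (ufA F S c v s * cf F v s * bfA F S v) ^ (Module.finrank F M) := by
  rw [← Finset.prod_fiberwise_of_maps_to (s := T) (t := T.image (fun w => w.under (𝓞 F)))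
    (g := fun w => w.under (𝓞 F)) (fun w hw => Finset.mem_image_of_mem _ hw)]
  refine Finset.prod_le_prod (fun v _ => Finset.prod_nonneg fun w _ => ?_) (fun v _ => ?_)
  · have := xs_lt_one M w hs
    exact inv_nonneg.mpr (by linarith)
  · have hbase : 1 ≤ ufA F S c v s * cf F v s * bfA F S v :=
      one_le_mul_of_one_le_of_one_le
        (one_le_mul_of_one_le_of_one_le (one_le_ufA F S c v hs) (one_le_cf F v hs))
        (one_le_bfA F S v)
    calc ∏ w ∈ T.filter (fun w => w.under (𝓞 F) = v), (1 - xs M w s)⁻¹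
        ≤ ∏ _w ∈ T.filter (fun w => w.under (𝓞 F) = v),
            (ufA F S c v s * cf F v s * bfA F S v) := by
          refine Finset.prod_le_prod (fun w _ => ?_) (fun w hw => ?_)
          · have := xs_lt_one M w hs
            exact inv_nonneg.mpr (by linarith)
          · have hwv : w.under (𝓞 F) = v := (Finset.mem_filter.mp hw).2
            rw [← hwv]
            exact local_leA F M hN w hs
      _ = (ufA F S c v s * cf F v s * bfA F S v) ^
            (T.filter (fun w => w.under (𝓞 F) = v)).card := by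
          rw [Finset.prod_const]
      _ ≤ (ufA F S c v s * cf F v s * bfA F S v) ^ (Module.finrank F M) :=
          pow_le_pow_right₀ hbase (card_filter_under_le F M T v)

variable (S c)

open Classical in
/-- The local factor of `∏_χ nL χ s`: trivial at the bad primes. -/
noncomputable def charFactorA [Fintype (A →* ℂˣ)] (v : HeightOneSpectrum (𝓞 F)) (s : ℝ) : ℝ :=
  if v ∈ S then 1 else charFactor (c v) (xs F v s)

theorem prod_norm_char_le_one [Fintype (A →* ℂˣ)] (a : A) (x : ℝ) (h0 : 0 ≤ x) (h1 : x < 1) :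
    ∏ χ : A →* ℂˣ, ‖1 - ((χ a : ℂˣ) : ℂ) * (x : ℂ)‖ ≤ 1 :=
  Fermat.Agent.S14.prod_norm_one_sub_char_mul_le_one a h0 h1

theorem one_le_charFactorA [Fintype (A →* ℂˣ)] (v : HeightOneSpectrum (𝓞 F)) {s : ℝ}
    (hs : 1 ≤ s) : 1 ≤ charFactorA F S c v s := by
  unfold charFactorA
  split_ifs
  · exact le_rfl
  · exact one_le_charFactor prod_norm_char_le_one _ (xs_pos F v s).le (xs_lt_one F v hs)

theorem ufA_pow_le_charFactorA [Fintype (A →* ℂˣ)] (v : HeightOneSpectrum (𝓞 F)) {s : ℝ}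
    (hs : 1 ≤ s) : ufA F S c v s ^ Nat.card A ≤ charFactorA F S c v s := by
  have h0 := (xs_pos F v s).le
  have h1 := xs_lt_one F v hs
  unfold ufA charFactorA
  by_cases hvS : v ∈ S
  · rw [if_neg (fun h => h.1 hvS), if_pos hvS, one_pow]
  · rw [if_neg hvS]
    by_cases hcv : c v = 1
    · rw [if_pos ⟨hvS, hcv⟩, hcv, charFactor_one h0 h1]
    · rw [if_neg (fun h => hcv h.2), one_pow]
      exact one_le_charFactor prod_norm_char_le_one _ h0 h1

open Classical in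
theorem prod_bfA_le (T₀ : Finset (HeightOneSpectrum (𝓞 F))) :
    ∏ v ∈ T₀, bfA F S v ≤ 2 ^ S.card := by
  have h1 : ∏ v ∈ T₀, bfA F S v = ∏ v ∈ T₀.filter (· ∈ S), (2 : ℝ) := by
    unfold bfA
    rw [Finset.prod_ite, Finset.prod_const_one, mul_one]
  rw [h1, Finset.prod_const]
  refine pow_le_pow_right₀ (by norm_num) (Finset.card_le_card fun v hv => ?_)
  exact (Finset.mem_filter.mp hv).2

end Fermat.Agent.CFT.Second

namespace Fermat.Agent.CFT.Second

variable (F M : Type*) [Field F] [NumberField F] [Field M] [NumberField M] [Algebra F M]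
variable {A : Type*} [CommGroup A] [Finite A]
variable (S : Finset (HeightOneSpectrum (𝓞 F))) (c : HeightOneSpectrum (𝓞 F) → A)

section Main

open Classical

variable [Fintype (A →* ℂˣ)]
  (zF zM : ℝ → ℝ) (nL : (A →* ℂˣ) → ℝ → ℝ)
  (hzF : ∀ s, 1 < s → HasProd (fun v : HeightOneSpectrum (𝓞 F) => (1 - nrm F v ^ (-s))⁻¹) (zF s))
  (hzM : ∀ s, 1 < s → HasProd (fun w : HeightOneSpectrum (𝓞 M) => (1 - nrm M w ^ (-s))⁻¹) (zM s))
  (hL : ∀ χ s, 1 < s → HasProd (fun v : HeightOneSpectrum (𝓞 F) =>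
    if v ∈ S then (1 : ℝ) else
      ‖(1 - ((χ (c v) : ℂˣ) : ℂ) * ((nrm F v ^ (-s) : ℝ) : ℂ))⁻¹‖) (nL χ s))
  (hN : ∀ w : HeightOneSpectrum (𝓞 M), w.under (𝓞 F) ∉ S →
      w.asIdeal.inertiaDeg (𝓞 F) = 1 → c (w.under (𝓞 F)) = 1)

include hzF hzM hL hN in
theorem main_ineqA {s : ℝ} (hs : 1 < s) :
    zM s ^ Nat.card A ≤
      (∏ χ : A →* ℂˣ, nL χ s) ^ Module.finrank F M *
        (zF 2 * 2 ^ S.card) ^ (Module.finrank F M * Nat.card A) := by
  classical
  set h := Nat.card A with hh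
  set n := Module.finrank F M with hn
  have hs1 : (1 : ℝ) ≤ s := hs.le
  -- the product over characters
  have hP : HasProd (fun v : HeightOneSpectrum (𝓞 F) => charFactorA F S c v s)
      (∏ χ : A →* ℂˣ, nL χ s) := by
    have := hasProd_prod (s := (Finset.univ : Finset (A →* ℂˣ)))
      (fun χ _ => hL χ s hs)
    convert this using 2 with v
    unfold charFactorA charFactor xs
    by_cases hvS : v ∈ S
    · simp only [if_pos hvS, Finset.prod_const_one]
    · simp only [if_neg hvS]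
  have hP1 : ∀ T₀ : Finset (HeightOneSpectrum (𝓞 F)),
      ∏ v ∈ T₀, charFactorA F S c v s ≤ ∏ χ : A →* ℂˣ, nL χ s :=
    prod_le_of_hasProd hP fun v => one_le_charFactorA F S c v hs1
  have hC1 : ∀ T₀ : Finset (HeightOneSpectrum (𝓞 F)),
      ∏ v ∈ T₀, (1 - nrm F v ^ (-(2 : ℝ)))⁻¹ ≤ zF 2 :=
    prod_le_of_hasProd (hzF 2 (by norm_num)) fun v =>
      inv_one_sub_ge_one (xs_pos F v 2).le (xs_lt_one F v (by norm_num))
  refine le_of_tendsto' ((tendsto_of_hasProd (hzM s hs)).pow h) fun T => ?_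
  set T₀ := T.image (fun w => w.under (𝓞 F)) with hT₀
  have hnonneg : 0 ≤ ∏ w ∈ T, (1 - nrm M w ^ (-s))⁻¹ :=
    Finset.prod_nonneg fun w _ => by
      have := xs_lt_one M w hs1
      unfold xs at this
      exact inv_nonneg.mpr (by linarith)
  have h1 : (∏ w ∈ T, (1 - nrm M w ^ (-s))⁻¹) ^ h ≤
      (∏ v ∈ T₀, (ufA F S c v s * cf F v s * bfA F S v) ^ n) ^ h :=
    pow_le_pow_left₀ hnonneg (prod_le_prod_underA F M hN T hs1) h
  have h2 : (∏ v ∈ T₀, (ufA F S c v s * cf F v s * bfA F S v) ^ n) ^ h =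
      (∏ v ∈ T₀, ufA F S c v s ^ h) ^ n *
        ((∏ v ∈ T₀, cf F v s) * (∏ v ∈ T₀, bfA F S v)) ^ (n * h) := by
    have e1 : ∏ v ∈ T₀, (ufA F S c v s * cf F v s * bfA F S v) ^ n =
        ((∏ v ∈ T₀, ufA F S c v s) * (∏ v ∈ T₀, cf F v s) * (∏ v ∈ T₀, bfA F S v)) ^ n := by
      rw [Finset.prod_pow, Finset.prod_mul_distrib, Finset.prod_mul_distrib]
    have e2 : ∏ v ∈ T₀, ufA F S c v s ^ h = (∏ v ∈ T₀, ufA F S c v s) ^ h :=
      Finset.prod_pow _ _ _
    rw [e1, e2]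
    ring
  have h3 : ∏ v ∈ T₀, ufA F S c v s ^ h ≤ ∏ v ∈ T₀, charFactorA F S c v s :=
    Finset.prod_le_prod (fun v _ => pow_nonneg (le_trans zero_le_one (one_le_ufA F S c v hs1)) _)
      (fun v _ => ufA_pow_le_charFactorA F S c v hs1)
  have h4 : ∏ v ∈ T₀, cf F v s ≤ ∏ v ∈ T₀, (1 - nrm F v ^ (-(2 : ℝ)))⁻¹ :=
    Finset.prod_le_prod (fun v _ => le_trans zero_le_one (one_le_cf F v hs1))
      (fun v _ => cf_le F v hs1)
  have h5 : 0 ≤ ∏ v ∈ T₀, ufA F S c v s ^ h :=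
    Finset.prod_nonneg fun v _ => pow_nonneg (le_trans zero_le_one (one_le_ufA F S c v hs1)) _
  have h6 : 0 ≤ ∏ v ∈ T₀, cf F v s :=
    Finset.prod_nonneg fun v _ => le_trans zero_le_one (one_le_cf F v hs1)
  have h7 : 0 ≤ ∏ v ∈ T₀, bfA F S v :=
    Finset.prod_nonneg fun v _ => le_trans zero_le_one (one_le_bfA F S v)
  have h8 : (∏ v ∈ T₀, cf F v s) * (∏ v ∈ T₀, bfA F S v) ≤ zF 2 * 2 ^ S.card :=
    mul_le_mul (h4.trans (hC1 T₀)) (prod_bfA_le F S T₀) h7 (h6.trans (h4.trans (hC1 T₀)))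
  calc (∏ w ∈ T, (1 - nrm M w ^ (-s))⁻¹) ^ h
      ≤ (∏ v ∈ T₀, ufA F S c v s ^ h) ^ n *
          ((∏ v ∈ T₀, cf F v s) * (∏ v ∈ T₀, bfA F S v)) ^ (n * h) := h2 ▸ h1
    _ ≤ (∏ χ : A →* ℂˣ, nL χ s) ^ n * (zF 2 * 2 ^ S.card) ^ (n * h) := by
        refine mul_le_mul ?_ ?_ (pow_nonneg (mul_nonneg h6 h7) _)
          (pow_nonneg (le_trans h5 (h3.trans (hP1 T₀))) _)
        · exact pow_le_pow_left₀ h5 (h3.trans (hP1 T₀)) n
        · exact pow_le_pow_left₀ (mul_nonneg h6 h7) h8 (n * h)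

include hL in
theorem nLA_nonneg (χ : A →* ℂˣ) {s : ℝ} (hs : 1 < s) : 0 ≤ nL χ s :=
  ge_of_tendsto' (tendsto_of_hasProd (hL χ s hs)) fun _ =>
    Finset.prod_nonneg fun v _ => by
      split_ifs
      · exact zero_le_one
      · exact norm_nonneg _

include hzF hL in
theorem nLA_one_le {s : ℝ} (hs : 1 < s) : nL 1 s ≤ zF s := by
  have hge : ∀ v : HeightOneSpectrum (𝓞 F), 1 ≤ (1 - nrm F v ^ (-s))⁻¹ := fun v => by
    have h0 := xs_pos F v s
    have h1 := xs_lt_one F v hs.le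
    unfold xs at h0 h1
    exact inv_one_sub_ge_one h0.le h1
  refine hasProd_le_of_forall_prod_le (hL 1 s hs) fun T => ?_
  refine le_trans ?_ (prod_le_of_hasProd (hzF s hs) hge T)
  refine Finset.prod_le_prod (fun v _ => ?_) (fun v _ => ?_)
  · split_ifs
    · exact zero_le_one
    · exact norm_nonneg _
  · have h0 := xs_pos F v s
    have h1 := xs_lt_one F v hs.le
    unfold xs at h0 h1
    split_ifs
    · exact hge v
    · rw [MonoidHom.one_apply, Units.val_one, one_mul, norm_inv]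
      have : (1 : ℂ) - ((nrm F v ^ (-s) : ℝ) : ℂ) = ((1 - nrm F v ^ (-s) : ℝ) : ℂ) := by
        push_cast; ring
      rw [this, Complex.norm_real, Real.norm_of_nonneg (by linarith)]

include hzF in
theorem one_le_zFA {s : ℝ} (hs : 1 < s) : 1 ≤ zF s :=
  one_le_of_hasProd (hzF s hs) fun v =>
    inv_one_sub_ge_one (xs_pos F v s).le (xs_lt_one F v hs.le)

include hzF hzM hL hN in
/-- **The abstract second inequality.** -/
theorem card_le_finrank_of
    (hB : ∀ χ : A →* ℂˣ, χ ≠ 1 → ∃ B : ℝ, ∀ s, 1 < s → s ≤ 2 → nL χ s ≤ B)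
    (ρF ρM : ℝ) (hρM : 0 < ρM)
    (htF : Tendsto (fun s => (s - 1) * zF s) (𝓝[>] 1) (𝓝 ρF))
    (htM : Tendsto (fun s => (s - 1) * zM s) (𝓝[>] 1) (𝓝 ρM)) :
    Nat.card A ≤ Module.finrank F M := by
  classical
  set h := Nat.card A with hh
  set n := Module.finrank F M with hn
  by_contra hlt
  have hnh : n + 1 ≤ h := by omega
  -- uniform bound
  have hB' : ∀ χ : A →* ℂˣ, ∃ B : ℝ, χ ≠ 1 → ∀ s, 1 < s → s ≤ 2 → nL χ s ≤ B := by
    intro χ
    by_cases hχ : χ = 1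
    · exact ⟨0, fun h => absurd hχ h⟩
    · obtain ⟨B, hBχ⟩ := hB χ hχ
      exact ⟨B, fun _ => hBχ⟩
  choose Bf hBf using hB'
  set B : ℝ := 1 + ∑ χ : A →* ℂˣ, |Bf χ| with hBdef
  have hB1 : 1 ≤ B := by
    have : 0 ≤ ∑ χ : A →* ℂˣ, |Bf χ| := Finset.sum_nonneg fun _ _ => abs_nonneg _
    linarith
  have hBle : ∀ χ : A →* ℂˣ, χ ≠ 1 → ∀ s, 1 < s → s ≤ 2 → nL χ s ≤ B := by
    intro χ hχ s hs hs2
    refine (hBf χ hχ s hs hs2).trans ((le_abs_self _).trans ?_)
    have : |Bf χ| ≤ ∑ χ : A →* ℂˣ, |Bf χ| :=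
      Finset.single_le_sum (f := fun χ => |Bf χ|) (fun _ _ => abs_nonneg _) (Finset.mem_univ χ)
    linarith
  -- the product over characters is bounded by `zF s * B ^ (h - 1)`
  have hcard : Fintype.card (A →* ℂˣ) = h := by
    rw [← Nat.card_eq_fintype_card]
    exact CommGroup.card_monoidHom_of_hasEnoughRootsOfUnity A ℂ
  have hprod : ∀ s, 1 < s → s ≤ 2 →
      ∏ χ : A →* ℂˣ, nL χ s ≤ zF s * B ^ (h - 1) := by
    intro s hs hs2
    rw [← Finset.mul_prod_erase Finset.univ _ (Finset.mem_univ (1 : A →* ℂˣ))]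
    have hz1 : 0 ≤ zF s := le_trans zero_le_one (one_le_zFA F zF hzF hs)
    have hprod0 : 0 ≤ ∏ χ ∈ Finset.univ.erase (1 : A →* ℂˣ), nL χ s :=
      Finset.prod_nonneg fun χ _ => nLA_nonneg F S c nL hL χ hs
    calc nL 1 s * ∏ χ ∈ Finset.univ.erase (1 : A →* ℂˣ), nL χ s
        ≤ zF s * ∏ χ ∈ Finset.univ.erase (1 : A →* ℂˣ), nL χ s :=
          mul_le_mul_of_nonneg_right (nLA_one_le F S c zF nL hzF hL hs) hprod0
      _ ≤ zF s * B ^ (h - 1) := by
          refine mul_le_mul_of_nonneg_left ?_ hz1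
          calc ∏ χ ∈ Finset.univ.erase (1 : A →* ℂˣ), nL χ s
              ≤ ∏ _χ ∈ Finset.univ.erase (1 : A →* ℂˣ), B :=
                Finset.prod_le_prod (fun χ _ => nLA_nonneg F S c nL hL χ hs)
                  (fun χ hχ => hBle χ (Finset.ne_of_mem_erase hχ) s hs hs2)
            _ = B ^ (h - 1) := by
                rw [Finset.prod_const, Finset.card_erase_of_mem (Finset.mem_univ _),
                  Finset.card_univ, hcard]
  -- the key inequality
  set C : ℝ := (B ^ (h - 1)) ^ n * (zF 2 * 2 ^ S.card) ^ (n * h) with hC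
  have hkey : ∀ s, 1 < s → s ≤ 2 →
      ((s - 1) * zM s) ^ h ≤ (s - 1) ^ (h - n) * ((s - 1) * zF s) ^ n * C := by
    intro s hs hs2
    have hm := main_ineqA F M S c zF zM nL hzF hzM hL hN hs
    have hP0 : 0 ≤ ∏ χ : A →* ℂˣ, nL χ s :=
      Finset.prod_nonneg fun χ _ => nLA_nonneg F S c nL hL χ hs
    have hz2 : 0 ≤ zF 2 * 2 ^ S.card :=
      mul_nonneg (le_trans zero_le_one (one_le_zFA F zF hzF (by norm_num))) (by positivity)
    have h1 : zM s ^ h ≤ (zF s * B ^ (h - 1)) ^ n * (zF 2 * 2 ^ S.card) ^ (n * h) :=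
      hm.trans (mul_le_mul_of_nonneg_right
        (pow_le_pow_left₀ hP0 (hprod s hs hs2) n) (pow_nonneg hz2 _))
    have hs0 : 0 ≤ s - 1 := by linarith
    have hsplit : (s - 1) ^ h = (s - 1) ^ (h - n) * (s - 1) ^ n := by
      rw [← pow_add]; congr 1; omega
    calc ((s - 1) * zM s) ^ h = (s - 1) ^ h * zM s ^ h := mul_pow _ _ _
      _ ≤ (s - 1) ^ h * ((zF s * B ^ (h - 1)) ^ n * (zF 2 * 2 ^ S.card) ^ (n * h)) :=
          mul_le_mul_of_nonneg_left h1 (pow_nonneg hs0 _)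
      _ = (s - 1) ^ (h - n) * ((s - 1) * zF s) ^ n * C := by
          rw [hsplit, hC, mul_pow (s - 1) (zF s) n, mul_pow (zF s) (B ^ (h - 1)) n]; ring
  -- limits
  have hlim1 : Tendsto (fun s : ℝ => ((s - 1) * zM s) ^ h) (𝓝[>] 1) (𝓝 (ρM ^ h)) := htM.pow h
  have hlim0 : Tendsto (fun s : ℝ => (s - 1) ^ (h - n)) (𝓝[>] 1) (𝓝 0) := by
    have : Tendsto (fun s : ℝ => (s - 1) ^ (h - n)) (𝓝 1) (𝓝 ((1 - 1 : ℝ) ^ (h - n))) :=
      ((continuous_id.sub continuous_const).pow _).tendsto 1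
    rw [sub_self, zero_pow (by omega)] at this
    exact this.mono_left nhdsWithin_le_nhds
  have hlim2 : Tendsto (fun s : ℝ => (s - 1) ^ (h - n) * ((s - 1) * zF s) ^ n * C) (𝓝[>] 1)
      (𝓝 (0 * ρF ^ n * C)) := (hlim0.mul (htF.pow n)).mul_const C
  have hev : ∀ᶠ s in 𝓝[>] (1 : ℝ),
      ((s - 1) * zM s) ^ h ≤ (s - 1) ^ (h - n) * ((s - 1) * zF s) ^ n * C := by
    have : Set.Ioc (1 : ℝ) 2 ∈ 𝓝[>] (1 : ℝ) := Ioc_mem_nhdsGT (by norm_num)
    filter_upwards [this] with s hs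
    exact hkey s hs.1 hs.2
  have := le_of_tendsto_of_tendsto hlim1 hlim2 hev
  rw [zero_mul, zero_mul] at this
  exact absurd (pow_pos hρM h) (not_lt.mpr this)

end Main

end Fermat.Agent.CFT.Second
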