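import Mathlib
import Fermat.Agent.CFT.Global.Second.IdealLSeries
import Fermat.Agent.CFT.Global.Second.SecondAbstract
import Fermat.Agent.S14.SecondGlue

/-!
# CFT / C3: the second inequality (analytic proof), ideal-theoretic form

`K ⊆ L` number fields, `m` a nonzero ideal of `𝓞 K`, `A` a finite abelian group and
`c : Ideal (𝓞 K) → A` multiplicative on the (nonzero) ideals coprime to `m`, trivial on the
principal ideals `(α)` with `α ≡ 1 mod m`, trivial on the norms of the primes of `L` not above `m`,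
and surjective. Then `|A| ≤ [L : K]`.

The analytic input (ray class counting, block C3-a) is the hypothesis `RayBound K m`: the partial
sums of a nontrivial ray class character mod `m` over the ideals of norm `≤ n` are
`O(n ^ (1 - 1/[K:ℚ]))`.
-/

set_option autoImplicit false
set_option linter.unusedSectionVars false

open NumberField IsDedekindDomain Filter Topology nonZeroDivisors

open Fermat.Agent.S14 Fermat.Agent.S14.Second

namespace Fermat.Agent.CFT.Second

variable (K : Type*) [Field K] [NumberField K]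

/-- The analytic input (block C3-a, ray class counting): partial sums of nontrivial ray class
characters modulo `m`. -/
def RayBound (m : Ideal (𝓞 K)) : Prop :=
  ∀ ψ : Ideal (𝓞 K) →*₀ ℂ,
    (∀ I : Ideal (𝓞 K), ¬ IsCoprime I m → ψ I = 0) →
    (∀ α : 𝓞 K, α ≠ 0 → α - 1 ∈ m → ψ (Ideal.span {α}) = 1) →
    (∃ I : Ideal (𝓞 K), I ≠ ⊥ ∧ IsCoprime I m ∧ ψ I ≠ 1) →
    ∃ C : ℝ, ∀ n : ℕ, 1 ≤ n →
      ‖∑ I ∈ idealsLE K n, ψ (I : Ideal (𝓞 K))‖ ≤
        C * (n : ℝ) ^ (1 - 1 / (Module.finrank ℚ K : ℝ))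

variable {K}

/-! ### The primes dividing the modulus -/

/-- The finite set of primes dividing `m`. -/
noncomputable def badPrimes (m : Ideal (𝓞 K)) (hm : m ≠ ⊥) : Finset (HeightOneSpectrum (𝓞 K)) :=
  (Ideal.finite_factors (R := 𝓞 K) (I := m) hm).toFinset

theorem mem_badPrimes {m : Ideal (𝓞 K)} (hm : m ≠ ⊥) (v : HeightOneSpectrum (𝓞 K)) :
    v ∈ badPrimes m hm ↔ v.asIdeal ∣ m := by
  unfold badPrimes
  rw [Set.Finite.mem_toFinset]
  rfl

theorem isCoprime_asIdeal_iff {m : Ideal (𝓞 K)} (v : HeightOneSpectrum (𝓞 K)) :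
    IsCoprime v.asIdeal m ↔ ¬ v.asIdeal ∣ m := by
  rw [Ideal.isCoprime_iff_sup_eq, Ideal.dvd_iff_le]
  constructor
  · intro h hle
    rw [sup_eq_left.mpr hle] at h
    exact v.isPrime.ne_top h
  · intro h
    by_contra hne
    have hmax : v.asIdeal.IsMaximal := v.isMaximal
    have := hmax.eq_of_le hne le_sup_left
    exact h (this ▸ le_sup_right)

theorem not_mem_badPrimes_iff {m : Ideal (𝓞 K)} (hm : m ≠ ⊥) (v : HeightOneSpectrum (𝓞 K)) :
    v ∉ badPrimes m hm ↔ IsCoprime v.asIdeal m := by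
  rw [mem_badPrimes, isCoprime_asIdeal_iff]

/-! ### The ideal character attached to a character of `A` -/

section IdealChar

variable {A : Type*} [CommGroup A] [Finite A] (m : Ideal (𝓞 K)) (c : Ideal (𝓞 K) → A)
  (hc1 : c ⊤ = 1)
  (hcmul : ∀ I J : Ideal (𝓞 K), I ≠ ⊥ → J ≠ ⊥ → IsCoprime I m → IsCoprime J m →
    c (I * J) = c I * c J)

open Classical in
/-- `I ↦ χ (c I)` on the nonzero ideals coprime to `m`, extended by `0`. -/
noncomputable def idealChar (χ : A →* ℂˣ) : Ideal (𝓞 K) →*₀ ℂ where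
  toFun I := if I ≠ ⊥ ∧ IsCoprime I m then ((χ (c I) : ℂˣ) : ℂ) else 0
  map_zero' := by
    rw [if_neg]
    intro h
    exact h.1 rfl
  map_one' := by
    rw [if_pos ⟨by rw [Ideal.one_eq_top]; exact top_ne_bot, isCoprime_one_left⟩, Ideal.one_eq_top,
      hc1, map_one, Units.val_one]
  map_mul' I J := by
    by_cases hI : I ≠ ⊥ ∧ IsCoprime I m
    · by_cases hJ : J ≠ ⊥ ∧ IsCoprime J m
      · have hIJ : I * J ≠ ⊥ ∧ IsCoprime (I * J) m :=
          ⟨mul_ne_zero hI.1 hJ.1, IsCoprime.mul_left hI.2 hJ.2⟩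
        rw [if_pos hI, if_pos hJ, if_pos hIJ, hcmul I J hI.1 hJ.1 hI.2 hJ.2, map_mul,
          Units.val_mul]
      · rw [if_neg hJ, mul_zero, if_neg]
        rintro ⟨h1, h2⟩
        apply hJ
        refine ⟨fun h => h1 (by rw [h]; exact mul_zero I), ?_⟩
        exact IsCoprime.of_mul_left_right h2
    · rw [if_neg hI, zero_mul, if_neg]
      rintro ⟨h1, h2⟩
      apply hI
      refine ⟨fun h => h1 (by rw [h]; exact zero_mul J), ?_⟩
      exact IsCoprime.of_mul_left_left h2

open Classical in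
theorem idealChar_apply (χ : A →* ℂˣ) (I : Ideal (𝓞 K)) :
    idealChar m c hc1 hcmul χ I =
      if I ≠ ⊥ ∧ IsCoprime I m then ((χ (c I) : ℂˣ) : ℂ) else 0 := rfl

theorem norm_idealChar_le (χ : A →* ℂˣ) (I : Ideal (𝓞 K)) :
    ‖idealChar m c hc1 hcmul χ I‖ ≤ 1 := by
  classical
  rw [idealChar_apply]
  split_ifs
  · rw [norm_char_apply]
  · rw [norm_zero]; exact zero_le_one

open Classical in
theorem idealChar_prime {hm : m ≠ ⊥} (χ : A →* ℂˣ) (v : HeightOneSpectrum (𝓞 K)) :
    idealChar m c hc1 hcmul χ v.asIdeal =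
      if v ∈ badPrimes m hm then 0 else ((χ (c v.asIdeal) : ℂˣ) : ℂ) := by
  classical
  rw [idealChar_apply]
  by_cases hv : v ∈ badPrimes m hm
  · rw [if_pos hv, if_neg]
    rintro ⟨-, h⟩
    exact (not_mem_badPrimes_iff hm v).mpr h hv
  · rw [if_neg hv, if_pos ⟨v.ne_bot, (not_mem_badPrimes_iff hm v).mp hv⟩]

end IdealChar

/-! ### The second inequality -/

variable {L : Type*} [Field L] [NumberField L] [Algebra K L]

/-- **The second inequality of class field theory** (ideal-theoretic form), modulo the ray class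
counting estimate `RayBound K m`. -/
theorem card_le_finrank_of_rayBound {m : Ideal (𝓞 K)} (hm : m ≠ ⊥) (hRay : RayBound K m)
    {A : Type*} [CommGroup A] [Finite A] (c : Ideal (𝓞 K) → A)
    (hc1 : c ⊤ = 1)
    (hcmul : ∀ I J : Ideal (𝓞 K), I ≠ ⊥ → J ≠ ⊥ → IsCoprime I m → IsCoprime J m →
      c (I * J) = c I * c J)
    (hcP : ∀ α : 𝓞 K, α ≠ 0 → α - 1 ∈ m → c (Ideal.span {α}) = 1)
    (hcN : ∀ w : HeightOneSpectrum (𝓞 L), IsCoprime (w.under (𝓞 K)).asIdeal m →
      c (Ideal.relNorm (𝓞 K) w.asIdeal) = 1)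
    (hsurj : ∀ a : A, ∃ I : Ideal (𝓞 K), I ≠ ⊥ ∧ IsCoprime I m ∧ c I = a) :
    Nat.card A ≤ Module.finrank K L := by
  classical
  have : Fintype (A →* ℂˣ) := Fintype.ofFinite _
  set S := badPrimes m hm with hS
  set ψ : (A →* ℂˣ) → (Ideal (𝓞 K) →*₀ ℂ) := fun χ => idealChar m c hc1 hcmul χ with hψ
  have hψle : ∀ χ I, ‖ψ χ I‖ ≤ 1 := fun χ I => norm_idealChar_le m c hc1 hcmul χ I
  refine card_le_finrank_of K L S (fun v => c v.asIdeal)
    (fun s => ‖dedekindZeta K s‖) (fun s => ‖dedekindZeta L s‖)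
    (fun χ s => ‖gLSeries (res (ψ χ)) s‖)
    (fun s hs => hasProd_norm_dedekindZeta K (fun f hf => ideal_eulerProduct_hasProd f hf) hs)
    (fun s hs => hasProd_norm_dedekindZeta L (fun f hf => ideal_eulerProduct_hasProd f hf) hs)
    ?_ ?_ ?_
    (dedekindZeta_residue K) (dedekindZeta_residue L) (dedekindZeta_residue_pos L)
    (tendsto_sub_one_mul_norm_dedekindZeta K) (tendsto_sub_one_mul_norm_dedekindZeta L)
  · -- Euler products of the `L`-series
    intro χ s hs
    have h := hasProd_norm_gLSeries (hψle χ) hs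
    convert h using 2 with v
    rw [hψ, idealChar_prime (hm := hm)]
    by_cases hv : v ∈ S
    · rw [if_pos hv, if_pos hv, zero_mul, sub_zero, inv_one, norm_one]
    · rw [if_neg hv, if_neg hv]
  · -- primes of degree one have trivial class
    intro w hw hf
    have hcop : IsCoprime (w.under (𝓞 K)).asIdeal m := (not_mem_badPrimes_iff hm _).mp hw
    have hPmax : w.asIdeal.IsMaximal := w.isMaximal
    have hpmax : (w.under (𝓞 K)).asIdeal.IsMaximal := (w.under (𝓞 K)).isMaximal
    have hlies : w.asIdeal.LiesOver (w.under (𝓞 K)).asIdeal := ⟨rfl⟩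
    have hrel := Ideal.relNorm_eq_pow_of_isMaximal w.asIdeal (w.under (𝓞 K)).asIdeal
    rw [hf, pow_one] at hrel
    have := hcN w hcop
    rw [hrel] at this
    exact this
  · -- boundedness of the `L`-series of the nontrivial characters
    intro χ hχ
    obtain ⟨a, ha⟩ : ∃ a : A, χ a ≠ 1 := by
      by_contra hcon
      push Not at hcon
      exact hχ (MonoidHom.ext fun a => hcon a)
    obtain ⟨I, hI0, hIm, hIa⟩ := hsurj a
    obtain ⟨C, hC⟩ := hRay (ψ χ)
      (fun J hJ => by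
        rw [hψ, idealChar_apply, if_neg]
        exact fun h => hJ h.2)
      (fun α hα0 hα => by
        have hne : Ideal.span {α} ≠ (⊥ : Ideal (𝓞 K)) := by
          rw [Ne, Ideal.span_singleton_eq_bot]; exact hα0
        have hcop : IsCoprime (Ideal.span {α}) m := by
          rw [Ideal.isCoprime_iff_exists]
          refine ⟨α, Ideal.mem_span_singleton_self α, -(α - 1), m.neg_mem hα, by ring⟩
        rw [hψ, idealChar_apply, if_pos ⟨hne, hcop⟩, hcP α hα0 hα, map_one, Units.val_one])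
      ⟨I, hI0, hIm, by
        rw [hψ, idealChar_apply, if_pos ⟨hI0, hIm⟩, hIa]
        intro h
        exact ha (Units.ext h)⟩
    have hd : (1 : ℝ) ≤ (Module.finrank ℚ K : ℝ) := by
      exact_mod_cast (Module.finrank_pos : 0 < Module.finrank ℚ K)
    have hd0 : (0 : ℝ) < (Module.finrank ℚ K : ℝ) := zero_lt_one.trans_le hd
    have hr0 : (0 : ℝ) ≤ 1 - 1 / (Module.finrank ℚ K : ℝ) := by
      rw [sub_nonneg, div_le_one hd0]; exact hd
    have hr1 : 1 - 1 / (Module.finrank ℚ K : ℝ) < 1 := by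
      have : 0 < 1 / (Module.finrank ℚ K : ℝ) := by positivity
      linarith
    refine ⟨2 * C / (1 - (1 - 1 / (Module.finrank ℚ K : ℝ))), fun s hs hs2 => ?_⟩
    exact norm_gLSeries_le (g := res (ψ χ)) (fun J => hψle χ J) hr0 hr1 hC hs hs2

end Fermat.Agent.CFT.Second
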