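import Fermat.Agent.CFT.Global.Second.SecondIdeal
import Fermat.Agent.CFT.Global.Second.RayCount

/-!
# The second inequality (analytic proof), ideal-theoretic form, unconditional

The ray class counting estimate `RayCount.exists_norm_sum_le` discharges the hypothesis
`RayBound K m` of `card_le_finrank_of_rayBound`.
-/

set_option autoImplicit false

open NumberField IsDedekindDomain nonZeroDivisors

namespace Fermat.Agent.CFT.Second

variable {K : Type*} [Field K] [NumberField K]

/-- The ray class counting estimate holds for every nonzero modulus. -/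
theorem rayBound_of_ne_bot {m : Ideal (𝓞 K)} (hm : m ≠ ⊥) : RayBound K m :=
  fun ψ h0 h1 hnt => RayCount.exists_norm_sum_le hm ψ h0 h1 hnt

variable {L : Type*} [Field L] [NumberField L] [Algebra K L]

/-- **The second inequality of class field theory**, ideal-theoretic form: let `K ⊆ L` be number
fields, `m ≠ ⊥` an ideal of `𝓞 K`, `A` a finite abelian group and `c : Ideal (𝓞 K) → A` a map which
is multiplicative on the nonzero ideals coprime to `m`, trivial on the principal ideals `(α)` with
`α ≡ 1 mod m`, trivial on the norms of the primes of `L` not above `m`, and surjective on the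
nonzero ideals coprime to `m`.  Then `|A| ≤ [L : K]`. -/
theorem card_le_finrank_of_ideal_map {m : Ideal (𝓞 K)} (hm : m ≠ ⊥)
    {A : Type*} [CommGroup A] [Finite A] (c : Ideal (𝓞 K) → A)
    (hc1 : c ⊤ = 1)
    (hcmul : ∀ I J : Ideal (𝓞 K), I ≠ ⊥ → J ≠ ⊥ → IsCoprime I m → IsCoprime J m →
      c (I * J) = c I * c J)
    (hcP : ∀ α : 𝓞 K, α ≠ 0 → α - 1 ∈ m → c (Ideal.span {α}) = 1)
    (hcN : ∀ w : HeightOneSpectrum (𝓞 L), IsCoprime (w.under (𝓞 K)).asIdeal m →
      c (Ideal.relNorm (𝓞 K) w.asIdeal) = 1)
    (hsurj : ∀ a : A, ∃ I : Ideal (𝓞 K), I ≠ ⊥ ∧ IsCoprime I m ∧ c I = a) :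
    Nat.card A ≤ Module.finrank K L :=
  card_le_finrank_of_rayBound hm (rayBound_of_ne_bot hm) c hc1 hcmul hcP hcN hsurj

end Fermat.Agent.CFT.Second
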