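import Fermat.Agent.CFT.Global.Second.IdeleNormPrime
import Fermat.Agent.CFT.Global.IdeleDict.DictIdealCount

/-!
# The second inequality for ideles: `[J_K : Kˣ · N J_L] ≤ p`

`L/K` a Galois extension of number fields of prime degree `p`, in the embedding model of ideles.
If, outside a finite set `T` of rational primes, the integral semi-local units of `K` are norms of
integral semi-local units of `L` (true when `T` contains the ramified primes), then the subgroup
`Kˣ · N_{L/K} J_L` of the idele group `J_K` has finite index `≤ p`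
(`index_principal_sup_norm_le`).  This is the analytic ("ray class counting") proof: no Kummer
theory and no roots of unity in `K` are needed.
-/

set_option autoImplicit false
set_option linter.unusedSectionVars false

namespace Fermat.Agent.CFT.Second

open NumberField IsDedekindDomain Fermat.Agent.CFT Fermat.Agent.CFT.IdeleDict
  Fermat.Agent.CFT.FirstIneq

variable (K L : Type) [Field K] [NumberField K] [Field L] [NumberField L] [Algebra K L]
  [IsGalois K L]

/-- Unit ideles outside `T` are norms, if the integral semi-local units outside `T` are norms of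
integral semi-local units. -/
theorem mem_ideleNormSubgroup_of_unitIdelesOutside (T : Finset Nat.Primes)
    (hUnr : ∀ q : Nat.Primes, q ∉ T → ∀ f ∈ semiLocalIntegral (q : ℕ) K,
      ∃ g ∈ semiLocalIntegral (q : ℕ) L,
        semiLocalMap (algebraMap K L) f = ∏ σ : L ≃ₐ[K] L, σ • g)
    (x : ideleGroup K) (hx : (x : IdeleProd K) ∈ unitIdelesOutside K (T : Set Nat.Primes)) :
    x ∈ ideleNormSubgroup K L := by
  classical
  have hloc : ∀ q : Nat.Primes, ∃ g : semiLocalUnits (q : ℕ) L, g ∈ semiLocalIntegral (q : ℕ) L ∧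
      semiLocalMap (algebraMap K L) ((x : IdeleProd K) q) = ∏ σ : L ≃ₐ[K] L, σ • g := by
    intro q
    by_cases hq : q ∈ T
    · refine ⟨1, one_mem _, ?_⟩
      rw [hx.2 q (Finset.mem_coe.2 hq), map_one]
      simp
    · obtain ⟨g, hg, h⟩ := hUnr q hq _ (hx.1 q (fun h => hq (Finset.mem_coe.1 h)))
      exact ⟨g, hg, h⟩
  choose g hg hgN using hloc
  have hgmem : (fun q => g q : IdeleProd L) ∈ ideleGroup L := by
    rw [mem_ideleGroup]
    exact Filter.Eventually.of_forall fun q => hg q
  refine mem_ideleNormSubgroup.2 ⟨⟨fun q => g q, hgmem⟩, ?_⟩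
  apply Subtype.ext
  funext q
  rw [idele_prod_smul_coe]
  exact (hgN q).symm

/-- **The second inequality of global class field theory for a Galois extension of prime degree**
(analytic proof): `Kˣ · N_{L/K} J_L` has finite index `≤ p` in `J_K`. -/
theorem index_principal_sup_norm_le {p : ℕ} [Fact p.Prime] (hp : Module.finrank K L = p)
    (T : Finset Nat.Primes)
    (hUnr : ∀ q : Nat.Primes, q ∉ T → ∀ f ∈ semiLocalIntegral (q : ℕ) K,
      ∃ g ∈ semiLocalIntegral (q : ℕ) L,
        semiLocalMap (algebraMap K L) f = ∏ σ : L ≃ₐ[K] L, σ • g) :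
    (principalSubgroup K ⊔ ideleNormSubgroup K L).index ≠ 0 ∧
      (principalSubgroup K ⊔ ideleNormSubgroup K L).index ≤ p := by
  classical
  have hp0 : p ≠ 0 := (Fact.out : p.Prime).ne_zero
  -- the precision
  set δ : ℝ := ∏ q ∈ T, ‖(p : PadicAlgCl (q : ℕ))‖ ^ p with hδ
  have hδ0 : 0 < δ := Finset.prod_pos fun q _ => pow_pos (PadicRoot.norm_natCast_pos hp0) p
  have hδle : ∀ q ∈ T, δ ≤ ‖(p : PadicAlgCl (q : ℕ))‖ ^ p := by
    intro q hq
    rw [hδ, ← Finset.mul_prod_erase T _ hq]
    apply mul_le_of_le_one_right (pow_nonneg (norm_nonneg _) p)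
    apply Finset.prod_le_one
    · intro i _
      exact pow_nonneg (norm_nonneg _) p
    · intro i _
      exact pow_le_one₀ (norm_nonneg _) (PadicRoot.norm_natCast_le_one p)
  have hmain := index_le_finrank_of_local (K := K) (L := L)
    (principalSubgroup K ⊔ ideleNormSubgroup K L) (p := p)
    (fun x => Subgroup.mem_sup_right (by
      have := pow_finrank_mem_ideleNormSubgroup L x
      rwa [hp] at this))
    T hδ0 le_sup_left
    (fun x hx => Subgroup.mem_sup_right
      (mem_ideleNormSubgroup_of_unitIdelesOutside K L T hUnr x hx))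
    (fun x h1 h2 => Subgroup.mem_sup_right
      (mem_ideleNormSubgroup_of_near_one L T x h1 (fun q hq τ => by
        rw [hp]
        exact (h2 q hq τ).trans_le (hδle q hq))))
    (fun w hw => ?_)
  · rwa [hp] at hmain
  · obtain ⟨q, x, hq, hxN, hx1, hx2⟩ := exists_mem_ideleNormSubgroup_relNorm (K := K) w
    have hwmax : w.asIdeal.IsMaximal := w.isMaximal
    have hpmax : (w.under (𝓞 K)).asIdeal.IsMaximal := (w.under (𝓞 K)).isMaximal
    have hlies : w.asIdeal.LiesOver (w.under (𝓞 K)).asIdeal := ⟨rfl⟩
    have hrel := Ideal.relNorm_eq_pow_of_isMaximal w.asIdeal (w.under (𝓞 K)).asIdeal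
    have hne : Ideal.relNorm (𝓞 K) w.asIdeal ≠ ⊥ := by
      rw [hrel]
      exact pow_ne_zero _ (w.under (𝓞 K)).ne_bot
    have hqT : q ∉ T := by
      intro hqT
      apply hw q hqT
      show (((q : ℕ) : ℕ) : 𝓞 K) ∈ Ideal.comap (algebraMap (𝓞 K) (𝓞 L)) w.asIdeal
      rw [Ideal.mem_comap, map_natCast]
      exact hq
    refine ⟨x, relIdeal_of_count hne hqT hx1 (fun P => ?_), Subgroup.mem_sup_right hxN⟩
    rw [hx2 P]

end Fermat.Agent.CFT.Second
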