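import Fermat.Agent.CFT.Global.Second.IdeleContent

/-!
# The second inequality of global class field theory in the idele model (analytic proof)

`K ⊆ L` number fields (abstract types in `Type`), `L / K` Galois with `|Gal(L/K)| = p` prime.
Let `N = normIdeles K L ≤ J_K` be the subgroup of norms from `J_L` and `S` a finite set of rational
primes such that the integral semi-local units of `K` at `q ∉ S` are norms of integral semi-local
units of `L` (`hUnr`; true when no prime above `q` ramifies in `L`).  Then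

  `(principalSubgroup K ⊔ normIdeles K L).index ≠ 0 ∧ (principalSubgroup K ⊔ normIdeles K L).index ≤ p`

(`index_principal_sup_normIdeles`).  The proof instantiates the abstract translation
`index_ne_zero_and_le_finrank_of_rel_prime` with the modulus `m = (p ^ (p + 1) ∏_{q ∈ T} q)`,
`T = S ∪ {p}`, and the relation `Rel x I`: "`x` is trivial on `T` and `ord_P x = v_P(I)` for all `P`":

* `rel_prime`: `P`-component of a uniformizer;
* `rel_div_mem`: everywhere integral ideles trivial on `T` are norms (`hUnr`);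
* `rel_principal`: for `α ≡ 1 mod m` the `T`-part of the principal idele of `α` is close to `1`,
  hence a `p`-th power (`PadicRoot`), hence a norm;
* `rel_norm`: for a prime `w` of `L` over `q ∉ T` choose `ϖ ∈ w \ w²` prime to the other primes
  above `q`; the `q`-component of the principal idele of `N_{L/K} ϖ` is a norm of content
  `N_{L/K} w`;
* `mem_closure`: weak approximation.
-/

set_option autoImplicit false
set_option linter.unusedSectionVars false

open scoped NumberField nonZeroDivisors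

noncomputable section

namespace Fermat.Agent.CFT.SecondModel

open Fermat.Agent.CFT Fermat.Agent.CFT.IdeleDict NumberField IsDedekindDomain

/-! ### Two ideal-theoretic lemmas -/

/-- In a Dedekind domain: an element of `w \ w²` avoiding finitely many other primes. -/
theorem exists_mem_not_mem_sq {R : Type*} [CommRing R] [IsDedekindDomain R]
    (w : HeightOneSpectrum R) (W : Finset (HeightOneSpectrum R)) :
    ∃ ϖ : R, ϖ ∈ w.asIdeal ∧ ϖ ∉ w.asIdeal ^ 2 ∧ ∀ w' ∈ W, w' ≠ w → ϖ ∉ w'.asIdeal := by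
  classical
  obtain ⟨π, hπ⟩ := w.intValuation_exists_uniformizer
  have hπ1 : π ∈ w.asIdeal := by
    rw [← w.intValuation_lt_one_iff_mem, hπ, ← WithZero.exp_zero, WithZero.exp_lt_exp]
    norm_num
  have hπ2 : π ∉ w.asIdeal ^ 2 := by
    rw [← w.intValuation_le_pow_iff_mem, hπ, WithZero.exp_le_exp]
    norm_num
  obtain ⟨y, hy⟩ := IsDedekindDomain.exists_forall_sub_mem_ideal (s := insert w W)
    (fun w' : HeightOneSpectrum R => w'.asIdeal) (fun w' => if w' = w then 2 else 1)
    (fun w' _ => w'.prime)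
    (fun w₁ _ w₂ _ h12 h => h12 (HeightOneSpectrum.ext h))
    (fun w' => if (w' : HeightOneSpectrum R) = w then π else 1)
  have hw := hy w (Finset.mem_insert_self w W)
  simp only [if_true] at hw
  have hsq : w.asIdeal ^ 2 ≤ w.asIdeal := Ideal.pow_le_self (by norm_num)
  refine ⟨y, ?_, ?_, ?_⟩
  · have : y = (y - π) + π := by ring
    rw [this]
    exact w.asIdeal.add_mem (hsq hw) hπ1
  · intro h
    apply hπ2
    have : π = y - (y - π) := by ring
    rw [this]
    exact (w.asIdeal ^ 2).sub_mem h hw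
  · intro w' hw' hne h
    have h1 := hy w' (Finset.mem_insert_of_mem hw')
    simp only [if_neg hne, pow_one] at h1
    have : (1 : R) = y - (y - 1) := by ring
    exact w'.isPrime.ne_top ((Ideal.eq_top_iff_one _).mpr (this ▸ w'.asIdeal.sub_mem h h1))

section RelNormLemmas

variable {K L : Type*} [Field K] [NumberField K] [Field L] [NumberField L] [Algebra K L]

theorem relNorm_heightOneSpectrum (w : HeightOneSpectrum (𝓞 L)) :
    Ideal.relNorm (𝓞 K) w.asIdeal =
      (w.under (𝓞 K)).asIdeal ^ (w.asIdeal.inertiaDeg (𝓞 K)) := by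
  have hPmax : w.asIdeal.IsMaximal := w.isMaximal
  have hpmax : (w.under (𝓞 K)).asIdeal.IsMaximal := (w.under (𝓞 K)).isMaximal
  have hlies : w.asIdeal.LiesOver (w.under (𝓞 K)).asIdeal := ⟨rfl⟩
  exact Ideal.relNorm_eq_pow_of_isMaximal w.asIdeal (w.under (𝓞 K)).asIdeal

/-- A prime dividing the relative norm of an ideal lies under a prime dividing the ideal. -/
theorem exists_dvd_of_dvd_relNorm (P : HeightOneSpectrum (𝓞 K)) (𝔟 : Ideal (𝓞 L)) (h𝔟 : 𝔟 ≠ ⊥)
    (h : P.asIdeal ∣ Ideal.relNorm (𝓞 K) 𝔟) :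
    ∃ w' : HeightOneSpectrum (𝓞 L), w'.asIdeal ∣ 𝔟 ∧ w'.under (𝓞 K) = P := by
  revert h𝔟 h
  refine UniqueFactorizationMonoid.induction_on_prime
    (P := fun 𝔟 : Ideal (𝓞 L) => 𝔟 ≠ ⊥ → P.asIdeal ∣ Ideal.relNorm (𝓞 K) 𝔟 →
      ∃ w' : HeightOneSpectrum (𝓞 L), w'.asIdeal ∣ 𝔟 ∧ w'.under (𝓞 K) = P) 𝔟 ?_ ?_ ?_
  · intro h
    exact absurd rfl h
  · intro I hu _ hdvd
    rw [Ideal.isUnit_iff] at hu
    rw [hu, Ideal.relNorm_top] at hdvd
    exact absurd (top_le_iff.mp (Ideal.le_of_dvd hdvd)) P.isPrime.ne_top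
  · intro a p ha hp ih _ hdvd
    have hpprime : p.IsPrime := Ideal.isPrime_of_prime hp
    set w₀ : HeightOneSpectrum (𝓞 L) := ⟨p, hpprime, hp.ne_zero⟩ with hw₀
    rw [map_mul] at hdvd
    rcases P.prime.dvd_or_dvd hdvd with h1 | h1
    · refine ⟨w₀, Dvd.intro _ rfl, ?_⟩
      have h2 : Ideal.relNorm (𝓞 K) p = _ := relNorm_heightOneSpectrum (K := K) w₀
      rw [h2] at h1
      have h3 := P.prime.dvd_of_dvd_pow h1
      have h4 : (w₀.under (𝓞 K)).asIdeal ≤ P.asIdeal := Ideal.le_of_dvd h3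
      exact HeightOneSpectrum.ext
        ((w₀.under (𝓞 K)).isMaximal.eq_of_le P.isPrime.ne_top h4)
    · obtain ⟨w', hw', hw'P⟩ := ih ha h1
      exact ⟨w', Dvd.dvd.mul_left hw' p, hw'P⟩

end RelNormLemmas

variable {K : Type} [Field K] [NumberField K]

/-! ### The relation between ideles and ideals -/

section Rel

variable (pp : Nat.Primes) (T : Finset Nat.Primes)

/-- `x` is trivial on `T` and has content `I` (`I` nonzero and prime to the modulus). -/
def Rel (x : ideleGroup K) (I : Ideal (𝓞 K)) : Prop :=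
  I ≠ ⊥ ∧ IsCoprime I (modulus K pp T) ∧ (∀ q ∈ T, (x : IdeleProd K) q = 1) ∧
    ∀ P : HeightOneSpectrum (𝓞 K), ideleOrd (x : IdeleProd K) P = cnt P I

variable {pp T}

theorem isCoprime_top_modulus : IsCoprime (⊤ : Ideal (𝓞 K)) (modulus K pp T) := by
  rw [Ideal.isCoprime_iff_exists]
  exact ⟨1, Submodule.mem_top, 0, (modulus K pp T).zero_mem, add_zero 1⟩

theorem rel_one : Rel pp T (1 : ideleGroup K) ⊤ :=
  ⟨top_ne_bot, isCoprime_top_modulus, fun _ _ => rfl, fun P => by
    rw [cnt_top]; exact ideleOrd_one P⟩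

theorem rel_mul {x y : ideleGroup K} {I I' : Ideal (𝓞 K)} (hx : Rel pp T x I)
    (hy : Rel pp T y I') : Rel pp T (x * y) (I * I') := by
  obtain ⟨h1, h2, h3, h4⟩ := hx
  obtain ⟨k1, k2, k3, k4⟩ := hy
  refine ⟨mul_ne_zero h1 k1, IsCoprime.mul_left h2 k2, fun q hq => ?_, fun P => ?_⟩
  · show (x : IdeleProd K) q * (y : IdeleProd K) q = 1
    rw [h3 q hq, k3 q hq, one_mul]
  · rw [cnt_mul P h1 k1, ← h4, ← k4]
    exact ideleOrd_mul _ _ P

/-- Every prime of `K` has a uniformizer in `Kˣ`. -/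
theorem exists_ordAt_eq_one (P : HeightOneSpectrum (𝓞 K)) : ∃ a : Kˣ, ordAt P a = 1 := by
  obtain ⟨π, hπ⟩ := P.valuation_exists_uniformizer K
  have hπ0 : π ≠ 0 := by
    rintro rfl
    rw [map_zero] at hπ
    exact WithZero.exp_ne_zero.symm hπ
  refine ⟨Units.mk0 π hπ0, ?_⟩
  have h := valuation_eq_exp_neg_ordAt P (Units.mk0 π hπ0)
  rw [Units.val_mk0, hπ, WithZero.exp_inj, neg_inj] at h
  exact h.symm

theorem rel_prime (P : HeightOneSpectrum (𝓞 K)) (hP : IsCoprime P.asIdeal (modulus K pp T)) :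
    ∃ x : ideleGroup K, Rel pp T x P.asIdeal := by
  classical
  obtain ⟨a, ha⟩ := exists_ordAt_eq_one P
  refine ⟨⟨compAt P a, compAt_mem_ideleGroup P a⟩, P.ne_bot, hP, fun q hq => ?_, fun P' => ?_⟩
  · apply compAt_apply_eq_one
    intro τ h
    refine not_isCoprime_of_mem pp T hq ?_ hP
    rw [← h]
    exact natCast_mem_primeOf τ
  · show ideleOrd (compAt P a) P' = _
    rw [ideleOrd_compAt, ha, cnt_prime]
    by_cases h : P' = P
    · rw [if_pos h, if_pos h.symm]
    · rw [if_neg h, if_neg (Ne.symm h)]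

variable {L : Type} [Field L] [NumberField L] [Algebra K L]

/-- Two ideles with the same content which are trivial on `T` differ by a norm. -/
theorem rel_div_mem
    (hUnr : ∀ q : Nat.Primes, q ∉ T → ∀ f : semiLocalUnits (q : ℕ) K,
      f ∈ semiLocalIntegral (q : ℕ) K → ∃ g : semiLocalUnits (q : ℕ) L,
        g ∈ semiLocalIntegral (q : ℕ) L ∧
          semiLocalMap (algebraMap K L) f = ∏ σ : L ≃ₐ[K] L, σ • g)
    {x y : ideleGroup K} {I : Ideal (𝓞 K)} (hx : Rel pp T x I) (hy : Rel pp T y I) :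
    x / y ∈ normIdeles K L := by
  obtain ⟨_, _, h3, h4⟩ := hx
  obtain ⟨_, _, k3, k4⟩ := hy
  refine mem_normIdeles_of_integral T hUnr (fun q hq => ?_) (fun q => ?_)
  · show (x : IdeleProd K) q / (y : IdeleProd K) q = 1
    rw [h3 q hq, k3 q hq, div_one]
  · rw [mem_semiLocalIntegral_iff_ideleOrd]
    intro τ
    show ideleOrd ((x : IdeleProd K) / (y : IdeleProd K)) _ = 0
    rw [ideleOrd_div, h4, k4, sub_self]

end Rel

/-! ### Closeness to `1` modulo the modulus -/

section NearOne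

variable (pp : Nat.Primes) (T : Finset Nat.Primes)

theorem norm_modInt_lt {q : Nat.Primes} (hq : q ∈ T) :
    ‖((modInt pp T : ℕ) : ℚ_[(q : ℕ)])‖ < ‖(((pp : ℕ) : ℕ) : ℚ_[(q : ℕ)])‖ ^ (pp : ℕ) := by
  by_cases h : q = pp
  · subst h
    have h1 : ‖((modInt q T : ℕ) : ℚ_[(q : ℕ)])‖ ≤ ((q : ℕ) : ℝ) ^ (-(((q : ℕ) + 1 : ℕ) : ℤ)) := by
      have := (Padic.norm_int_le_pow_iff_dvd (p := (q : ℕ)) ((modInt q T : ℕ) : ℤ)
        ((q : ℕ) + 1)).mpr (by exact_mod_cast pow_dvd_modInt q T)
      simpa using this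
    rw [Padic.norm_p, inv_pow, ← zpow_natCast, ← zpow_neg]
    refine lt_of_le_of_lt h1 ?_
    have hq1 : (1 : ℝ) < ((q : ℕ) : ℝ) := by exact_mod_cast q.2.one_lt
    exact zpow_lt_zpow_right₀ hq1 (by push_cast; linarith)
  · have hne : (q : ℕ) ≠ (pp : ℕ) := fun h' => h (Subtype.ext h')
    have h1 : ‖(((pp : ℕ) : ℕ) : ℚ_[(q : ℕ)])‖ = 1 := by
      rw [Padic.norm_natCast_eq_one_iff]
      exact (Nat.coprime_primes q.2 pp.2).mpr hne
    rw [h1, one_pow, Padic.norm_natCast_lt_one_iff]
    exact dvd_modInt_of_mem pp T hq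

/-- Elements `≡ 1` modulo the modulus are close to `1` at the primes of `T`. -/
theorem norm_emb_sub_one_lt {α : 𝓞 K} (hα : α - 1 ∈ modulus K pp T) {q : Nat.Primes} (hq : q ∈ T)
    (τ : LocalEmb (q : ℕ) K) :
    ‖τ (α : K) - 1‖ < ‖(((pp : ℕ) : ℕ) : PadicAlgCl (q : ℕ))‖ ^ (pp : ℕ) := by
  rw [modulus, Ideal.mem_span_singleton'] at hα
  obtain ⟨β, hβ⟩ := hα
  have h1 : τ (α : K) - 1 = τ (β : K) * τ ((modInt pp T : ℕ) : K) := by
    rw [← map_one τ, ← map_sub, ← map_mul]
    congr 1
    have := congrArg (fun z : 𝓞 K => (z : K)) hβ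
    simpa using this.symm
  rw [h1, norm_mul, norm_emb_natCast, norm_natCast_padicAlgCl]
  calc ‖τ (β : K)‖ * ‖((modInt pp T : ℕ) : ℚ_[(q : ℕ)])‖
      ≤ 1 * ‖((modInt pp T : ℕ) : ℚ_[(q : ℕ)])‖ :=
        mul_le_mul_of_nonneg_right (norm_emb_le_one τ β) (norm_nonneg _)
    _ = ‖((modInt pp T : ℕ) : ℚ_[(q : ℕ)])‖ := one_mul _
    _ < _ := norm_modInt_lt pp T hq

end NearOne

/-! ### Principal ideals -/

section Principal

variable {pp : Nat.Primes} {T : Finset Nat.Primes}

open Classical in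
theorem ideleOrd_restrictTo (T' : Finset Nat.Primes) (z : IdeleProd K) {q : Nat.Primes}
    (τ : LocalEmb (q : ℕ) K) :
    ideleOrd (restrictTo T' z) (primeOfH τ) = if q ∈ T' then ideleOrd z (primeOfH τ) else 0 := by
  rw [ideleOrd_primeOfH, ideleOrd_primeOfH]
  split_ifs with h
  · rw [restrictTo_apply_of_mem z h]
  · rw [restrictTo_apply_of_notMem z h, semiLocalOrd_one]

theorem principalIdele_mem_principalSubgroup (a : Kˣ) :
    (⟨principalIdele K a, principalIdele_mem_ideleGroup a⟩ : ideleGroup K) ∈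
      principalSubgroup K := by
  rw [principalSubgroup, Subgroup.mem_subgroupOf]
  exact ⟨a, rfl⟩

variable {L : Type} [Field L] [NumberField L] [Algebra K L]

theorem rel_principal (hcard : Nat.card (L ≃ₐ[K] L) = (pp : ℕ)) (α : 𝓞 K) (hα0 : α ≠ 0)
    (hα : α - 1 ∈ modulus K pp T) :
    ∃ x : ideleGroup K, Rel pp T x (Ideal.span {α}) ∧
      x ∈ principalSubgroup K ⊔ normIdeles K L := by
  classical
  have hαK : (α : K) ≠ 0 := by
    intro h
    exact hα0 (RingOfIntegers.coe_eq_zero_iff.mp h)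
  set a : Kˣ := Units.mk0 (α : K) hαK with ha
  set x₁ : ideleGroup K := ⟨principalIdele K a, principalIdele_mem_ideleGroup a⟩ with hx₁
  set x₂ : ideleGroup K := ⟨restrictTo T (principalIdele K a), restrictTo_mem_ideleGroup _ _⟩
    with hx₂
  have hne : Ideal.span {α} ≠ (⊥ : Ideal (𝓞 K)) := by
    rw [Ne, Ideal.span_singleton_eq_bot]; exact hα0
  have hcop : IsCoprime (Ideal.span {α}) (modulus K pp T) := by
    rw [Ideal.isCoprime_iff_exists]
    exact ⟨α, Ideal.mem_span_singleton_self α, -(α - 1), (modulus K pp T).neg_mem hα, by ring⟩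
  refine ⟨x₁ / x₂, ⟨hne, hcop, fun q hq => ?_, fun P => ?_⟩, ?_⟩
  · show principalIdele K a q / restrictTo T (principalIdele K a) q = 1
    rw [restrictTo_apply_of_mem _ hq, div_self']
  · show ideleOrd (principalIdele K a / restrictTo T (principalIdele K a)) P = _
    obtain ⟨q, τ, rfl⟩ := exists_emb P
    rw [ideleOrd_div, ideleOrd_restrictTo, ideleOrd_principal]
    by_cases hq : q ∈ T
    · rw [if_pos hq, sub_self]
      symm
      apply cnt_eq_zero_of_not_dvd _ hne
      exact not_dvd_of_isCoprime pp T hcop hq (natCast_mem_primeOf τ)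
    · rw [if_neg hq, sub_zero]
      exact (cnt_span_singleton _ hα0 a rfl).symm
  · have h1 : x₁ ∈ principalSubgroup K ⊔ normIdeles K L :=
      Subgroup.mem_sup_left (principalIdele_mem_principalSubgroup a)
    have h2 : x₂ ∈ principalSubgroup K ⊔ normIdeles K L := by
      refine Subgroup.mem_sup_right
        (mem_normIdeles_of_near_one pp.2.ne_zero hcard T (fun q hq => ?_) (fun q hq τ => ?_))
      · exact restrictTo_apply_of_notMem _ hq
      · show ‖((((restrictTo T (principalIdele K a)) q : semiLocalUnits (q : ℕ) K) :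
          LocalEmb (q : ℕ) K → (PadicAlgCl (q : ℕ))ˣ) τ : PadicAlgCl (q : ℕ)) - 1‖ < _
        rw [restrictTo_apply_of_mem _ hq, principalIdele_apply, semiLocalDiag_apply]
        exact norm_emb_sub_one_lt pp T hα hq τ
    exact div_mem h1 h2

end Principal

/-! ### Norms of primes -/

section RelNorm

variable {pp : Nat.Primes} {T : Finset Nat.Primes}
variable {L : Type} [Field L] [NumberField L] [Algebra K L]

theorem rel_norm [IsGalois K L] (w : HeightOneSpectrum (𝓞 L))
    (hw : IsCoprime (w.under (𝓞 K)).asIdeal (modulus K pp T)) :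
    ∃ x : ideleGroup K, Rel pp T x (Ideal.relNorm (𝓞 K) w.asIdeal) ∧
      x ∈ principalSubgroup K ⊔ normIdeles K L := by
  classical
  set v := w.under (𝓞 K) with hv
  obtain ⟨q, hqv⟩ := exists_prime_mem v
  have hqT : q ∉ T := fun h => not_isCoprime_of_mem pp T h hqv hw
  have hWfin : (primesOver L ({q} : Set Nat.Primes)).Finite :=
    primesOver_finite (Set.finite_singleton q)
  obtain ⟨ϖ, hϖ1, hϖ2, hϖ3⟩ := exists_mem_not_mem_sq w hWfin.toFinset
  have hϖ0 : ϖ ≠ 0 := by
    rintro rfl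
    exact hϖ2 (Ideal.zero_mem _)
  have hϖL : (ϖ : L) ≠ 0 := fun h => hϖ0 (RingOfIntegers.coe_eq_zero_iff.mp h)
  set b : Lˣ := Units.mk0 (ϖ : L) hϖL with hb
  set a : Kˣ := Units.map (Algebra.norm K : L →* K) b with ha
  set α : 𝓞 K := Algebra.intNorm (𝓞 K) (𝓞 L) ϖ with hα
  have hαa : (a : K) = (α : K) :=
    (Algebra.algebraMap_intNorm (A := 𝓞 K) (K := K) (L := L) (B := 𝓞 L) ϖ).symm
  have hα0 : α ≠ 0 := by
    intro h
    have h1 := a.ne_zero
    rw [hαa, h] at h1
    exact h1 rfl
  have hrel := relNorm_heightOneSpectrum (K := K) w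
  rw [← hv] at hrel
  have hspan : (Ideal.span {ϖ} : Ideal (𝓞 L)) ≠ ⊥ := by
    rw [Ne, Ideal.span_singleton_eq_bot]; exact hϖ0
  refine ⟨⟨restrictTo {q} (principalIdele K a), restrictTo_mem_ideleGroup _ _⟩, ⟨?_, ?_, ?_, ?_⟩,
    Subgroup.mem_sup_right (restrictTo_principal_norm_mem_normIdeles b q)⟩
  · rw [hrel]
    exact pow_ne_zero _ v.ne_bot
  · rw [hrel]
    exact IsCoprime.pow_left hw
  · intro q' hq'
    have : q' ∉ ({q} : Finset Nat.Primes) := by
      rw [Finset.mem_singleton]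
      rintro rfl
      exact hqT hq'
    exact restrictTo_apply_of_notMem _ this
  · intro P
    show ideleOrd (restrictTo {q} (principalIdele K a)) P = _
    obtain ⟨q', τ, rfl⟩ := exists_emb P
    rw [ideleOrd_restrictTo, ideleOrd_principal, hrel, cnt_pow, cnt_prime]
    by_cases hq' : q' ∈ ({q} : Finset Nat.Primes)
    · rw [if_pos hq']
      have hq'' : q = q' := (Finset.mem_singleton.mp hq').symm
      subst hq''
      set P := primeOfH τ with hP
      rw [← cnt_span_singleton P hα0 a hαa, hα, ← Ideal.relNorm_singleton]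
      obtain ⟨𝔟, h𝔟⟩ : w.asIdeal ∣ Ideal.span {ϖ} := Ideal.dvd_span_singleton.mpr hϖ1
      have h𝔟0 : 𝔟 ≠ ⊥ := by
        rintro rfl
        rw [Ideal.mul_bot] at h𝔟
        exact hspan h𝔟
      have hN𝔟 : Ideal.relNorm (𝓞 K) 𝔟 ≠ ⊥ := by
        rw [Ne, Ideal.relNorm_eq_bot_iff]; exact h𝔟0
      rw [h𝔟, map_mul, hrel, cnt_mul P (pow_ne_zero _ v.ne_bot) hN𝔟, cnt_pow, cnt_prime]
      have hzero : cnt P (Ideal.relNorm (𝓞 K) 𝔟) = 0 := by
        apply cnt_eq_zero_of_not_dvd P hN𝔟
        intro hdvd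
        obtain ⟨w', hw'𝔟, hw'P⟩ := exists_dvd_of_dvd_relNorm P 𝔟 h𝔟0 hdvd
        by_cases hww : w' = w
        · subst hww
          apply hϖ2
          rw [← Ideal.dvd_span_singleton, h𝔟, sq]
          exact mul_dvd_mul_left _ hw'𝔟
        · have hmem : w' ∈ hWfin.toFinset := by
            rw [Set.Finite.mem_toFinset]
            refine ⟨q, Set.mem_singleton q, ?_⟩
            have h1 : ((q : ℕ) : 𝓞 K) ∈ (w'.under (𝓞 K)).asIdeal := by
              rw [hw'P]; exact natCast_mem_primeOf τ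
            have h2 : algebraMap (𝓞 K) (𝓞 L) ((q : ℕ) : 𝓞 K) ∈ w'.asIdeal := h1
            rwa [map_natCast] at h2
          apply hϖ3 w' hmem hww
          rw [← Ideal.dvd_span_singleton, h𝔟]
          exact Dvd.dvd.mul_left hw'𝔟 _
      rw [hzero, add_zero]
    · rw [if_neg hq']
      have hne : ¬ v = primeOfH τ := by
        intro h
        apply hq'
        rw [Finset.mem_singleton]
        exact prime_unique (primeOfH τ) (natCast_mem_primeOf τ) (h ▸ hqv)
      rw [if_neg hne, mul_zero]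

end RelNorm

/-! ### Generation -/

section Gen

variable {pp : Nat.Primes} {T : Finset Nat.Primes}

theorem ideleOrd_zpow (x : IdeleProd K) (n : ℤ) (P : HeightOneSpectrum (𝓞 K)) :
    ideleOrd (x ^ n) P = n * ideleOrd x P := by
  have h := map_zpow (ideleOrdHom P) x n
  have h2 := congrArg Multiplicative.toAdd h
  simpa [ideleOrdHom] using h2

theorem ideleOrd_prod_zpow {ι : Type*} (s : Finset ι) (f : ι → ideleGroup K) (n : ι → ℤ)
    (P : HeightOneSpectrum (𝓞 K)) :
    ideleOrd ((∏ i ∈ s, f i ^ n i : ideleGroup K) : IdeleProd K) P =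
      ∑ i ∈ s, n i * ideleOrd (f i : IdeleProd K) P := by
  classical
  induction s using Finset.induction_on with
  | empty => simp [ideleOrd_one]
  | insert a s ha ih =>
    rw [Finset.prod_insert ha, Finset.sum_insert ha, ← ih]
    show ideleOrd (((f a ^ n a : ideleGroup K) : IdeleProd K) * _) P = _
    rw [ideleOrd_mul]
    congr 1
    exact ideleOrd_zpow _ _ _

theorem coe_prod_zpow_apply {ι : Type*} (s : Finset ι) (f : ι → ideleGroup K) (n : ι → ℤ)
    (q : Nat.Primes) (h : ∀ i ∈ s, (f i : IdeleProd K) q = 1) :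
    ((∏ i ∈ s, f i ^ n i : ideleGroup K) : IdeleProd K) q = 1 := by
  classical
  induction s using Finset.induction_on with
  | empty => rfl
  | insert a s ha ih =>
    rw [Finset.prod_insert ha]
    show ((f a : IdeleProd K) q) ^ n a * _ = 1
    rw [h a (Finset.mem_insert_self a s), one_zpow, one_mul]
    exact ih fun i hi => h i (Finset.mem_insert_of_mem hi)

/-- A lower bound for the radius of `p`-th powers, uniform in `q`. -/
theorem inv_pow_le_norm_pow (q : Nat.Primes) :
    (((pp : ℕ) : ℝ)⁻¹) ^ (pp : ℕ) ≤ ‖(((pp : ℕ) : ℕ) : PadicAlgCl (q : ℕ))‖ ^ (pp : ℕ) := by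
  have hpos : (0 : ℝ) < ((pp : ℕ) : ℝ) := by exact_mod_cast pp.2.pos
  refine pow_le_pow_left₀ (inv_nonneg.mpr hpos.le) ?_ _
  rw [norm_natCast_padicAlgCl]
  by_cases h : q = pp
  · subst h
    rw [Padic.norm_p]
  · have hne : (q : ℕ) ≠ (pp : ℕ) := fun h' => h (Subtype.ext h')
    have h1 : ‖(((pp : ℕ) : ℕ) : ℚ_[(q : ℕ)])‖ = 1 := by
      rw [Padic.norm_natCast_eq_one_iff]
      exact (Nat.coprime_primes q.2 pp.2).mpr hne
    rw [h1]
    exact inv_le_one_of_one_le₀ (by exact_mod_cast pp.2.one_lt.le)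

variable {L : Type} [Field L] [NumberField L] [Algebra K L]

theorem mem_closure (hcard : Nat.card (L ≃ₐ[K] L) = (pp : ℕ)) (hpT : pp ∈ T)
    (hUnr : ∀ q : Nat.Primes, q ∉ T → ∀ f : semiLocalUnits (q : ℕ) K,
      f ∈ semiLocalIntegral (q : ℕ) K → ∃ g : semiLocalUnits (q : ℕ) L,
        g ∈ semiLocalIntegral (q : ℕ) L ∧
          semiLocalMap (algebraMap K L) f = ∏ σ : L ≃ₐ[K] L, σ • g)
    (x : ideleGroup K) :
    x ∈ Subgroup.closure
      (((principalSubgroup K ⊔ normIdeles K L : Subgroup (ideleGroup K)) : Set (ideleGroup K)) ∪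
        {y | ∃ I, Rel pp T y I}) := by
  classical
  set C := Subgroup.closure
      (((principalSubgroup K ⊔ normIdeles K L : Subgroup (ideleGroup K)) : Set (ideleGroup K)) ∪
        {y | ∃ I, Rel pp T y I}) with hC
  have hPN : ∀ y : ideleGroup K, y ∈ principalSubgroup K ⊔ normIdeles K L → y ∈ C := fun y hy =>
    Subgroup.subset_closure (Or.inl hy)
  have hY : ∀ (y : ideleGroup K) (I : Ideal (𝓞 K)), Rel pp T y I → y ∈ C := fun y I hy =>
    Subgroup.subset_closure (Or.inr ⟨I, hy⟩)
  have hε : (0 : ℝ) < (((pp : ℕ) : ℝ)⁻¹) ^ (pp : ℕ) :=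
    pow_pos (inv_pos.mpr (by exact_mod_cast pp.2.pos)) _
  obtain ⟨a, ha⟩ := exists_unit_norm_div_sub_one_lt T (x : IdeleProd K) hε
  set x₁ : ideleGroup K := ⟨principalIdele K a, principalIdele_mem_ideleGroup a⟩ with hx₁
  set z : ideleGroup K := x₁ / x with hz
  set t : ideleGroup K := ⟨restrictTo T (z : IdeleProd K), restrictTo_mem_ideleGroup _ _⟩ with ht
  have htN : t ∈ normIdeles K L := by
    refine mem_normIdeles_of_near_one pp.2.ne_zero hcard T (fun q hq => ?_) (fun q hq τ => ?_)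
    · exact restrictTo_apply_of_notMem _ hq
    · refine lt_of_lt_of_le ?_ (inv_pow_le_norm_pow q)
      show ‖((((restrictTo T (z : IdeleProd K)) q : semiLocalUnits (q : ℕ) K) :
          LocalEmb (q : ℕ) K → (PadicAlgCl (q : ℕ))ˣ) τ : PadicAlgCl (q : ℕ)) - 1‖ < _
      rw [restrictTo_apply_of_mem _ hq]
      have := ha q hq τ
      convert this using 3
      show ((((principalIdele K a q / (x : IdeleProd K) q : semiLocalUnits (q : ℕ) K)) :
          LocalEmb (q : ℕ) K → (PadicAlgCl (q : ℕ))ˣ) τ : PadicAlgCl (q : ℕ)) = _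
      rw [principalIdele_apply]
      simp [Units.val_div_eq_div_val]
  set z' : ideleGroup K := z / t with hz'
  have hz'T : ∀ q ∈ T, (z' : IdeleProd K) q = 1 := by
    intro q hq
    show (z : IdeleProd K) q / restrictTo T (z : IdeleProd K) q = 1
    rw [restrictTo_apply_of_mem _ hq, div_self']
  have hfin := finite_setOf_ideleOrd_ne_zero z'.2
  set s := hfin.toFinset with hs
  have hcop : ∀ P ∈ s, IsCoprime P.asIdeal (modulus K pp T) := by
    intro P hP
    rw [hs, Set.Finite.mem_toFinset, Set.mem_ofPred_eq] at hP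
    obtain ⟨q, τ, rfl⟩ := exists_emb P
    have hq : q ∉ T := by
      intro hq
      apply hP
      rw [ideleOrd_primeOfH, hz'T q hq, semiLocalOrd_one]
    exact isCoprime_of_notMem pp T hpT hq (natCast_mem_primeOf τ)
  let u : HeightOneSpectrum (𝓞 K) → ideleGroup K := fun P =>
    if h : IsCoprime P.asIdeal (modulus K pp T) then (rel_prime P h).choose else 1
  have hu : ∀ P ∈ s, Rel pp T (u P) P.asIdeal := by
    intro P hP
    have h := hcop P hP
    simp only [u, dif_pos h]
    exact (rel_prime P h).choose_spec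
  set n : HeightOneSpectrum (𝓞 K) → ℤ := fun P => ideleOrd (z' : IdeleProd K) P with hn
  set U : ideleGroup K := ∏ P ∈ s, u P ^ n P with hU
  have hUC : U ∈ C := Subgroup.prod_mem _ fun P hP => Subgroup.zpow_mem _ (hY _ _ (hu P hP)) _
  set z'' : ideleGroup K := z' / U with hz''
  have hz''N : z'' ∈ normIdeles K L := by
    refine mem_normIdeles_of_integral T hUnr (fun q hq => ?_) (fun q => ?_)
    · show (z' : IdeleProd K) q / (U : IdeleProd K) q = 1
      rw [hz'T q hq, coe_prod_zpow_apply s u n q fun P hP => (hu P hP).2.2.1 q hq, div_one]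
    · rw [mem_semiLocalIntegral_iff_ideleOrd]
      intro τ
      show ideleOrd ((z' : IdeleProd K) / (U : IdeleProd K)) _ = 0
      rw [ideleOrd_div, ideleOrd_prod_zpow]
      have hsum : ∑ P ∈ s, n P * ideleOrd (u P : IdeleProd K) (primeOfH τ) =
          ∑ P ∈ s, if P = primeOfH τ then n P else 0 := by
        refine Finset.sum_congr rfl fun P hP => ?_
        rw [(hu P hP).2.2.2, cnt_prime]
        split_ifs <;> simp
      rw [hsum, Finset.sum_ite_eq' s (primeOfH τ) n]
      by_cases hmem : primeOfH τ ∈ s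
      · rw [if_pos hmem, sub_self]
      · rw [if_neg hmem, sub_zero]
        rw [hs, Set.Finite.mem_toFinset, Set.mem_ofPred_eq, not_not] at hmem
        exact hmem
  have hx : x = x₁ / (t * (U * z'')) := by
    rw [hz'', mul_div_cancel, hz', mul_div_cancel, hz, div_div_cancel]
  rw [hx]
  refine Subgroup.div_mem _ (hPN _ (Subgroup.mem_sup_left (principalIdele_mem_principalSubgroup a)))
    (Subgroup.mul_mem _ (hPN _ (Subgroup.mem_sup_right htN))
      (Subgroup.mul_mem _ hUC (hPN _ (Subgroup.mem_sup_right hz''N))))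

end Gen

/-! ### The second inequality -/

section Main

variable {L : Type} [Field L] [NumberField L] [Algebra K L]

/-- **The second inequality of global class field theory** for a Galois extension `L / K` of
number fields of prime degree `p`, in the idele model: `[J_K : Kˣ · N J_L] ≤ p` (and the index is
finite).  `hUnr`: outside the finite set `S` of rational primes the integral semi-local units of
`K` are norms of integral semi-local units of `L`. -/
theorem index_principal_sup_normIdeles [IsGalois K L] {p : ℕ} [hp : Fact p.Prime]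
    (hcard : Nat.card (L ≃ₐ[K] L) = p) (S : Finset Nat.Primes)
    (hUnr : ∀ q : Nat.Primes, q ∉ S → ∀ f : semiLocalUnits (q : ℕ) K,
      f ∈ semiLocalIntegral (q : ℕ) K → ∃ g : semiLocalUnits (q : ℕ) L,
        g ∈ semiLocalIntegral (q : ℕ) L ∧
          semiLocalMap (algebraMap K L) f = ∏ σ : L ≃ₐ[K] L, σ • g) :
    (principalSubgroup K ⊔ normIdeles K L).index ≠ 0 ∧
      (principalSubgroup K ⊔ normIdeles K L).index ≤ p := by
  classical
  set pp : Nat.Primes := ⟨p, hp.out⟩ with hpp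
  set T : Finset Nat.Primes := insert pp S with hT
  have hpT : pp ∈ T := Finset.mem_insert_self pp S
  have hcard' : Nat.card (L ≃ₐ[K] L) = (pp : ℕ) := hcard
  have hUnr' : ∀ q : Nat.Primes, q ∉ T → ∀ f : semiLocalUnits (q : ℕ) K,
      f ∈ semiLocalIntegral (q : ℕ) K → ∃ g : semiLocalUnits (q : ℕ) L,
        g ∈ semiLocalIntegral (q : ℕ) L ∧
          semiLocalMap (algebraMap K L) f = ∏ σ : L ≃ₐ[K] L, σ • g :=
    fun q hq => hUnr q fun h => hq (Finset.mem_insert_of_mem h)
  have hfr : Module.finrank K L = p := by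
    rw [← hcard]
    exact (IsGalois.card_aut_eq_finrank K L).symm
  rw [← hfr]
  refine Second.index_ne_zero_and_le_finrank_of_rel_prime (L := L) (p := p)
    (principalSubgroup K ⊔ normIdeles K L) (fun x => ?_) (modulus_ne_bot pp T) (Rel pp T)
    (fun x I h => ⟨h.1, h.2.1⟩) rel_one rel_prime
    (fun x y I hx hy => Subgroup.mem_sup_right (rel_div_mem hUnr' hx hy))
    (fun x y I I' hx hy => rel_mul hx hy)
    (fun α h0 h1 => rel_principal hcard' α h0 h1)
    (fun w hw => rel_norm w hw)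
    (fun x => mem_closure hcard' hpT hUnr' x)
  rw [← hcard]
  exact Subgroup.mem_sup_right (pow_card_mem_normIdeles x)

end Main

end Fermat.Agent.CFT.SecondModel
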